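import Fermat.Agent.AbVar.Sq.Two

/-!
# S26: core statements on twisted sections
-/

set_option autoImplicit false
set_option linter.unusedSectionVars false

open TensorProduct

namespace Fermat.Agent.AbVar.Sq

section Coords

variable {k F : Type*} [Field k] [CommRing F] [Algebra k F] {T : Type*} [CommRing T] [Algebra k T]

lemma mem_baseChange_iff_coords {ι : Type*} [DecidableEq ι] (γ : Module.Basis ι k T)
    (I : Submodule k F) (a : T ⊗[k] F) :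
    a ∈ I.baseChange T ↔ ∀ l, TensorProduct.equivFinsuppOfBasisLeft γ a l ∈ I := by
  constructor
  · intro ha l
    let β := Module.Basis.ofVectorSpace k I
    obtain ⟨c, rfl⟩ := (mem_baseChange_iff β a).1 ha
    rw [tsum, map_finsuppSum, Finsupp.sum, Finsupp.finsetSum_apply]
    refine Submodule.sum_mem _ fun i _ => ?_
    rw [TensorProduct.equivFinsuppOfBasisLeft_apply_tmul_apply]
    exact Submodule.smul_mem _ _ (β i).2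
  · intro h
    rw [← (TensorProduct.equivFinsuppOfBasisLeft γ).symm_apply_apply a,
      TensorProduct.equivFinsuppOfBasisLeft_symm_apply]
    exact Submodule.sum_mem _ fun i _ => Submodule.tmul_mem_baseChange_of_mem _ (h i)

lemma mem_baseChange_inf {I I' : Submodule k F} {a : T ⊗[k] F} (h : a ∈ I.baseChange T)
    (h' : a ∈ I'.baseChange T) : a ∈ (I ⊓ I').baseChange T := by
  classical
  let γ := Module.Free.chooseBasis k T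
  rw [mem_baseChange_iff_coords γ] at h h' ⊢
  exact fun l => ⟨h l, h' l⟩

end Coords

section Triv

variable {k F : Type*} [Field k] [Field F] [Algebra k F]
  {κ' : Type*} [Field κ'] [Algebra k κ'] {E' : Type*} [Field E'] {τ' : κ' ⊗[k] F →+* E'}
  {B₀ B₁ B₂ : Subalgebra k F} {x : F} {I₀ I₁ : Submodule k F}

lemma mem_MM_one {B : Subalgebra k F} {I : Submodule k F} (hI : ∀ b ∈ B, ∀ a ∈ I, b * a ∈ I)
    {u : E'} : u ∈ MM τ' B (1 : PrimeSpectrum (κ' ⊗[k] B) → E'ˣ) I ↔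
      ∃ a ∈ I.baseChange κ', u = τ' a := by
  constructor
  · intro h
    obtain ⟨a, ha, e⟩ := h 1 (by
      intro q
      rw [inv_one, Pi.one_apply, Units.val_one, mul_one]
      exact one_mem _)
    exact ⟨a, ha, by rw [← e, mul_one]⟩
  · rintro ⟨a, ha, rfl⟩ b hb
    have hb' : b ∈ (chι τ' B).range := by
      refine mem_range_of_forall_locIn fun q => ?_
      have := hb q
      rwa [inv_one, Pi.one_apply, Units.val_one, mul_one] at this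
    obtain ⟨y, rfl⟩ := hb'
    exact ⟨inclB κ' B y * a, inclB_mul_mem hI y ha, by rw [map_mul, ← chι_apply, mul_comm]⟩

lemma triv_h1 (hS : SheafPair B₀ B₁ B₂ x I₀ I₁) (u' : E')
    (hu : u' ∈ MM01 τ' B₁ x hS.mem₁ (1 : PrimeSpectrum (κ' ⊗[k] B₁) → E'ˣ) I₁ hS.mul₁) :
    ∃ v₀ ∈ MM τ' B₀ (1 : PrimeSpectrum (κ' ⊗[k] B₀) → E'ˣ) I₀,
      ∃ v₁ ∈ MM τ' B₁ (1 : PrimeSpectrum (κ' ⊗[k] B₁) → E'ˣ) I₁, u' = v₀ + v₁ := by
  classical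
  obtain ⟨n, hn⟩ := hu
  rw [mem_MM_one hS.mul₁] at hn
  obtain ⟨a, ha, e⟩ := hn
  have hu' : u' = τ' (1 ⊗ₜ x) ^ n * τ' a := by
    rw [← e, tau_mul_ipow _ hS.ne_zero]
  let β := Module.Basis.ofVectorSpace k I₁
  obtain ⟨c, rfl⟩ := (mem_baseChange_iff β a).1 ha
  rw [hu', tsum, Finsupp.sum, map_sum, Finset.mul_sum]
  induction c.support using Finset.induction_on with
  | empty => exact ⟨0, zero_mem _, 0, zero_mem _, by simp⟩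
  | insert j s hj ih =>
    obtain ⟨v₀, hv₀, v₁, hv₁, e'⟩ := ih
    rw [Finset.sum_insert hj]
    obtain ⟨m, hm⟩ := hS.iloc₁ _ (β j).2
    obtain ⟨w₀, hw₀, w₁, hw₁, e''⟩ := hS.h1 (x ^ n * (β j : F)) ⟨m, by
      rw [mul_left_comm]
      exact hS.mul₀ _ (pow_mem hS.mem₀ n) _ hm⟩
    refine ⟨τ' (c j ⊗ₜ w₀) + v₀, add_mem ((mem_MM_one hS.mul₀).2
      ⟨_, Submodule.tmul_mem_baseChange_of_mem _ hw₀, rfl⟩) hv₀, τ' (c j ⊗ₜ w₁) + v₁,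
      add_mem ((mem_MM_one hS.mul₁).2 ⟨_, Submodule.tmul_mem_baseChange_of_mem _ hw₁, rfl⟩) hv₁, ?_⟩
    rw [e', ← tau_pow, ← map_mul, Algebra.TensorProduct.tmul_mul_tmul, one_mul, e'', tmul_add,
      map_add]
    ring

/-- sections of the untwisted sheaf -/
lemma triv_h0 (hS : SheafPair B₀ B₁ B₂ x I₀ I₁) {s : B₀}
    (hs : ∀ y ∈ I₀, y ∈ I₁ → ∃ c : k, y = c • (s : F)) (hτ' : Function.Injective τ') {u : E'}
    (hu₀ : u ∈ MM τ' B₀ (1 : PrimeSpectrum (κ' ⊗[k] B₀) → E'ˣ) I₀)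
    (hu₁ : u ∈ MM τ' B₁ (1 : PrimeSpectrum (κ' ⊗[k] B₁) → E'ˣ) I₁) :
    ∃ t : κ', u = τ' (t ⊗ₜ (s : F)) := by
  rw [mem_MM_one hS.mul₀] at hu₀
  rw [mem_MM_one hS.mul₁] at hu₁
  obtain ⟨a, ha, e⟩ := hu₀
  obtain ⟨a', ha', e'⟩ := hu₁
  obtain rfl : a = a' := hτ' (by rw [← e, ← e'])
  have h := mem_baseChange_inf ha ha'
  have hle : I₀ ⊓ I₁ ≤ Submodule.span k {(s : F)} := by
    rintro y ⟨h0, h1⟩
    obtain ⟨c, rfl⟩ := hs y h0 h1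
    exact Submodule.smul_mem _ _ (Submodule.mem_span_singleton_self _)
  have h2 := Submodule.baseChange_mono (A := κ') hle h
  rw [Submodule.baseChange_span, Set.image_singleton, Submodule.mem_span_singleton] at h2
  obtain ⟨t, ht⟩ := h2
  refine ⟨t, ?_⟩
  rw [e, ← ht]
  congr 1
  rw [TensorProduct.mk_apply, smul_tmul', smul_eq_mul, mul_one]

lemma triv_val {s : B₀} (hτ' : Function.Injective τ') (c : B₀ →ₐ[k] κ') (t : κ') :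
    valAt τ' (1 : PrimeSpectrum (κ' ⊗[k] B₀) → E'ˣ) c (τ' (t ⊗ₜ (s : F))) = t * c s := by
  rw [valAt, Pi.one_apply, Units.val_one, mul_one]
  have : τ' (t ⊗ₜ (s : F)) = chι τ' B₀ (t ⊗ₜ s) := rfl
  rw [this, spe_map (chι_injective τ' B₀ hτ'), evB_tmul, RingHom.id_apply]

end Triv

section Core

variable {k F : Type*} [Field k] [Field F] [Algebra k F]
  {R κ κ' : Type*} [CommRing R] [IsDomain R] [ValuationRing R] [Algebra k R]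
  [Field κ] [Algebra k κ] [Algebra R κ] [IsFractionRing R κ] [IsScalarTower k R κ]
  [Field κ'] [Algebra k κ'] {res : R →ₐ[k] κ'} [IsLocalHom res.toRingHom]
  {E E' : Type*} [Field E] [Field E'] {τ : κ ⊗[k] F →+* E} {τ' : κ' ⊗[k] F →+* E'}
  {B₀ B₁ B₂ : Subalgebra k F} {x : F} {I₀ I₁ : Submodule k F}
  {DR₀ : PrimeSpectrum (R ⊗[k] B₀) → Eˣ} {Dκ₀ : PrimeSpectrum (κ ⊗[k] B₀) → Eˣ}
  {D'₀ : PrimeSpectrum (κ' ⊗[k] B₀) → E'ˣ}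
  {DR₁ : PrimeSpectrum (R ⊗[k] B₁) → Eˣ} {Dκ₁ : PrimeSpectrum (κ ⊗[k] B₁) → Eˣ}
  {D'₁ : PrimeSpectrum (κ' ⊗[k] B₁) → E'ˣ}
  (hS : SheafPair B₀ B₁ B₂ x I₀ I₁)
  (hC₀ : CompatD res τ τ' B₀ DR₀ Dκ₀ D'₀) (hC₁ : CompatD res τ τ' B₁ DR₁ Dκ₁ D'₁)
  (hτ : Function.Injective τ) (hτ' : Function.Injective τ') (hres : Function.Surjective res)
  (hov : OverlapCompat hS.le₀ hS.le₁ DR₀ DR₁)

include hC₀ hC₁ hτ hτ' hov in
/-- primitive scaling of sections of the generic fibre -/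
theorem exists_primitive (hfr : ∀ u : E, ∃ a b : κ ⊗[k] F, b ≠ 0 ∧ u * τ b = τ a)
    {u : E} (hu : u ≠ 0) (hu₀ : u ∈ MM τ B₀ Dκ₀ I₀) (hu₁ : u ∈ MM τ B₁ Dκ₁ I₁) :
    ∃ r : κ, r ≠ 0 ∧ τ (r ⊗ₜ 1) * u ∈ MM (tauR R τ) B₀ DR₀ I₀ ∧
      τ (r ⊗ₜ 1) * u ∈ MM (tauR R τ) B₁ DR₁ I₁ ∧
      gres res τ τ' (τ (r ⊗ₜ 1) * u * DR₀ (spPt res τ' B₀)) ≠ 0 := by
  have hδ := hov.spPt_eq res τ'
  obtain ⟨r, hr, hm, hne⟩ := exists_scale (R := R) res τ τ' hτ hfr hτ'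
    (u * DR₀ (spPt res τ' B₀)) (mul_ne_zero hu (Units.ne_zero _))
  rw [← mul_assoc] at hm hne
  refine ⟨r, hr, ?_, ?_, hne⟩
  · exact hC₀.MM_of_gen hτ hτ' hS.mul₀ (chι_mul_mem_MM hS.mul₀ (r ⊗ₜ 1) hu₀) hm
  · rw [hδ] at hm
    exact hC₁.MM_of_gen hτ hτ' hS.mul₁ (chι_mul_mem_MM hS.mul₁ (r ⊗ₜ 1) hu₁) hm

include hC₀ hC₁ hτ hτ' hres hov in
/-- existence of sections of the generic fibre -/
theorem exists_section
    (hsp : ∀ u' ∈ MM01 τ' B₁ x hS.mem₁ D'₁ I₁ hS.mul₁, ∃ v₀ ∈ MM τ' B₀ D'₀ I₀,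
      ∃ v₁ ∈ MM τ' B₁ D'₁ I₁, u' = v₀ + v₁)
    {s' : E'} (hs : s' ≠ 0) (hs₀ : s' ∈ MM τ' B₀ D'₀ I₀) (hs₁ : s' ∈ MM τ' B₁ D'₁ I₁) :
    ∃ s ≠ 0, s ∈ MM τ B₀ Dκ₀ I₀ ∧ s ∈ MM τ B₁ Dκ₁ I₁ := by
  obtain ⟨s, h0, h1, e⟩ := exists_lift hS hC₀ hC₁ hτ hτ' hres hov hsp hs₀ hs₁
  refine ⟨s, ?_, hC₀.MM_gen hS.mul₀ h0, hC₁.MM_gen hS.mul₁ h1⟩
  rintro rfl
  rw [zero_mul, gres, spe_zero (tauR_injective τ hτ)] at e
  exact hs e.symm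

/-- hypothesis relating the local values at a point -/
def PtRel (DR₀ : PrimeSpectrum (R ⊗[k] B₀) → Eˣ) (Dκ₀ : PrimeSpectrum (κ ⊗[k] B₀) → Eˣ)
    (res : R →ₐ[k] κ') (τ : κ ⊗[k] F →+* E) (c : B₀ →ₐ[k] R) (dc : κ) : Prop :=
  ((DR₀ (PrimeSpectrum.comap (scal B₀ res).toRingHom (evPt (res.comp c))) /
      Dκ₀ (evPt ((frc k R κ).comp c)) : Eˣ) : E) ∈ locIn (chι τ B₀) (evPt ((frc k R κ).comp c)) ∧
  spe (chι τ B₀) (RingHom.id κ) (evB ((frc k R κ).comp c))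
      ((DR₀ (PrimeSpectrum.comap (scal B₀ res).toRingHom (evPt (res.comp c))) /
      Dκ₀ (evPt ((frc k R κ).comp c)) : Eˣ) : E) = dc

include hC₀ hC₁ hτ hτ' hov in
/-- nonvanishing on the special fibre implies that the values are units. -/
theorem values_unit (hfr : ∀ u : E, ∃ a b : κ ⊗[k] F, b ≠ 0 ∧ u * τ b = τ a)
    {ι : Type*} (c : ι → B₀ →ₐ[k] R) (dc : ι → κ) (H : ∀ i, PtRel DR₀ Dκ₀ res τ (c i) (dc i))
    (hNV : ∀ u' : E', u' ≠ 0 → u' ∈ MM τ' B₀ D'₀ I₀ → u' ∈ MM τ' B₁ D'₁ I₁ →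
      ∀ i, valAt τ' D'₀ (res.comp (c i)) u' ≠ 0)
    {u : E} (hu : u ≠ 0) (hu₀ : u ∈ MM τ B₀ Dκ₀ I₀) (hu₁ : u ∈ MM τ B₁ Dκ₁ I₁) :
    ∃ r : κ, r ≠ 0 ∧ ∀ i, ∃ v : Rˣ,
      r * valAt τ Dκ₀ ((frc k R κ).comp (c i)) u * dc i = algebraMap R κ v := by
  obtain ⟨r, hr, h0, h1, hne⟩ := exists_primitive hS hC₀ hC₁ hτ hτ' hov hfr hu hu₀ hu₁
  refine ⟨r, hr, fun i => ?_⟩
  have h0J : τ (r ⊗ₜ 1) * u ∈ J (chι (tauR R τ) B₀) DR₀ := mem_J_of_mem_MM hC₀.lc hS.sub₀ h0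
  obtain ⟨v, hv, hv'⟩ := hC₀.core_val hτ hτ' (c i) (dc i) (H i).1 (H i).2 h0J
  have hm1 := hC₀.MM_red hτ hτ' hS.mul₀ h0
  have hm2 := hC₁.MM_red hτ hτ' hS.mul₁ h1
  rw [← hov.spPt_eq res τ'] at hm2
  have hnz := hNV _ hne hm1 hm2 i
  rw [← hv'] at hnz
  obtain ⟨w, hw⟩ := (isUnit_map_iff res.toRingHom v).1 (isUnit_iff_ne_zero.2 hnz)
  refine ⟨w, ?_⟩
  have huJ : u ∈ J (chι τ B₀) Dκ₀ := by
    have := hC₀.J_gen h0J
    have h2 := J_smul (ι := chι τ B₀) (r⁻¹ ⊗ₜ 1) this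
    have e : chι τ B₀ (r⁻¹ ⊗ₜ 1) * (τ (r ⊗ₜ 1) * u) = u := by
      rw [← mul_assoc]
      have : chι τ B₀ (r⁻¹ ⊗ₜ 1) * τ (r ⊗ₜ 1) = 1 := by
        change τ (r⁻¹ ⊗ₜ 1) * τ (r ⊗ₜ 1) = 1
        rw [← map_mul, Algebra.TensorProduct.tmul_mul_tmul, one_mul, inv_mul_cancel₀ hr]
        exact map_one τ
      rw [this, one_mul]
    rwa [e] at h2
  rw [← valAt_smul τ hτ _ huJ, hv, hw]

end Core

end Fermat.Agent.AbVar.Sq
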