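import Fermat.Agent.AbVar.LVal
import Fermat.Agent.AbVar.Sq.Core

/-!
# S26: systems of local values attached to points with values in a ring
-/

set_option autoImplicit false
set_option linter.unusedSectionVars false
universe u

open CategoryTheory CategoryTheory.Limits AlgebraicGeometry TopologicalSpace IsLocalRing
open Fermat.Agent.Jac TensorProduct

namespace Fermat.Agent.AbVar.Sq

section General

variable {A : Scheme.{u}} {α : Type*} [Fintype α] (c : UnitCocycle A) (e : α → ℤ)
  {B : Type u} [CommRing B] {E : Type u} [Field E] (ι : B →+* E) (H : α → (Spec (.of B) ⟶ A))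

/-- the local values at a family of points, over the big field -/
noncomputable def lvE (P : α → A) : Eˣ :=
  lvalM c e (fun i => Spec.map (CommRingCat.ofHom ι) ≫ H i) P

/-- the system attached to points -/
noncomputable def DD (q : PrimeSpectrum B) : Eˣ :=
  lvE c e ι H (fun i => H i (q : PrimeSpectrum B))

variable {ι}

lemma comap_toLoc_closedPoint (hι : Function.Injective ι) (p : PrimeSpectrum B)
    [IsLocalRing (locIn ι p)] :
    PrimeSpectrum.comap (toLoc ι p) (closedPoint (locIn ι p)) = p := by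
  ext b
  change toLoc ι p b ∈ maximalIdeal _ ↔ _
  rw [mem_maximalIdeal, mem_nonunits_iff, isUnit_toLoc_iff hι, not_not]

lemma comap_closedPoint_field {B' : Type u} [CommRing B'] {E' : Type u} [Field E'] (ι' : B' →+* E')
    (ψ : B →+* B') :
    PrimeSpectrum.comap (ι'.comp ψ) (closedPoint E') = kerPt ι' ψ := by
  ext b
  change ι' (ψ b) ∈ maximalIdeal _ ↔ _
  rw [mem_maximalIdeal, mem_nonunits_iff, isUnit_iff_ne_zero, not_not]
  rfl

/-- the fundamental relation between local values in `E` and in `E'` -/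
theorem lvE_spe (hι : Function.Injective ι) {B' : Type u} [CommRing B'] {E' : Type u} [Field E']
    (ι' : B' →+* E') (ψ : B →+* B') (P : α → A)
    (hP : ∀ i, H i (kerPt ι' ψ : PrimeSpectrum B) ∈ c.U (P i)) :
    ((lvE c e ι H P / DD c e ι H (kerPt ι' ψ) : Eˣ) : E) ∈ locIn ι (kerPt ι' ψ) ∧
    spe ι ι' ψ ((lvE c e ι H P / DD c e ι H (kerPt ι' ψ) : Eˣ) : E) =
      lvalM c e (fun i => Spec.map (CommRingCat.ofHom (ι'.comp ψ)) ≫ H i) P := by
  set p := kerPt ι' ψ with hp
  have := locIn_isLocalRing hι p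
  let h : α → (Spec (.of (locIn ι p)) ⟶ A) := fun i => Spec.map (CommRingCat.ofHom (toLoc ι p)) ≫ H i
  have hcl : ∀ i, h i (clp (locIn ι p)) = H i (p : PrimeSpectrum B) := by
    intro i
    change H i ((Spec.map (CommRingCat.ofHom (toLoc ι p))) (clp (locIn ι p))) = _
    congr 1
    exact comap_toLoc_closedPoint hι p
  have hh2 : ∀ i, Spec.map (CommRingCat.ofHom ι) ≫ H i =
      Spec.map (CommRingCat.ofHom (locIn ι p).subtype) ≫ h i := by
    intro i
    simp only [h]
    rw [← Category.assoc, ← Spec.map_comp, ← CommRingCat.ofHom_comp]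
    rfl
  have hh1 : ∀ i, Spec.map (CommRingCat.ofHom (ι'.comp ψ)) ≫ H i =
      Spec.map (CommRingCat.ofHom (spz ι ι' ψ hι)) ≫ h i := by
    intro i
    simp only [h]
    rw [← Category.assoc, ← Spec.map_comp, ← CommRingCat.ofHom_comp]
    congr 3
    ext b
    exact (spz_map hι b _).symm
  have hPc : ∀ i, h i (clp (locIn ι p)) ∈ c.U (P i) := fun i => by rw [hcl]; exact hP i
  have e2 := lvalM_comp (locIn ι p).subtype c e h
    (fun i => Spec.map (CommRingCat.ofHom ι) ≫ H i) hh2 P hPc
  have e1 := lvalM_comp (spz ι ι' ψ hι) c e h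
    (fun i => Spec.map (CommRingCat.ofHom (ι'.comp ψ)) ≫ H i) hh1 P hPc
  have e3 : lvalM c e (fun i => Spec.map (CommRingCat.ofHom (ι'.comp ψ)) ≫ H i)
      (fun i => h i (clp (locIn ι p))) = 1 := by
    refine lvalM_self c e _ _ fun i => ?_
    rw [hcl]
    change _ = H i ((Spec.map (CommRingCat.ofHom (ι'.comp ψ))) (clp E'))
    congr 1
    exact (comap_closedPoint_field ι' ψ).symm
  rw [e3, mul_one] at e1
  have e4 : lvE c e ι H P / DD c e ι H p =
      Units.map (locIn ι p).subtype.toMonoidHom (lvalM c e h P) := by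
    rw [DD, lvE, lvE, e2]
    simp only [hcl]
    rw [mul_div_cancel_right]
  have e5 : ((lvE c e ι H P / DD c e ι H p : Eˣ) : E) =
      ((lvalM c e h P : (locIn ι p)ˣ) : locIn ι p) := by
    rw [e4]; rfl
  refine ⟨by rw [e5]; exact Subtype.mem _, ?_⟩
  rw [e5, spe_of_mem hι (Subtype.mem _), e1]
  rfl

/-- local constancy -/
theorem isLC_DD (hι : Function.Injective ι) : IsLC ι (DD c e ι H) := by
  intro q
  -- the open neighbourhood
  let V : (Spec (.of B)).Opens := ⨅ i, H i ⁻¹ᵁ c.U (H i (q : PrimeSpectrum B))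
  have hV : ∀ x : Spec (.of B), x ∈ V ↔ ∀ i, H i x ∈ c.U (H i (q : PrimeSpectrum B)) := by
    intro x
    simp only [V]
    rw [← SetLike.mem_coe, TopologicalSpace.Opens.coe_iInf]
    rw [Set.mem_iInter]
    rfl
  have hq : (q : PrimeSpectrum B) ∈ (V : Set (Spec (.of B))) := (hV q).2 fun i => c.mem _
  obtain ⟨_, ⟨f, rfl⟩, hqf, hfV⟩ := PrimeSpectrum.isTopologicalBasis_basic_opens.exists_subset_of_mem_open
    hq V.2
  refine ⟨f, hqf, fun q' hq' => ?_⟩
  have hq'V : ∀ i, H i (q' : PrimeSpectrum B) ∈ c.U (H i (q : PrimeSpectrum B)) :=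
    (hV q').1 (hfV hq')
  -- apply the relation with `ψ : B → residue field at q'`
  let E' := q'.asIdeal.ResidueField
  let ψ : B →+* q'.asIdeal.ResidueField := algebraMap B _
  have hker : kerPt (RingHom.id q'.asIdeal.ResidueField) ψ = q' := by
    ext b
    change ψ b = 0 ↔ _
    exact Ideal.algebraMap_residueField_eq_zero
  have key := lvE_spe c e H hι (RingHom.id _) ψ (fun i => H i (q : PrimeSpectrum B)) (by
    rw [hker]; exact hq'V)
  rw [hker] at key
  refine ⟨key.1, ?_⟩
  have hne : spe ι (RingHom.id _) ψ ((DD c e ι H q / DD c e ι H q' : Eˣ) : E) ≠ 0 := by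
    rw [DD]
    have h2 := key.2
    erw [h2]
    exact Units.ne_zero _
  have h3 := spe_inv_mem hι (ι' := RingHom.id _) (ψ := ψ) (by rw [hker]; exact key.1) hne
  rw [hker] at h3
  rwa [← Units.val_inv_eq_inv_val, inv_div] at h3

/-- functoriality without changing the field -/
lemma DD_comap {B' : Type u} [CommRing B'] {ι' : B' →+* E} (φ : B →+* B') (hφ : ι'.comp φ = ι)
    (q : PrimeSpectrum B') :
    DD c e ι' (fun i => Spec.map (CommRingCat.ofHom φ) ≫ H i) q =
      DD c e ι H (PrimeSpectrum.comap φ q) := by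
  subst hφ
  rw [DD, DD, lvE, lvE]
  congr 1
  funext i
  rw [← Category.assoc, ← Spec.map_comp, ← CommRingCat.ofHom_comp]

end General

section Tensor

variable {k F R κ κ' E E' : Type u} [Field k] [Field F] [Algebra k F]
  [CommRing R] [IsDomain R] [ValuationRing R] [Algebra k R]
  [Field κ] [Algebra k κ] [Algebra R κ] [IsFractionRing R κ] [IsScalarTower k R κ]
  [Field κ'] [Algebra k κ'] (res : R →ₐ[k] κ') [IsLocalHom res.toRingHom]
  [Field E] [Field E'] (τ : κ ⊗[k] F →+* E) (τ' : κ' ⊗[k] F →+* E')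
  {A : Scheme.{u}} {α : Type*} [Fintype α] (c : UnitCocycle A) (e : α → ℤ)

lemma mem_of_le {B : Type u} [CommRing B] (h : Spec (.of B) ⟶ A) {p q : PrimeSpectrum B} (hpq : p ≤ q)
    {U : A.Opens} (hU : h (q : PrimeSpectrum B) ∈ U) : h (p : PrimeSpectrum B) ∈ U := by
  have h1 : (p : PrimeSpectrum B) ⤳ q := (PrimeSpectrum.le_iff_specializes p q).1 hpq
  exact ((show (p : Spec (.of B)) ⤳ q from h1).map h.continuous).mem_open U.isOpen hU

variable (B : Subalgebra k F) (HR : α → (Spec (.of (R ⊗[k] B)) ⟶ A))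

/-- base change of a family of points of a chart -/
noncomputable def bcH {T T' : Type u} [CommRing T] [Algebra k T] [CommRing T'] [Algebra k T']
    (φ : T →ₐ[k] T') (H : α → (Spec (.of (T ⊗[k] B)) ⟶ A)) : α → (Spec (.of (T' ⊗[k] B)) ⟶ A) :=
  fun i => Spec.map (CommRingCat.ofHom (scal B φ).toRingHom) ≫ H i

lemma gres_eq_spe (hτ : Function.Injective τ) {y : E}
    (hy : y ∈ locIn (chι (tauR R τ) B) (spPt res τ' B)) :
    gres res τ τ' y = spe (chι (tauR R τ) B) (chι τ' B) (scal B res).toRingHom y := by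
  obtain ⟨a, s, hs, ey⟩ := hy
  rw [gres_eq res τ τ' B hτ hs ey, spe_eq (chι_injective _ B (tauR_injective τ hτ)) hs ey]
  rfl

theorem compatD_DD (hτ : Function.Injective τ) (hτ' : Function.Injective τ') :
    CompatD res τ τ' B (DD c e (chι (tauR R τ) B) HR) (DD c e (chι τ B) (bcH B (frc k R κ) HR))
      (DD c e (chι τ' B) (bcH B res HR)) := by
  have hι : Function.Injective (chι (tauR R τ) B) := chι_injective _ B (tauR_injective τ hτ)
  have hι' : Function.Injective (chι τ' B) := chι_injective _ B hτ'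
  have key : ∀ q' : PrimeSpectrum (κ' ⊗[k] B),
      ((DD c e (chι (tauR R τ) B) HR (PrimeSpectrum.comap (scal B res).toRingHom q') /
        DD c e (chι (tauR R τ) B) HR (spPt res τ' B) : Eˣ) : E) ∈
          locIn (chι (tauR R τ) B) (spPt res τ' B) ∧
      spe (chι (tauR R τ) B) (chι τ' B) (scal B res).toRingHom
        ((DD c e (chι (tauR R τ) B) HR (PrimeSpectrum.comap (scal B res).toRingHom q') /
        DD c e (chι (tauR R τ) B) HR (spPt res τ' B) : Eˣ) : E) =
          DD c e (chι τ' B) (bcH B res HR) q' := by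
    intro q'
    have h1 := lvE_spe c e HR hι (chι τ' B) (scal B res).toRingHom
      (fun i => HR i (PrimeSpectrum.comap (scal B res).toRingHom q' : PrimeSpectrum (R ⊗[k] B)))
      (fun i => mem_of_le (HR i) (kerPt_le_comap _ _ hι' q') (c.mem _))
    refine ⟨h1.1, h1.2.trans ?_⟩
    rw [DD, lvE]
    congr 2
    funext i
    rw [bcH, ← Category.assoc, ← Spec.map_comp, ← CommRingCat.ofHom_comp]
  refine ⟨isLC_DD c e HR hι, fun q => ?_, fun q' => ?_, fun q' => ?_⟩
  · exact DD_comap c e HR (scal B (frc k R κ)).toRingHom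
      (RingHom.ext fun x => chι_scal τ B x) q
  · exact locIn_le_gauss res τ τ' B (key q').1
  · rw [gres_eq_spe res τ τ' B hτ (key q').1]
    exact (key q').2

/-- the local value of a family of points with values in a local ring, seen in the fraction
field. -/
noncomputable def dval (κ : Type u) [Field κ] {R : Type u} [CommRing R] [IsLocalRing R]
    [Algebra R κ] (h : α → (Spec (.of R) ⟶ A)) : κˣ :=
  lvalM c e (fun i => Spec.map (CommRingCat.ofHom (algebraMap R κ)) ≫ h i) (fun i => h i (clp R))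

theorem ptRel_DD (hτ : Function.Injective τ) (pt : B →ₐ[k] R) :
    PtRel (DD c e (chι (tauR R τ) B) HR) (DD c e (chι τ B) (bcH B (frc k R κ) HR)) res τ pt
      (dval c e κ (fun i => Spec.map (CommRingCat.ofHom (evB pt)) ≫ HR i)) := by
  have hι : Function.Injective (chι τ B) := chι_injective _ B hτ
  set q : PrimeSpectrum (R ⊗[k] B) :=
    PrimeSpectrum.comap (scal B res).toRingHom (evPt (res.comp pt)) with hq
  have hle : PrimeSpectrum.comap (scal B (frc k R κ)).toRingHom (evPt ((frc k R κ).comp pt)) ≤ q := by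
    intro y hy
    have h1 : evB ((frc k R κ).comp pt) (scal B (frc k R κ) y) = 0 := hy
    rw [evB_scal] at h1
    have h2 : evB pt y = 0 := (map_eq_zero_iff _ (frc_injective k R κ)).1 h1
    change evB (res.comp pt) (scal B res y) = 0
    rw [evB_scal, h2, map_zero]
  have h1 := lvE_spe c e (bcH B (frc k R κ) HR) hι (RingHom.id κ) (evB ((frc k R κ).comp pt))
    (fun i => HR i (q : PrimeSpectrum (R ⊗[k] B)))
    (fun i => by
      change (Spec.map (CommRingCat.ofHom (scal B (frc k R κ)).toRingHom) ≫ HR i)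
        (evPt ((frc k R κ).comp pt) : PrimeSpectrum (κ ⊗[k] B)) ∈ _
      exact mem_of_le (HR i) hle (c.mem _))
  have h2 : lvE c e (chι τ B) (bcH B (frc k R κ) HR)
      (fun i => HR i (q : PrimeSpectrum (R ⊗[k] B))) = DD c e (chι (tauR R τ) B) HR q := by
    rw [DD, lvE, lvE]
    congr 1
    funext i
    rw [bcH, ← Category.assoc, ← Spec.map_comp, ← CommRingCat.ofHom_comp]
    congr 3
    exact RingHom.ext fun x => chι_scal τ B x
  rw [h2] at h1
  refine ⟨h1.1, h1.2.trans ?_⟩
  rw [dval]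
  congr 2
  · funext i
    rw [bcH, ← Category.assoc, ← Category.assoc, ← Spec.map_comp, ← Spec.map_comp,
      ← CommRingCat.ofHom_comp, ← CommRingCat.ofHom_comp]
    congr 3
    refine RingHom.ext fun x => ?_
    exact evB_scal (frc k R κ) pt x
  · funext i
    change HR i q = HR i ((Spec.map (CommRingCat.ofHom (evB pt))) (clp R))
    congr 1
    refine PrimeSpectrum.ext (Ideal.ext fun y => ?_)
    change evB (res.comp pt) (scal B res y) = 0 ↔ evB pt y ∈ maximalIdeal R
    rw [evB_scal, mem_maximalIdeal, mem_nonunits_iff, ← isUnit_map_iff res.toRingHom,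
      isUnit_iff_ne_zero, not_not]
    rfl

end Tensor

section Overlap

variable {k F T E : Type u} [Field k] [Field F] [Algebra k F] [CommRing T] [Algebra k T]
  [Field E] (τ : T ⊗[k] F →+* E) {A : Scheme.{u}} {α : Type*} [Fintype α] (c : UnitCocycle A)
  (e : α → ℤ) {B₀ B₁ B₂ : Subalgebra k F} (h₀ : B₀ ≤ B₂) (h₁ : B₁ ≤ B₂)

theorem overlap_DD (H₀ : α → (Spec (.of (T ⊗[k] B₀)) ⟶ A)) (H₁ : α → (Spec (.of (T ⊗[k] B₁)) ⟶ A))
    (h : ∀ i, Spec.map (CommRingCat.ofHom (inclT T h₀)) ≫ H₀ i =
      Spec.map (CommRingCat.ofHom (inclT T h₁)) ≫ H₁ i) :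
    OverlapCompat h₀ h₁ (DD c e (chι τ B₀) H₀) (DD c e (chι τ B₁) H₁) := by
  intro q
  rw [← DD_comap c e H₀ (inclT T h₀) (chι_inclT τ h₀) q,
    ← DD_comap c e H₁ (inclT T h₁) (chι_inclT τ h₁) q]
  congr 1
  funext i
  exact h i

end Overlap

end Fermat.Agent.AbVar.Sq
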