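import Fermat.Agent.AbVar.Sq.AffChart

/-!
# S26: the function `θ` generates the cube bundle on all charts
-/

set_option autoImplicit false
set_option linter.unusedSectionVars false
universe u

open CategoryTheory CategoryTheory.Limits AlgebraicGeometry TopologicalSpace IsLocalRing
open NeronModelInfra GoodReductionJacobian
open Fermat.Agent.Jac TensorProduct

namespace Fermat.Agent.AbVar.Sq

attribute [local instance] isDomain_tensor

section Sq8

variable {K : Type u} [Field K] {A : Scheme.{u}} {f : A ⟶ Spec (.of K)}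
  (L : RelativeGroupLaw K f)

lemma sq8_comp {S S' : Scheme.{u}} {t : S ⟶ Spec (.of K)} {t' : S' ⟶ Spec (.of K)} (ψ : S' ⟶ S)
    (hψ : ψ ≫ t = t') (x y z : SchemeHomOver t f) (i : Fin 8) :
    ψ ≫ sq8 L t x y z i = sq8 L t' (schemeHomOverComp ψ hψ x) (schemeHomOverComp ψ hψ y)
      (schemeHomOverComp ψ hψ z) i := by
  have h1 := L.mul_natural t t' ψ hψ (L.mul t x y) z
  have h2 := L.mul_natural t t' ψ hψ x y
  have h3 := L.mul_natural t t' ψ hψ x z
  have h4 := L.mul_natural t t' ψ hψ y z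
  have h5 := L.one_natural t t' ψ hψ
  fin_cases i
  · change (schemeHomOverComp ψ hψ (L.mul t (L.mul t x y) z)).1 = _
    rw [h1, h2]; rfl
  · change (schemeHomOverComp ψ hψ (L.mul t x y)).1 = _
    rw [h2]; rfl
  · change (schemeHomOverComp ψ hψ (L.mul t x z)).1 = _
    rw [h3]; rfl
  · change (schemeHomOverComp ψ hψ (L.mul t y z)).1 = _
    rw [h4]; rfl
  · rfl
  · rfl
  · rfl
  · change (schemeHomOverComp ψ hψ (L.one t)).1 = _
    rw [h5]; rfl

lemma sq8_congr {S : Scheme.{u}} {t t' : S ⟶ Spec (.of K)} {x y z : SchemeHomOver t f}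
    {x' y' z' : SchemeHomOver t' f} (hx : x.1 = x'.1) (hy : y.1 = y'.1) (hz : z.1 = z'.1) :
    sq8 L t x y z = sq8 L t' x' y' z' := by
  obtain rfl : t = t' := by rw [← x.2, ← x'.2, hx]
  obtain rfl : x = x' := Subtype.ext hx
  obtain rfl : y = y' := Subtype.ext hy
  obtain rfl : z = z' := Subtype.ext hz
  rfl

variable {T T' : Type u} [CommRing T] [Algebra K T] [CommRing T'] [Algebra K T']
  {F : Type u} [Field F] [Algebra K F]

/-- the eight families on a chart -/
noncomputable def HH8 {B : Subalgebra K F} (x y : Pt f K T) (j : Pt f K B) :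
    Fin 8 → (Spec (.of (T ⊗[K] B)) ⟶ A) :=
  sq8 L (strK K K (T ⊗[K] B)) (Pt.map Algebra.TensorProduct.includeLeft x)
    (Pt.map Algebra.TensorProduct.includeLeft y) (Pt.map Algebra.TensorProduct.includeRight j)

lemma map_scal_left {B : Subalgebra K F} (φ : T →ₐ[K] T') (w : Pt f K T) :
    Pt.map (scal B φ) (Pt.map (Algebra.TensorProduct.includeLeft : T →ₐ[K] T ⊗[K] B) w) =
      Pt.map (Algebra.TensorProduct.includeLeft : T' →ₐ[K] T' ⊗[K] B) (Pt.map φ w) := by
  rw [Pt.map_map, Pt.map_map]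
  congr 1

lemma map_scal_right {B : Subalgebra K F} (φ : T →ₐ[K] T') (j : Pt f K B) :
    Pt.map (scal B φ) (Pt.map (Algebra.TensorProduct.includeRight : B →ₐ[K] T ⊗[K] B) j) =
      Pt.map (Algebra.TensorProduct.includeRight : B →ₐ[K] T' ⊗[K] B) j := by
  rw [Pt.map_map]
  congr 1
  refine AlgHom.ext fun b => ?_
  change φ 1 ⊗ₜ b = 1 ⊗ₜ b
  rw [_root_.map_one]

lemma bcH_HH8 {B : Subalgebra K F} (φ : T →ₐ[K] T') (x y : Pt f K T) (j : Pt f K B) :
    bcH B φ (HH8 L x y j) = HH8 L (Pt.map φ x) (Pt.map φ y) j := by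
  funext i
  rw [bcH, HH8, HH8, sq8_comp L _ (map_strK (scal B φ))]
  have h : ∀ w : Pt f K T, schemeHomOverComp _ (map_strK (scal B φ))
      (Pt.map (Algebra.TensorProduct.includeLeft : T →ₐ[K] T ⊗[K] B) w) =
      Pt.map (Algebra.TensorProduct.includeLeft : T' →ₐ[K] T' ⊗[K] B) (Pt.map φ w) :=
    fun w => map_scal_left φ w
  have h2 : schemeHomOverComp _ (map_strK (scal B φ))
      (Pt.map (Algebra.TensorProduct.includeRight : B →ₐ[K] T ⊗[K] B) j) =
      Pt.map (Algebra.TensorProduct.includeRight : B →ₐ[K] T' ⊗[K] B) j :=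
    map_scal_right φ j
  rw [h, h, h2]

lemma evB_HH8 {B : Subalgebra K F} (pt : B →ₐ[K] T) (x y : Pt f K T) (j : Pt f K B) (i : Fin 8) :
    Spec.map (CommRingCat.ofHom (evB pt)) ≫ HH8 L x y j i =
      sq8 L (strK K K T) x y (Pt.map pt j) i := by
  let ev : T ⊗[K] B →ₐ[K] T :=
    Algebra.TensorProduct.lift (AlgHom.id K T) pt (fun _ _ => Commute.all _ _)
  have h0 : evB pt = ev.toRingHom := rfl
  rw [h0, HH8, sq8_comp L _ (map_strK ev)]
  have h : ∀ w : Pt f K T, schemeHomOverComp _ (map_strK ev)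
      (Pt.map (Algebra.TensorProduct.includeLeft : T →ₐ[K] T ⊗[K] B) w) = w := by
    intro w
    change Pt.map ev _ = _
    rw [Pt.map_map]
    have : ev.comp Algebra.TensorProduct.includeLeft = AlgHom.id K T := by
      refine AlgHom.ext fun t => ?_
      simp [ev]
    rw [this, Pt.map_id]
  have h2 : schemeHomOverComp _ (map_strK ev)
      (Pt.map (Algebra.TensorProduct.includeRight : B →ₐ[K] T ⊗[K] B) j) = Pt.map pt j := by
    change Pt.map ev _ = _
    rw [Pt.map_map]
    congr 1
    refine AlgHom.ext fun b => ?_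
    simp [ev]
  rw [h, h, h2]

lemma inclT_HH8 {B B' : Subalgebra K F} (h : B ≤ B') (x y : Pt f K T) (j : Pt f K B) (i : Fin 8) :
    Spec.map (CommRingCat.ofHom (inclT T h)) ≫ HH8 L x y j i =
      HH8 L x y (Pt.map (Subalgebra.inclusion h) j) i := by
  let φ : T ⊗[K] B →ₐ[K] T ⊗[K] B' :=
    Algebra.TensorProduct.map (AlgHom.id K T) (Subalgebra.inclusion h)
  have h0 : inclT T h = φ.toRingHom := rfl
  rw [h0, HH8, HH8, sq8_comp L _ (map_strK φ)]
  have h : ∀ w : Pt f K T, schemeHomOverComp _ (map_strK φ)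
      (Pt.map (Algebra.TensorProduct.includeLeft : T →ₐ[K] T ⊗[K] B) w) =
      Pt.map (Algebra.TensorProduct.includeLeft : T →ₐ[K] T ⊗[K] B') w := by
    intro w
    change Pt.map φ _ = _
    rw [Pt.map_map]
    congr 1
  have h2 : schemeHomOverComp _ (map_strK φ)
      (Pt.map (Algebra.TensorProduct.includeRight : B →ₐ[K] T ⊗[K] B) j) =
      Pt.map (Algebra.TensorProduct.includeRight : B' →ₐ[K] T ⊗[K] B')
        (Pt.map (Subalgebra.inclusion ‹_›) j) := by
    change Pt.map φ _ = _
    rw [Pt.map_map, Pt.map_map]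
    congr 1
  rw [h, h, h2]

end Sq8

variable {K : Type u} [Field K] [IsAlgClosed K] {A : Scheme.{u}} {f : A ⟶ Spec (.of K)}
  [IsIntegral A] (L : RelativeGroupLaw K f) (c : UnitCocycle A)

/-- valuative property of `θ` over the field `T` with points `x y`. -/
def ThetaVal (T : Type u) [Field T] [Algebra K T] (x y : Spec (.of T) ⟶ A)
    (θ : EE K (FF f) T) : Prop :=
  ∀ (R : Type u) [CommRing R] [IsDomain R] [ValuationRing R] [Algebra R (EE K (FF f) T)]
    [IsFractionRing R (EE K (FF f) T)] (φ : T →+* R)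
    (_ : (algebraMap R (EE K (FF f) T)).comp φ =
      (tt K (FF f) T).comp Algebra.TensorProduct.includeLeftRingHom)
    (t : Spec (.of R) ⟶ Spec (.of K)) (x' y' z' : SchemeHomOver t f),
    x'.1 = Spec.map (CommRingCat.ofHom φ) ≫ x → y'.1 = Spec.map (CommRingCat.ofHom φ) ≫ y →
    Spec.map (CommRingCat.ofHom (algebraMap R (EE K (FF f) T))) ≫ z'.1 = gz f T →
    ∃ v : Rˣ, θ * dval c e8 (EE K (FF f) T) (sq8 L t x' y' z') =
      algebraMap R (EE K (FF f) T) v

variable {T : Type u} [Field T] [Algebra K T]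

/-- the cube system on a chart -/
noncomputable def D8 (x y : Pt f K T) (ch : AffCh f) :
    PrimeSpectrum (T ⊗[K] ch.C) → (EE K (FF f) T)ˣ :=
  DD c e8 (chι (tt K (FF f) T) ch.C) (HH8 L x y ch.pt)

theorem theta_mem [Smooth f] {x y : Pt f K T} {θ : EE K (FF f) T}
    (hθ : ThetaVal L c T x.1 y.1 θ) (ch : AffCh f) :
    θ ∈ J (chι (tt K (FF f) T) ch.C) (D8 L c x y ch) ∧
    θ⁻¹ ∈ J (chι (tt K (FF f) T) ch.C) (D8 L c x y ch)⁻¹ := by
  have hι : Function.Injective (chι (tt K (FF f) T) ch.C) := chι_injective _ _ (tt_injective T)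
  have key : ∀ (q : PrimeSpectrum (T ⊗[K] ch.C)) (V : ValuationSubring (EE K (FF f) T)),
      (locIn (chι (tt K (FF f) T) ch.C) q ≤ V.toSubring) →
      ∃ v : Vˣ, θ * D8 L c x y ch q = (v : V) := by
    intro q V hV
    let g : T ⊗[K] ch.C →+* V := (chι (tt K (FF f) T) ch.C).codRestrict V
      (fun b => hV (map_mem_locIn b q))
    let t : Spec (.of V) ⟶ Spec (.of K) := Spec.map (CommRingCat.ofHom g) ≫ strK K K (T ⊗[K] ch.C)
    let x' : SchemeHomOver t f := schemeHomOverComp (Spec.map (CommRingCat.ofHom g)) rfl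
      (Pt.map Algebra.TensorProduct.includeLeft x)
    let y' : SchemeHomOver t f := schemeHomOverComp (Spec.map (CommRingCat.ofHom g)) rfl
      (Pt.map Algebra.TensorProduct.includeLeft y)
    let z' : SchemeHomOver t f := schemeHomOverComp (Spec.map (CommRingCat.ofHom g)) rfl
      (Pt.map Algebra.TensorProduct.includeRight ch.pt)
    have hsq : ∀ i, sq8 L t x' y' z' i =
        Spec.map (CommRingCat.ofHom g) ≫ HH8 L x y ch.pt i := by
      intro i
      rw [HH8, sq8_comp L _ rfl]
    obtain ⟨v, hv⟩ := hθ V (g.comp Algebra.TensorProduct.includeLeftRingHom) (by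
      refine RingHom.ext fun a => ?_
      rfl) t x' y' z' (by
        change Spec.map _ ≫ Spec.map _ ≫ x.1 = _
        rw [← Category.assoc, ← Spec.map_comp]
        rfl) (by
        change Spec.map _ ≫ Spec.map _ ≫ y.1 = _
        rw [← Category.assoc, ← Spec.map_comp]
        rfl) (by
        change Spec.map _ ≫ Spec.map _ ≫ Spec.map _ ≫ ch.j = _
        rw [gz, ← ch.gen, ← Category.assoc, ← Category.assoc, ← Category.assoc, ← Spec.map_comp,
          ← Spec.map_comp, ← Spec.map_comp]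
        rfl)
    have hle : ∀ i, (Spec.map (CommRingCat.ofHom g) ≫ HH8 L x y ch.pt i) (clp V) ∈
        c.U (HH8 L x y ch.pt i q) := by
      intro i
      change (HH8 L x y ch.pt i) (PrimeSpectrum.comap g (closedPoint V)) ∈ _
      refine mem_of_le _ ?_ (c.mem _)
      intro b hb
      by_contra hbq
      have h1 := hV (inv_map_mem_locIn hι hbq)
      have h2 : IsUnit (g b) := by
        refine IsUnit.of_mul_eq_one ⟨_, h1⟩ (Subtype.ext ?_)
        change chι (tt K (FF f) T) ch.C b * (chι (tt K (FF f) T) ch.C b)⁻¹ = 1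
        refine mul_inv_cancel₀ fun h0 => ?_
        have : b = 0 := hι (by rw [h0, map_zero])
        exact hbq (this ▸ q.asIdeal.zero_mem)
      exact hb h2
    have e1 := lvalM_comp (algebraMap V (EE K (FF f) T)) c e8
      (fun i => Spec.map (CommRingCat.ofHom g) ≫ HH8 L x y ch.pt i)
      (fun i => Spec.map (CommRingCat.ofHom (chι (tt K (FF f) T) ch.C)) ≫ HH8 L x y ch.pt i)
      (fun i => by
        rw [← Category.assoc, ← Spec.map_comp, ← CommRingCat.ofHom_comp]
        rfl)
      (fun i => HH8 L x y ch.pt i q) hle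
    set w := lvalM c e8 (fun i => Spec.map (CommRingCat.ofHom g) ≫ HH8 L x y ch.pt i)
      (fun i => HH8 L x y ch.pt i q)
    have e2 : dval c e8 (EE K (FF f) T) (sq8 L t x' y' z') =
        lvalM c e8 (fun i => Spec.map (CommRingCat.ofHom (chι (tt K (FF f) T) ch.C)) ≫
          HH8 L x y ch.pt i)
        (fun i => (Spec.map (CommRingCat.ofHom g) ≫ HH8 L x y ch.pt i) (clp V)) := by
      rw [dval]
      congr 1
      · funext i
        rw [hsq, ← Category.assoc, ← Spec.map_comp, ← CommRingCat.ofHom_comp]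
        rfl
      · funext i
        rw [hsq]
    refine ⟨v * w, ?_⟩
    have e3 : (D8 L c x y ch q : EE K (FF f) T) =
        (algebraMap V (EE K (FF f) T) w) * dval c e8 (EE K (FF f) T) (sq8 L t x' y' z') := by
      rw [e2]
      exact congrArg Units.val e1
    rw [e3, mul_left_comm, hv, mul_comm]
    rfl
  constructor
  · intro q
    refine mem_locIn_of_valuations ch T q _ fun V hV => ?_
    obtain ⟨v, hv⟩ := key q V hV
    rw [hv]
    exact Subtype.mem _
  · intro q
    refine mem_locIn_of_valuations ch T q _ fun V hV => ?_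
    obtain ⟨v, hv⟩ := key q V hV
    rw [Pi.inv_apply, Units.val_inv_eq_inv_val, ← mul_inv, hv]
    have : ((v : V) : EE K (FF f) T)⁻¹ = ((v⁻¹ : Vˣ) : V) := by
      refine inv_eq_of_mul_eq_one_left ?_
      have := congrArg Subtype.val (Units.inv_mul v)
      exact this
    rw [this]
    exact Subtype.mem _

end Fermat.Agent.AbVar.Sq
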