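import Fermat.Agent.AbVar.Sq.IsGen
import Fermat.Agent.AbVar.GrowthAlg

/-!
# S26: descent of generators of the cube bundle along a field extension
-/

set_option autoImplicit false
set_option linter.unusedSectionVars false
universe u

open CategoryTheory CategoryTheory.Limits AlgebraicGeometry TopologicalSpace IsLocalRing
open NeronModelInfra GoodReductionJacobian
open Fermat.Agent.Jac TensorProduct

namespace Fermat.Agent.AbVar.Sq

attribute [local instance] isDomain_tensor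

section Functional

variable {K F M k' : Type*} [Field K] [CommRing F] [Algebra K F] [Field M] [Algebra K M]
  [Field k'] [Algebra K k'] (ρ : M →ₐ[K] k')

/-- functionals `k' → M` which are `M`-linear -/
def IsML (l : k' →ₗ[K] M) : Prop := ∀ a b, l (ρ a * b) = a * l b

variable {ρ}

lemma rTensor_scal_mul {l : k' →ₗ[K] M} (hl : IsML ρ l) (a : M ⊗[K] F) (m : k' ⊗[K] F) :
    l.rTensor F (scal F ρ a * m) = a * l.rTensor F m := by
  induction a with
  | zero => rw [map_zero, zero_mul, map_zero, zero_mul]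
  | add a b ha hb => rw [map_add, add_mul, map_add, ha, hb, add_mul]
  | tmul t x =>
    induction m with
    | zero => rw [mul_zero, map_zero, mul_zero]
    | add a b ha hb => rw [mul_add, map_add, ha, hb, map_add, mul_add]
    | tmul s y =>
      rw [scal_tmul, Algebra.TensorProduct.tmul_mul_tmul, LinearMap.rTensor_tmul,
        LinearMap.rTensor_tmul, Algebra.TensorProduct.tmul_mul_tmul, hl]

lemma exists_functional {m : k' ⊗[K] F} (hm : m ≠ 0) :
    ∃ l : k' →ₗ[K] M, IsML ρ l ∧ l.rTensor F m ≠ 0 := by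
  classical
  let β := Module.Basis.ofVectorSpace K F
  let e := TensorProduct.equivFinsuppOfBasisRight (M := k') β
  have h1 : e m ≠ 0 := fun h => hm (e.injective (by rw [h, map_zero]))
  obtain ⟨i, hi⟩ := Finsupp.ne_iff.1 h1
  rw [Finsupp.zero_apply] at hi
  let _ : Algebra M k' := ρ.toRingHom.toAlgebra
  have : IsScalarTower K M k' := IsScalarTower.of_algebraMap_eq' ρ.comp_algebraMap.symm
  obtain ⟨φ, hφ⟩ : ∃ φ : Module.Dual M k', φ (e m i) ≠ 0 := by
    by_contra! hcon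
    exact hi ((Module.forall_dual_apply_eq_zero_iff M (e m i)).1 hcon)
  let l : k' →ₗ[K] M := φ.restrictScalars K
  refine ⟨l, fun a b => ?_, ?_⟩
  · change φ (a • b) = a * φ b
    rw [map_smul, smul_eq_mul]
  · intro h
    let e' := TensorProduct.equivFinsuppOfBasisRight (M := M) β
    have h2 : ∀ m : k' ⊗[K] F, e' (l.rTensor F m) i = l (e m i) := by
      intro m
      induction m with
      | zero => simp
      | add a b ha hb => rw [map_add, map_add, Finsupp.add_apply, ha, hb, map_add, Finsupp.add_apply,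
          map_add]
      | tmul t x =>
        rw [LinearMap.rTensor_tmul]
        simp only [e, e', TensorProduct.equivFinsuppOfBasisRight_apply_tmul_apply]
        rw [map_smul]
    apply hφ
    have h3 := h2 m
    rw [h, map_zero, Finsupp.zero_apply] at h3
    exact h3.symm

end Functional

section DescendJ

variable {K F M k' : Type*} [Field K] [IsAlgClosed K] [Field F] [Algebra K F] [Field M]
  [Algebra K M] [Field k'] [Algebra K k'] {ρ : M →ₐ[K] k'} {C : Subalgebra K F}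
  {E E' : Type*} [Field E] [Field E'] {τ : M ⊗[K] F →+* E} {τ' : k' ⊗[K] F →+* E'}
  {ρE : E →+* E'} {D : PrimeSpectrum (M ⊗[K] C) → Eˣ} {D' : PrimeSpectrum (k' ⊗[K] C) → E'ˣ}

lemma descend_aux (hρE : ∀ a, ρE (τ a) = τ' (scal F ρ a)) (hLC : IsLC (chι τ C) D)
    (hD : ∀ q', D' q' = Units.map ρE.toMonoidHom (D (PrimeSpectrum.comap
      (scal C ρ).toRingHom q')))
    {θ : E'} (hθ : θ ∈ J (chι τ' C) D') (q : PrimeSpectrum (M ⊗[K] C)) :
    ∃ s ∉ q.asIdeal, ∃ (n : ℕ) (w : k' ⊗[K] C),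
      θ * ρE (D q) * τ' (scal F ρ (inclB M C s)) ^ n = τ' (inclB k' C w) := by
  obtain ⟨s, hs, H⟩ := hLC q
  have h1 : ∀ q' : PrimeSpectrum (k' ⊗[K] C), scal C ρ s ∉ q'.asIdeal →
      θ * ρE (D q) ∈ locIn (chι τ' C) q' := by
    intro q' hq'
    have h2 := (H (PrimeSpectrum.comap (scal C ρ).toRingHom q') hq').1
    have h3 := hθ q'
    rw [hD] at h3
    have h4 : ρE ((D q / D (PrimeSpectrum.comap (scal C ρ).toRingHom q') : Eˣ) : E) ∈
        locIn (chι τ' C) q' := by
      obtain ⟨a, b, hb, e⟩ := h2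
      refine ⟨scal C ρ a, scal C ρ b, hb, ?_⟩
      rw [chι_apply, chι_apply, inclB_scal, inclB_scal, ← hρE, ← hρE, ← map_mul]
      exact congrArg ρE e
    have h5 := mul_mem h3 h4
    have e : θ * ((Units.map ρE.toMonoidHom (D (PrimeSpectrum.comap (scal C ρ).toRingHom q')) :
        E'ˣ) : E') * ρE ((D q / D (PrimeSpectrum.comap (scal C ρ).toRingHom q') : Eˣ) : E) =
        θ * ρE (D q) := by
      rw [mul_assoc]
      congr 1
      change ρE _ * ρE _ = _
      rw [← map_mul, ← Units.val_mul, mul_div_cancel]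
    rwa [e] at h5
  obtain ⟨n, w, hw⟩ := exists_pow_mul_mem_range (ι := chι τ' C) (scal C ρ s) h1
  refine ⟨s, hs, n, w, ?_⟩
  rw [← inclB_scal]
  exact hw.symm

lemma exists_num (hτ : Function.Injective τ) (hρE : ∀ a, ρE (τ a) = τ' (scal F ρ a))
    (hfr : ∀ z : E, ∃ a b, b ≠ 0 ∧ z * τ b = τ a)
    (hLC : IsLC (chι τ C) D)
    (hD : ∀ q', D' q' = Units.map ρE.toMonoidHom (D (PrimeSpectrum.comap
      (scal C ρ).toRingHom q')))
    {θ : E'} (hθ : θ ∈ J (chι τ' C) D') :
    ∃ (m : k' ⊗[K] F) (a : M ⊗[K] F), a ≠ 0 ∧ θ * τ' (scal F ρ a) = τ' m := by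
  have := isDomain_tensor K M C
  obtain ⟨s, hs, n, w, hw⟩ := descend_aux hρE hLC hD hθ ⟨⊥, Ideal.isPrime_bot⟩
  obtain ⟨b₁, b₂, hb₂, e⟩ := hfr (D ⟨⊥, Ideal.isPrime_bot⟩)
  have hb₁ : b₁ ≠ 0 := by
    rintro rfl
    rw [map_zero, mul_eq_zero] at e
    exact e.elim (Units.ne_zero _) fun h => hb₂ (hτ (by rw [h, map_zero]))
  have hs0 : inclB M C s ≠ 0 := by
    intro h
    apply hs
    have : s = 0 := inclB_injective C (by rw [h, map_zero])
    rw [this]
    exact Ideal.zero_mem _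
  refine ⟨inclB k' C w * scal F ρ b₂, b₁ * inclB M C s ^ n, mul_ne_zero hb₁ (pow_ne_zero n hs0), ?_⟩
  rw [map_mul τ', ← hw, ← hρE b₂, map_mul (scal F ρ), map_mul τ', ← hρE b₁, ← e, map_mul ρE,
    map_pow, map_pow]
  ring

lemma descend_J (hτ : Function.Injective τ) (hτ' : Function.Injective τ')
    (hρE : ∀ a, ρE (τ a) = τ' (scal F ρ a))
    (hfr : ∀ z : E, ∃ a b, b ≠ 0 ∧ z * τ b = τ a)
    (hLC : IsLC (chι τ C) D)
    (hD : ∀ q', D' q' = Units.map ρE.toMonoidHom (D (PrimeSpectrum.comap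
      (scal C ρ).toRingHom q')))
    {θ : E'} (hθ : θ ∈ J (chι τ' C) D') {l : k' →ₗ[K] M} (hl : IsML ρ l)
    {m : k' ⊗[K] F} {a : M ⊗[K] F} (ha : a ≠ 0) (hm : θ * τ' (scal F ρ a) = τ' m) {u : E}
    (hu : u * τ a = τ (l.rTensor F m)) : u ∈ J (chι τ C) D := by
  intro q
  obtain ⟨s, hs, n, w, hw⟩ := descend_aux hρE hLC hD hθ q
  obtain ⟨b₁, b₂, hb₂, e⟩ := hfr (D q)
  have h1 : scal F ρ (b₁ * inclB M C s ^ n) * m = scal F ρ (b₂ * a) * inclB k' C w := by
    apply hτ'
    rw [map_mul τ', map_mul τ', ← hw, ← hm, ← hρE, ← hρE, ← hρE, ← hρE]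
    simp only [map_mul, map_pow, ← e]
    ring
  have h2 := congrArg (l.rTensor F) h1
  rw [rTensor_scal_mul hl, rTensor_scal_mul hl] at h2
  have h3' : ∀ w : k' ⊗[K] C, l.rTensor F (inclB k' C w) = inclB M C (l.rTensor C w) := by
    intro w
    induction w with
    | zero => simp
    | tmul t x => rfl
    | add x y hx hy => rw [map_add, map_add, hx, hy, map_add, map_add]
  have h3 := h3' w
  refine ⟨l.rTensor C w, s ^ n, fun h => hs (q.2.mem_of_pow_mem _ h), ?_⟩
  have ha0 : τ a ≠ 0 := fun h => ha (hτ (by rw [h, map_zero]))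
  have hb0 : τ b₂ ≠ 0 := fun h => hb₂ (hτ (by rw [h, map_zero]))
  rw [chι_apply, chι_apply, ← h3]
  apply mul_right_cancel₀ (mul_ne_zero ha0 hb0)
  have h4 := congrArg τ h2
  simp only [map_mul, map_pow] at h4 ⊢
  rw [← hu, ← e] at h4
  linear_combination h4

end DescendJ

variable {K : Type u} [Field K] [IsAlgClosed K] {A : Scheme.{u}} {f : A ⟶ Spec (.of K)}
  [IsIntegral A] (L : RelativeGroupLaw K f) (c : UnitCocycle A)

section Map

variable {M k' : Type u} [Field M] [Algebra K M] [Field k'] [Algebra K k'] (ρ : M →ₐ[K] k')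

/-- the map of function fields -/
noncomputable def ρEE (f : A ⟶ Spec (.of K)) :
    EE K (FF f) M →+* EE K (FF f) k' :=
  IsFractionRing.lift (A := M ⊗[K] FF f) (g := (tt K (FF f) k').comp (scal (FF f) ρ).toRingHom)
    ((tt_injective k').comp (scal_injective ρ ρ.injective))

lemma ρEE_tt (a : M ⊗[K] FF f) : ρEE ρ f (tt K (FF f) M a) = tt K (FF f) k' (scal (FF f) ρ a) :=
  IsFractionRing.lift_algebraMap (A := M ⊗[K] FF f)
    (g := (tt K (FF f) k').comp (scal (FF f) ρ).toRingHom)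
    ((tt_injective k').comp (scal_injective ρ ρ.injective)) a

lemma D8_map (x y : Pt f K M) (ch : AffCh f) (q' : PrimeSpectrum (k' ⊗[K] ch.C)) :
    D8 L c (Pt.map ρ x) (Pt.map ρ y) ch q' = Units.map (ρEE ρ f).toMonoidHom
      (D8 L c x y ch (PrimeSpectrum.comap (scal ch.C ρ).toRingHom q')) := by
  set q : PrimeSpectrum (M ⊗[K] ch.C) := PrimeSpectrum.comap (scal ch.C ρ).toRingHom q' with hq
  have hcl2 : Spec.map (CommRingCat.ofHom (ρEE ρ f)) (clp (EE K (FF f) k')) =
      clp (EE K (FF f) M) := IsLocalRing.comap_closedPoint (ρEE ρ f)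
  have hh : ∀ i, Spec.map (CommRingCat.ofHom (chι (tt K (FF f) k') ch.C)) ≫
      HH8 L (Pt.map ρ x) (Pt.map ρ y) ch.pt i = Spec.map (CommRingCat.ofHom (ρEE ρ f)) ≫
        Spec.map (CommRingCat.ofHom (chι (tt K (FF f) M) ch.C)) ≫ HH8 L x y ch.pt i := by
    intro i
    rw [← bcH_HH8, bcH, ← Category.assoc, ← Category.assoc, ← Spec.map_comp, ← Spec.map_comp,
      ← CommRingCat.ofHom_comp, ← CommRingCat.ofHom_comp]
    congr 3
    refine RingHom.ext fun a => ?_
    change chι (tt K (FF f) k') ch.C (scal ch.C ρ a) = ρEE ρ f (chι (tt K (FF f) M) ch.C a)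
    rw [chι_apply, chι_apply, inclB_scal, ρEE_tt]
  have hp : ∀ i, HH8 L (Pt.map ρ x) (Pt.map ρ y) ch.pt i q' = HH8 L x y ch.pt i q := by
    intro i
    rw [← bcH_HH8]
    rfl
  have h1 := lvalM_comp (ρEE ρ f) c e8
    (fun i => Spec.map (CommRingCat.ofHom (chι (tt K (FF f) M) ch.C)) ≫ HH8 L x y ch.pt i)
    (fun i => Spec.map (CommRingCat.ofHom (chι (tt K (FF f) k') ch.C)) ≫
      HH8 L (Pt.map ρ x) (Pt.map ρ y) ch.pt i) hh (fun i => HH8 L x y ch.pt i q)
    (fun i => by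
      rw [Scheme.Hom.comp_apply]
      refine mem_of_le _ (q := q) ?_ (c.mem _)
      intro a ha
      have h2 : chι (tt K (FF f) M) ch.C a ∈ maximalIdeal (EE K (FF f) M) := ha
      rw [IsLocalRing.maximalIdeal_eq_bot, Ideal.mem_bot] at h2
      have h3 : a = 0 := chι_injective _ _ (tt_injective M) (by rw [h2, map_zero])
      rw [h3]
      exact Ideal.zero_mem _)
  have h2 := lvalM_self c e8 (fun i => Spec.map (CommRingCat.ofHom (chι (tt K (FF f) k') ch.C)) ≫
      HH8 L (Pt.map ρ x) (Pt.map ρ y) ch.pt i)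
      (fun i => (Spec.map (CommRingCat.ofHom (chι (tt K (FF f) M) ch.C)) ≫ HH8 L x y ch.pt i)
        (clp (EE K (FF f) M))) (fun i => by
        rw [hh i, Scheme.Hom.comp_apply (Spec.map (CommRingCat.ofHom (ρEE ρ f))), hcl2])
  rw [h2, mul_one] at h1
  rw [D8, D8, DD, DD, lvE, lvE, ← h1]
  congr 1
  funext i
  exact hp i

end Map

section Const

/-- a rational function which is regular on all charts is constant -/
lemma exists_const [IsProper f] (z : FF f) (hz : ∀ ch : AffCh f, z ∈ ch.C) :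
    ∃ a : K, algebraMap K (FF f) a = z := by
  have h1 : _root_.IsIntegral K z := by
    refine Growth.isIntegral_of_valuation fun V hV => ?_
    let κ : K →+* V := (algebraMap K (FF f)).codRestrict V.toSubring hV
    obtain ⟨zR, h1, h2⟩ := exists_extend f V (FF f) (Spec.map (CommRingCat.ofHom κ)) (gpt f) (by
      rw [gpt_over, ← Spec.map_comp, ← CommRingCat.ofHom_comp]
      rfl)
    obtain ⟨ch, hch⟩ := exists_affCh (f := f) (zR (clp V))
    obtain ⟨g, hg⟩ := ch.exists_lift zR hch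
    have h3 : (algebraMap V (FF f)).comp g = algebraMap ch.C (FF f) := by
      apply ch.hom_unique
      rw [ch.gen, CommRingCat.ofHom_comp, Spec.map_comp, Category.assoc, hg, h2]
    have h4 := RingHom.congr_fun h3 ⟨z, hz ch⟩
    change ((g ⟨z, hz ch⟩ : V) : FF f) = z at h4
    rw [← h4]
    exact Subtype.mem _
  have h2 := IsAlgClosed.degree_eq_one_of_irreducible K (minpoly.irreducible h1)
  exact minpoly.mem_range_of_degree_eq_one K z h2

variable {M : Type u} [Field M] [Algebra K M]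

lemma inclB_mem_baseChange (C : Subalgebra K (FF f)) (b : M ⊗[K] C) :
    inclB M C b ∈ (Subalgebra.toSubmodule C).baseChange M := by
  induction b with
  | zero => rw [map_zero]; exact zero_mem _
  | tmul t x => exact Submodule.tmul_mem_baseChange_of_mem _ x.2
  | add x y hx hy => rw [map_add]; exact add_mem hx hy

lemma exists_const_tensor [IsProper f] (w : M ⊗[K] FF f)
    (hw : ∀ ch : AffCh f, ∃ b, inclB M ch.C b = w) : ∃ t : M, w = t ⊗ₜ 1 := by
  classical
  let γ := Module.Basis.ofVectorSpace K M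
  have h1 : w ∈ (LinearMap.range (Algebra.linearMap K (FF f))).baseChange M := by
    rw [mem_baseChange_iff_coords γ]
    intro l
    obtain ⟨a, ha⟩ := exists_const (TensorProduct.equivFinsuppOfBasisLeft γ w l) (by
      intro ch
      obtain ⟨b, hb⟩ := hw ch
      have h2 := inclB_mem_baseChange ch.C b
      rw [hb, mem_baseChange_iff_coords γ] at h2
      exact h2 l)
    exact ⟨a, ha⟩
  obtain ⟨b, hb⟩ := LinearMap.mem_range.1 h1
  rw [← hb]
  clear hb h1 hw
  induction b with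
  | zero => exact ⟨0, by simp⟩
  | tmul t x =>
    obtain ⟨x, a, rfl⟩ := x
    refine ⟨a • t, ?_⟩
    rw [LinearMap.baseChange_tmul]
    change t ⊗ₜ algebraMap K (FF f) a = _
    rw [Algebra.algebraMap_eq_smul_one, tmul_smul, smul_tmul']
  | add x y hx hy =>
    obtain ⟨t, ht⟩ := hx
    obtain ⟨t', ht'⟩ := hy
    exact ⟨t + t', by rw [map_add, ht, ht', add_tmul]⟩

end Const

/-- **descent** of generators of the cube bundle along a field extension -/
theorem IsGen.descend [IsProper f] {M k' : Type u} [Field M] [Algebra K M] [Field k']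
    [Algebra K k'] (ρ : M →ₐ[K] k') (x y : Pt f K M) {θ : EE K (FF f) k'}
    (h : IsGen L c (Pt.map ρ x) (Pt.map ρ y) θ) : ∃ u, IsGen L c x y u := by
  obtain ⟨ch₀, -⟩ := exists_affCh (f := f) (genericPoint A)
  have hτ := tt_injective (k := K) (F := FF f) M
  have hτ' := tt_injective (k := K) (F := FF f) k'
  have hι : ∀ ch : AffCh f, Function.Injective (chι (tt K (FF f) M) ch.C) :=
    fun ch => chι_injective _ _ hτ
  have hLC : ∀ ch : AffCh f, IsLC (chι (tt K (FF f) M) ch.C) (D8 L c x y ch) :=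
    fun ch => isLC_DD c e8 _ (hι ch)
  obtain ⟨hθ0, hθ⟩ := h
  -- the general construction
  have key : ∀ (D : ∀ ch : AffCh f, PrimeSpectrum (M ⊗[K] ch.C) → (EE K (FF f) M)ˣ)
      (D' : ∀ ch : AffCh f, PrimeSpectrum (k' ⊗[K] ch.C) → (EE K (FF f) k')ˣ)
      (_ : ∀ ch, IsLC (chι (tt K (FF f) M) ch.C) (D ch))
      (_ : ∀ ch q', D' ch q' = Units.map (ρEE ρ f).toMonoidHom
        (D ch (PrimeSpectrum.comap (scal ch.C ρ).toRingHom q')))
      (θ : EE K (FF f) k') (_ : θ ≠ 0)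
      (_ : ∀ ch, θ ∈ J (chι (tt K (FF f) k') ch.C) (D' ch)),
      ∃ u : EE K (FF f) M, u ≠ 0 ∧ ∀ ch, u ∈ J (chι (tt K (FF f) M) ch.C) (D ch) := by
    intro D D' hLC hD θ hθ0 hθ
    obtain ⟨m, a, ha, hm⟩ := exists_num (C := ch₀.C) hτ (ρEE_tt ρ) (tt_frac M) (hLC ch₀) (hD ch₀)
      (hθ ch₀)
    have ha' : tt K (FF f) k' (scal (FF f) ρ a) ≠ 0 := fun h =>
      ha (scal_injective ρ ρ.injective (hτ' (by rw [h, map_zero, map_zero])))
    have hm0 : m ≠ 0 := by
      rintro rfl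
      rw [map_zero] at hm
      exact (mul_ne_zero hθ0 ha') hm
    obtain ⟨l, hl, hlm⟩ := exists_functional (ρ := ρ) hm0
    have ha0 : tt K (FF f) M a ≠ 0 := fun h => ha (hτ (by rw [h, map_zero]))
    refine ⟨tt K (FF f) M (l.rTensor (FF f) m) / tt K (FF f) M a,
      div_ne_zero (fun h => hlm (hτ (by rw [h, map_zero]))) ha0, fun ch => ?_⟩
    exact descend_J hτ hτ' (ρEE_tt ρ) (tt_frac M) (hLC ch) (hD ch) (hθ ch) hl ha hm
      (div_mul_cancel₀ _ ha0)
  obtain ⟨u, hu0, hu⟩ := key (fun ch => D8 L c x y ch)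
    (fun ch => D8 L c (Pt.map ρ x) (Pt.map ρ y) ch) hLC (fun ch q' => D8_map L c ρ x y ch q')
    θ hθ0 (fun ch => (hθ ch).1)
  obtain ⟨v, hv0, hv⟩ := key (fun ch => (D8 L c x y ch)⁻¹)
    (fun ch => (D8 L c (Pt.map ρ x) (Pt.map ρ y) ch)⁻¹) (fun ch => (hLC ch).inv)
    (fun ch q' => by
      rw [Pi.inv_apply, Pi.inv_apply, D8_map, map_inv])
    θ⁻¹ (inv_ne_zero hθ0) (fun ch => (hθ ch).2)
  -- the product is constant
  have huv : ∀ ch : AffCh f, ∃ b, chι (tt K (FF f) M) ch.C b = u * v := fun ch =>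
    J_mul (hu ch) (hv ch)
  obtain ⟨b₀, hb₀⟩ := huv ch₀
  obtain ⟨t, ht⟩ := exists_const_tensor (inclB M ch₀.C b₀) (by
    intro ch
    obtain ⟨b, hb⟩ := huv ch
    exact ⟨b, hτ (by rw [← chι_apply, ← chι_apply, hb, hb₀])⟩)
  have huvt : u * v = tt K (FF f) M (t ⊗ₜ 1) := by
    rw [← ht, ← chι_apply, hb₀]
  have ht0 : t ≠ 0 := by
    rintro rfl
    rw [zero_tmul, map_zero] at huvt
    exact (mul_ne_zero hu0 hv0) huvt
  refine ⟨u, hu0, fun ch => ⟨hu ch, ?_⟩⟩
  have e1 : u⁻¹ = chι (tt K (FF f) M) ch.C (t⁻¹ ⊗ₜ 1) * v := by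
    apply inv_eq_of_mul_eq_one_right
    rw [mul_left_comm, huvt]
    have e2 : chι (tt K (FF f) M) ch.C (t⁻¹ ⊗ₜ 1) = tt K (FF f) M (t⁻¹ ⊗ₜ 1) := rfl
    rw [e2, ← map_mul, Algebra.TensorProduct.tmul_mul_tmul, inv_mul_cancel₀ ht0, one_mul]
    exact map_one _
  rw [e1]
  exact J_smul _ (hv ch)

end Fermat.Agent.AbVar.Sq
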