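import Fermat.Agent.AbVar.Sq.IsGen
import Fermat.Agent.AbVar.Curve
import Fermat.Agent.AbVar.Sheaf

/-!
# S26: existence of a generator over a big field
-/

set_option autoImplicit false
set_option linter.unusedSectionVars false
universe u

open CategoryTheory CategoryTheory.Limits AlgebraicGeometry TopologicalSpace IsLocalRing
open NeronModelInfra GoodReductionJacobian
open Fermat.Agent.Jac TensorProduct

namespace Fermat.Agent.AbVar.Sq

attribute [local instance] isDomain_tensor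

variable {K : Type u} [Field K] [IsAlgClosed K] {A : Scheme.{u}} {f : A ⟶ Spec (.of K)}
  [IsIntegral A] (L : RelativeGroupLaw K f) (c : UnitCocycle A)

section

variable {k : Type u} [Field k] [IsAlgClosed k] [Algebra K k] {F : Type u} [Field F] [Algebra k F]
  [Algebra K F] [IsScalarTower K k F]
  {B₀ B₁ B₂ : Subalgebra k F} {x : F} {I₀ I₁ : Submodule k F}
  (hS : SheafPair B₀ B₁ B₂ x I₀ I₁) {j₀ : Pt f k B₀} {j₁ : Pt f k B₁}
  (hj : Pt.map (Subalgebra.inclusion hS.le₀) j₀ = Pt.map (Subalgebra.inclusion hS.le₁) j₁)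
  {ε : B₀ →ₐ[k] k} {s : B₀} (hs : GoodSec B₀ I₀ I₁ ε s)

include hS hj hs in
theorem exists_thetaVal [IsProper f] (hε : Pt.map ε j₀ = L.one (strK K k k)) :
    ∃ θ : EE K (FF f) (EE K (FF f) F), θ ≠ 0 ∧
      ThetaVal L c (EE K (FF f) F)
        (Spec.map (CommRingCat.ofHom ((ωk f k F).comp B₀.val).toRingHom) ≫ j₀.1) (gz f F) θ := by
  obtain ⟨θ, hθ0, hθ⟩ := exists_theta L c hS hj hs hε (degen_generic L (k := k) (F := F))
    (EE K (FF f) (EE K (FF f) F)) (ωk f k (EE K (FF f) F)) (yk f k (EE K (FF f) F))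
  refine ⟨θ, hθ0, ?_⟩
  intro R _ _ _ _ _ φ hφ t x' y' z' hx' hy' hz'
  let _ : Algebra k R := (φ.comp (algebraMap k (EE K (FF f) F))).toAlgebra
  have hst : IsScalarTower k R (EE K (FF f) (EE K (FF f) F)) := by
    refine IsScalarTower.of_algebraMap_eq fun a => ?_
    have := congrArg (fun g : EE K (FF f) F →+* EE K (FF f) (EE K (FF f) F) =>
      g (algebraMap k (EE K (FF f) F) a)) hφ
    exact (this.trans (by rfl)).symm
  let φR : EE K (FF f) F →ₐ[k] R := { φ with commutes' := fun _ => rfl }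
  have hφR : (frc k R (EE K (FF f) (EE K (FF f) F))).comp φR = ωk f k (EE K (FF f) F) := by
    refine AlgHom.ext fun a => ?_
    exact congrArg (fun g : EE K (FF f) F →+* EE K (FF f) (EE K (FF f) F) => g a) hφ
  have ht : t = strK K k R := by
    rw [← y'.2, hy', Category.assoc, gz_over, ← Spec.map_comp, ← CommRingCat.ofHom_comp, strK]
    congr 2
    rw [IsScalarTower.algebraMap_eq K k (EE K (FF f) F), ← RingHom.comp_assoc]
    rfl
  subst ht
  obtain ⟨v, hv⟩ := hθ R φR hφR z' (Subtype.ext hz')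
  refine ⟨v, ?_⟩
  rw [← hv]
  congr 3
  refine sq8_congr L ?_ ?_ rfl
  · rw [hx', Pt.map_coe, ← Category.assoc, ← Spec.map_comp, ← CommRingCat.ofHom_comp]
    rfl
  · rw [hy']
    rfl

end

/-- existence of a generator of the cube bundle over a big field -/
theorem exists_isGen (g : ℕ) (hg : 1 ≤ g) [SmoothOfRelativeDimension g f] [IsProper f] :
    ∃ (k' : Type u) (_ : Field k') (_ : Algebra K k') (ρ : K2 f →ₐ[K] k') (θ : EE K (FF f) k'),
      IsGen L c (Pt.map ρ (xy2 f 0)) (Pt.map ρ (xy2 f 1)) θ := by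
  have hsm : Smooth f := SmoothOfRelativeDimension.smooth g f
  obtain ⟨k, F, _, _, _, _, _, _, _, B₀, B₁, x, hB, ξ, hξ, hξg, j₀, hj₀, j₁, hj₁, ε, hε⟩ :=
    exists_curve f g hg (L.one (𝟙 (Spec (.of K)))).1 (L.one (𝟙 (Spec (.of K)))).2
  obtain ⟨I₀, I₁, s, m0, m1, s0, ⟨N, s1⟩, l0, l1, fg, h1, hs0, hs1, huniq, hsε⟩ := exists_sheaf hB ε
  have hx0 : x ≠ 0 := by
    rintro rfl
    exact hB.transcendental isAlgebraic_zero
  have hS : SheafPair B₀ B₁ (B₀ ⊔ B₁) x I₀ I₁ :=
    { LocPair.mk' hx0 hB.mem₀ hB.mem₁ hB.loc₀ hB.loc₁ with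
      mul₀ := m0
      mul₁ := m1
      sub₀ := s0
      iloc₀ := l0
      iloc₁ := l1
      fg₁ := fg
      h1 := h1 }
  have hs : GoodSec B₀ I₀ I₁ ε s := ⟨hs0, hs1, huniq, hsε⟩
  -- the points
  have hstr : ∀ (B : Subalgebra k F) (j : Spec (.of B) ⟶ A),
      Spec.map (CommRingCat.ofHom (algebraMap B F)) ≫ j = ξ → j ≫ f = strK K k B := by
    intro B j hj
    obtain ⟨g, hg⟩ := Spec.map_surjective (j ≫ f)
    rw [← hg, strK]
    congr 1
    have h1 : Spec.map (g ≫ CommRingCat.ofHom (algebraMap B F)) =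
        Spec.map (CommRingCat.ofHom (algebraMap K F)) := by
      rw [Spec.map_comp, hg, ← Category.assoc, hj, hξ]
    have h2 := Spec.map_injective h1
    apply CommRingCat.hom_ext
    refine RingHom.ext fun a => ?_
    apply Subtype.val_injective
    have h3 := congrArg (fun g : CommRingCat.of K ⟶ CommRingCat.of F => g.hom a) h2
    refine h3.trans ?_
    change algebraMap K F a = algebraMap k F (algebraMap K k a)
    exact IsScalarTower.algebraMap_apply K k F a
  let J₀ : Pt f k B₀ := ⟨j₀, hstr B₀ j₀ hj₀⟩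
  let J₁ : Pt f k B₁ := ⟨j₁, hstr B₁ j₁ hj₁⟩
  have hj : Pt.map (Subalgebra.inclusion hS.le₀) J₀ = Pt.map (Subalgebra.inclusion hS.le₁) J₁ := by
    apply Subtype.ext
    have hdom : IsDominant
        (Spec.map (CommRingCat.ofHom (algebraMap ((B₀ ⊔ B₁ : Subalgebra k F)) F))) :=
      CurveAux.isDominant_SpecMap_of_injective _ Subtype.val_injective
    refine ext_of_isDominant_of_isSeparated f
      ((Pt.map (Subalgebra.inclusion hS.le₀) J₀).2.trans
        (Pt.map (Subalgebra.inclusion hS.le₁) J₁).2.symm)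
      (Spec.map (CommRingCat.ofHom (algebraMap ((B₀ ⊔ B₁ : Subalgebra k F)) F))) ?_
    rw [Pt.map_coe, Pt.map_coe, ← Category.assoc, ← Category.assoc, ← Spec.map_comp,
      ← Spec.map_comp, ← CommRingCat.ofHom_comp, ← CommRingCat.ofHom_comp]
    exact hj₀.trans hj₁.symm
  have hε' : Pt.map ε J₀ = L.one (strK K k k) := by
    apply Subtype.ext
    rw [Pt.map_coe, one_coe]
    exact hε
  obtain ⟨θ, hθ0, hθ⟩ := exists_thetaVal L c hS hj hs hε'
  -- the embedding of the function field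
  obtain ⟨ιξ, hιξ⟩ : ∃ ιξ : FF f →+* F, Spec.map (CommRingCat.ofHom ιξ) ≫ gpt f = ξ := by
    have key : ∀ p : A, p = genericPoint A → (∃ ιξ : A.presheaf.stalk p →+* F,
        Spec.map (CommRingCat.ofHom ιξ) ≫ A.fromSpecStalk p = ξ) →
        ∃ ιξ : FF f →+* F, Spec.map (CommRingCat.ofHom ιξ) ≫ gpt f = ξ := by
      rintro p rfl h
      exact h
    exact key _ hξg ⟨(Scheme.stalkClosedPointTo ξ).hom,
      Scheme.Spec_stalkClosedPointTo_fromSpecStalk ξ⟩
  let ιξ' : FF f →ₐ[K] F :=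
    { ιξ with
      commutes' := fun a => by
        have h1 : Spec.map (CommRingCat.ofHom (ιξ.comp (algebraMap K (FF f)))) =
            Spec.map (CommRingCat.ofHom (algebraMap K F)) := by
          rw [CommRingCat.ofHom_comp, Spec.map_comp, ← gpt_over, ← Category.assoc, hιξ, hξ]
        have h2 := Spec.map_injective h1
        exact congrArg (fun g : CommRingCat.of K ⟶ CommRingCat.of F => g.hom a) h2 }
  let m : FF f ⊗[K] FF f →ₐ[K] EE K (FF f) F :=
    (IsScalarTower.toAlgHom K (F ⊗[K] FF f) (EE K (FF f) F)).comp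
      (Algebra.TensorProduct.map ιξ' (AlgHom.id K (FF f)))
  have hm : Function.Injective m := by
    refine (tt_injective F).comp ?_
    exact Module.Flat.rTensor_preserves_injective_linearMap (M := FF f) ιξ'.toLinearMap
      ιξ'.toRingHom.injective
  let ρ : K2 f →ₐ[K] EE K (FF f) F := IsFractionRing.liftAlgHom (g := m) hm
  have hρ : ∀ a, ρ (algebraMap (FF f ⊗[K] FF f) (K2 f) a) = m a := fun a =>
    IsFractionRing.lift_algebraMap (g := m.toRingHom) hm a
  refine ⟨EE K (FF f) F, inferInstance, inferInstance, ρ, θ, hθ0, fun ch => ?_⟩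
  refine theta_mem L c ?_ ch
  have e0 : (Pt.map ρ (xy2 f 0)).1 =
      Spec.map (CommRingCat.ofHom ((ωk f k F).comp B₀.val).toRingHom) ≫ j₀ := by
    have h1 : Spec.map (CommRingCat.ofHom ((ωk f k F).comp B₀.val).toRingHom) ≫ j₀ =
        Spec.map (CommRingCat.ofHom (ωk f k F).toRingHom) ≫ ξ := by
      rw [← hj₀, ← Category.assoc, ← Spec.map_comp, ← CommRingCat.ofHom_comp]
      rfl
    rw [h1, ← hιξ, xy2, Pt.map_coe, Pt.map_coe]
    change _ ≫ _ ≫ gpt f = _
    rw [← Category.assoc, ← Category.assoc, ← Spec.map_comp, ← Spec.map_comp,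
      ← CommRingCat.ofHom_comp, ← CommRingCat.ofHom_comp]
    congr 3
    refine RingHom.ext fun a => ?_
    change ρ (algebraMap (FF f ⊗[K] FF f) (K2 f) (a ⊗ₜ 1)) = _
    rw [hρ]
    rfl
  have e1 : (Pt.map ρ (xy2 f 1)).1 = gz f F := by
    rw [xy2, Pt.map_coe, Pt.map_coe, gz]
    change _ ≫ _ ≫ gpt f = _
    rw [← Category.assoc, ← Spec.map_comp, ← CommRingCat.ofHom_comp]
    congr 3
    refine RingHom.ext fun a => ?_
    change ρ (algebraMap (FF f ⊗[K] FF f) (K2 f) (1 ⊗ₜ a)) = _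
    rw [hρ]
    change tt K (FF f) F (ιξ' 1 ⊗ₜ a) = _
    rw [_root_.map_one]
    rfl
  rw [e0, e1]
  exact hθ

end Fermat.Agent.AbVar.Sq
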