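import Fermat.Agent.AbVar.Sq.IsGen

/-!
# S26: the seesaw argument over valuation rings
-/

set_option autoImplicit false
set_option linter.unusedSectionVars false
universe u

open CategoryTheory CategoryTheory.Limits AlgebraicGeometry TopologicalSpace IsLocalRing
open NeronModelInfra GoodReductionJacobian
open Fermat.Agent.Jac TensorProduct

namespace Fermat.Agent.AbVar.Sq

section Alg

variable {k F : Type*} [Field k] [Field F] [Algebra k F]
  {T : Type*} [CommRing T] [Algebra k T] {E : Type*} [Field E] {τ : T ⊗[k] F →+* E}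
  {B : Subalgebra k F} {D : PrimeSpectrum (T ⊗[k] B) → Eˣ}

lemma mem_MM_of_mem_J {u : E} (hu : u ∈ J (chι τ B) D) : u ∈ MM τ B D (Subalgebra.toSubmodule B) := by
  intro b hb
  obtain ⟨x, hx⟩ := J_mul hu hb
  refine ⟨inclB T B x, ?_, hx.symm⟩
  have := inclB_mul_mem (T := T) (B := B) (I := Subalgebra.toSubmodule B)
    (fun b hb a ha => B.mul_mem hb ha) x
    (a := 1) (Submodule.tmul_mem_baseChange_of_mem _ B.one_mem)
  rwa [mul_one] at this

variable {R κ κ' : Type*} [CommRing R] [IsDomain R] [ValuationRing R] [Algebra k R]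
  [Field κ] [Algebra k κ] [Algebra R κ] [IsFractionRing R κ] [IsScalarTower k R κ]
  [Field κ'] [Algebra k κ'] {res : R →ₐ[k] κ'} [IsLocalHom res.toRingHom]
  {E' : Type*} [Field E'] {τ : κ ⊗[k] F →+* E} {τ' : κ' ⊗[k] F →+* E'}
  {DR : PrimeSpectrum (R ⊗[k] B) → Eˣ}
    {Dκ : PrimeSpectrum (κ ⊗[k] B) → Eˣ} {D' : PrimeSpectrum (κ' ⊗[k] B) → E'ˣ}

lemma CompatD.J_of_gen (h : CompatD res τ τ' B DR Dκ D') (hτ : Function.Injective τ)
    (hτ' : Function.Injective τ') {u : E} (hu : u ∈ J (chι τ B) Dκ)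
    (hm : u * DR (spPt res τ' B) ∈ gaussRing res τ τ') : u ∈ J (chι (tauR R τ) B) DR :=
  mem_J_of_mem_MM h.lc (fun _ ha => ha)
    (h.MM_of_gen hτ hτ' (fun _ hb _ ha => B.mul_mem hb ha) (mem_MM_of_mem_J hu) hm)

lemma smul_mem_J {u : E} {D : PrimeSpectrum (κ ⊗[k] B) → Eˣ} (hu : u ∈ J (chι τ B) D) (r : κ) :
    τ (r ⊗ₜ 1) * u ∈ J (chι τ B) D := J_smul (ι := chι τ B) (r ⊗ₜ 1) hu

lemma tau_inv {r : κ} (hr : r ≠ 0) (τ : κ ⊗[k] F →+* E) : (τ (r ⊗ₜ 1))⁻¹ = τ (r⁻¹ ⊗ₜ 1) := by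
  refine inv_eq_of_mul_eq_one_left ?_
  rw [← map_mul, Algebra.TensorProduct.tmul_mul_tmul, one_mul, inv_mul_cancel₀ hr]
  exact map_one τ

/-- scaling a generator over the generic fibre to a generator over `R` -/
lemma CompatD.gen_of_scale (h : CompatD res τ τ' B DR Dκ D') (hτ : Function.Injective τ)
    (hτ' : Function.Injective τ') {u : E} (hu : u ∈ J (chι τ B) Dκ) (hu' : u⁻¹ ∈ J (chι τ B) Dκ⁻¹)
    {r : κ} (hr : r ≠ 0) (hm : τ (r ⊗ₜ 1) * (u * DR (spPt res τ' B)) ∈ gaussRing res τ τ')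
    (hne : gres res τ τ' (τ (r ⊗ₜ 1) * (u * DR (spPt res τ' B))) ≠ 0) :
    τ (r ⊗ₜ 1) * u ∈ J (chι (tauR R τ) B) DR ∧
    (τ (r ⊗ₜ 1) * u)⁻¹ ∈ J (chι (tauR R τ) B) DR⁻¹ := by
  constructor
  · exact h.J_of_gen hτ hτ' (smul_mem_J hu r) (by rwa [mul_assoc])
  · refine (h.inv hτ).J_of_gen hτ hτ' ?_ ?_
    · rw [mul_inv, tau_inv hr]
      exact smul_mem_J hu' _
    · have := spe_inv_mem (tauR_injective τ hτ) hm hne
      rw [← mul_assoc, mul_inv] at this
      rw [Pi.inv_apply, Units.val_inv_eq_inv_val]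
      exact this

/-- the inverse of the relation at a point -/
lemma PtRel.inv (hτ : Function.Injective τ) {c : B →ₐ[k] R} {dc : κ} (hdc : dc ≠ 0)
    (h : PtRel DR Dκ res τ c dc) : PtRel DR⁻¹ Dκ⁻¹ res τ c dc⁻¹ := by
  have e : (((DR⁻¹) (PrimeSpectrum.comap (scal B res).toRingHom (evPt (res.comp c))) /
      (Dκ⁻¹) (evPt ((frc k R κ).comp c)) : Eˣ) : E) =
      ((DR (PrimeSpectrum.comap (scal B res).toRingHom (evPt (res.comp c))) /
      Dκ (evPt ((frc k R κ).comp c)) : Eˣ) : E)⁻¹ := by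
    rw [← Units.val_inv_eq_inv_val]
    congr 1
    simp only [Pi.inv_apply, div_eq_mul_inv, mul_inv_rev, inv_inv]
    rw [mul_comm]
  have hne := h.2
  refine ⟨?_, ?_⟩
  · rw [e]
    refine spe_inv_mem (chι_injective τ B hτ) h.1 ?_
    rw [hne]
    exact hdc
  · rw [e, spe_inv (chι_injective τ B hτ) h.1, hne]
    rw [hne]
    exact hdc

/-- scalars normalised at a point are units -/
lemma CompatD.scale_unit (h : CompatD res τ τ' B DR Dκ D') (hτ : Function.Injective τ)
    (hτ' : Function.Injective τ') (c : B →ₐ[k] R) (hp : PtRel DR Dκ res τ c 1) {u : E}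
    (hu : u ∈ J (chι τ B) Dκ) (hu' : u⁻¹ ∈ J (chι τ B) Dκ⁻¹) 
    (hv : valAt τ Dκ ((frc k R κ).comp c) u = 1)
    {r : κ} (hr : r ≠ 0) (h1 : τ (r ⊗ₜ 1) * u ∈ J (chι (tauR R τ) B) DR)
    (h2 : (τ (r ⊗ₜ 1) * u)⁻¹ ∈ J (chι (tauR R τ) B) DR⁻¹) :
    ∃ v : Rˣ, r = algebraMap R κ v := by
  obtain ⟨r1, hr1, -⟩ := h.core_val hτ hτ' c 1 hp.1 hp.2 h1
  have hp' := PtRel.inv hτ one_ne_zero hp
  rw [inv_one] at hp'
  obtain ⟨r2, hr2, -⟩ := (h.inv hτ).core_val hτ hτ' c 1 hp'.1 hp'.2 h2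
  rw [valAt_smul τ hτ _ hu, hv, mul_one, mul_one] at hr1
  have hv' : valAt τ Dκ⁻¹ ((frc k R κ).comp c) u⁻¹ = 1 := by
    rw [valAt] at hv ⊢
    have e : u⁻¹ * (Dκ⁻¹ (evPt ((frc k R κ).comp c)) : Eˣ) =
        (u * Dκ (evPt ((frc k R κ).comp c)))⁻¹ := by
      rw [Pi.inv_apply, Units.val_inv_eq_inv_val, mul_inv]
    rw [e, spe_inv (chι_injective τ B hτ) (hu _) (by rw [hv]; exact one_ne_zero), hv, inv_one]
  rw [mul_inv, tau_inv hr, valAt_smul τ hτ _ hu', hv', mul_one, mul_one] at hr2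
  have h12 : r1 * r2 = 1 := by
    apply IsFractionRing.injective R κ
    rw [map_mul, ← hr1, ← hr2, mul_inv_cancel₀ hr, map_one]
  exact ⟨Units.mkOfMulEqOne r1 r2 h12, hr1⟩

/-- the trace of a valuation ring on a subfield -/
lemma exists_trace {M Ω R : Type*} [Field M] [Field Ω] (i : M →+* Ω) [CommRing R] [IsDomain R]
    [ValuationRing R] [Algebra R Ω] [IsFractionRing R Ω] :
    ∃ (V : ValuationSubring M) (j : V →+* R), (∀ a : V, algebraMap R Ω (j a) = i a) ∧
      ∀ a : M, (∃ b, algebraMap R Ω b = i a) → a ∈ V := by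
  let V : ValuationSubring M :=
    { Subring.comap i (algebraMap R Ω).range with
      mem_or_inv_mem' := by
        intro x
        rcases ValuationRing.isInteger_or_isInteger R (i x) with ⟨r, hr⟩ | ⟨r, hr⟩
        · exact Or.inl ⟨r, hr⟩
        · exact Or.inr ⟨r, by rw [hr, map_inv₀]⟩ }
  have hV : ∀ a : V, ∃ b, algebraMap R Ω b = i a := fun a => a.2
  choose j hj using hV
  have hinj := IsFractionRing.injective R Ω
  refine ⟨V, { toFun := j, map_one' := ?_, map_mul' := ?_, map_zero' := ?_, map_add' := ?_ },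
    hj, fun a ha => ha⟩
  · apply hinj; rw [hj, map_one]; exact map_one i
  · intro a b; apply hinj; rw [hj, map_mul, hj, hj]; exact map_mul i _ _
  · apply hinj; rw [hj, map_zero]; exact map_zero i
  · intro a b; apply hinj; rw [hj, map_add, hj, hj]; exact map_add i _ _

lemma valAt_ne_zero {D : PrimeSpectrum (κ ⊗[k] B) → Eˣ} (hτ : Function.Injective τ)
    (pt : B →ₐ[k] κ) {u : E} (hu0 : u ≠ 0)
    (hu : u ∈ J (chι τ B) D) (hu' : u⁻¹ ∈ J (chι τ B) D⁻¹) : valAt τ D pt u ≠ 0 := by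
  intro h0
  have hι := chι_injective τ B hτ
  have h3 := spe_mul hι (ι' := RingHom.id κ) (ψ := evB pt) (hu (evPt pt)) (hu' (evPt pt))
  rw [valAt] at h0
  rw [h0, zero_mul, mul_mul_mul_comm, ← Units.val_mul, Pi.inv_apply, mul_inv_cancel,
    mul_inv_cancel₀ hu0, Units.val_one, mul_one, spe_one hι] at h3
  exact one_ne_zero h3

end Alg

attribute [local instance] isDomain_tensor

variable {K : Type u} [Field K] {A : Scheme.{u}} {f : A ⟶ Spec (.of K)}
  (L : RelativeGroupLaw K f) (c : UnitCocycle A)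

/-- the cube is trivial at `z = 0` -/
lemma dval_e8_one (Ω : Type u) [Field Ω] {R : Type u} [CommRing R] [IsLocalRing R] [Algebra R Ω]
    (t : Spec (.of R) ⟶ Spec (.of K)) (x y : SchemeHomOver t f) :
    dval c e8 Ω (sq8 L t x y (L.one t)) = 1 := by
  let g : (Spec (.of R) ⟶ A) → Ωˣ := fun h =>
    lval c (Spec.map (CommRingCat.ofHom (algebraMap R Ω)) ≫ h) (h (clp R))
  have E8 : dval c e8 Ω (sq8 L t x y (L.one t)) = ∏ i, g (sq8 L t x y (L.one t) i) ^ e8 i := rfl
  rw [E8, prod_e8]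
  have e0 : sq8 L t x y (L.one t) 0 = sq8 L t x y (L.one t) 1 := by
    change (L.mul t (L.mul t x y) (L.one t)).1 = (L.mul t x y).1
    rw [L.mul_one]
  have e2 : sq8 L t x y (L.one t) 2 = sq8 L t x y (L.one t) 4 := by
    change (L.mul t x (L.one t)).1 = x.1
    rw [L.mul_one]
  have e3 : sq8 L t x y (L.one t) 3 = sq8 L t x y (L.one t) 5 := by
    change (L.mul t y (L.one t)).1 = y.1
    rw [L.mul_one]
  have e6 : sq8 L t x y (L.one t) 6 = sq8 L t x y (L.one t) 7 := rfl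
  rw [e0, e2, e3, e6]
  generalize g (sq8 L t x y (L.one t) 1) = a1
  generalize g (sq8 L t x y (L.one t) 4) = a4
  generalize g (sq8 L t x y (L.one t) 5) = a5
  generalize g (sq8 L t x y (L.one t) 7) = a7
  rw [mul_inv_cancel, one_mul, mul_inv_cancel_right]
  rw [mul_right_comm, inv_mul_cancel_right, inv_mul_cancel]

variable [IsAlgClosed K] [IsIntegral A]

variable {L c} in
lemma IsGen.smul {T : Type u} [Field T] [Algebra K T] {x y : Pt f K T} {u : EE K (FF f) T}
    (h : IsGen L c x y u) {r : T} (hr : r ≠ 0) :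
    IsGen L c x y (tt K (FF f) T (r ⊗ₜ 1) * u) := by
  refine ⟨mul_ne_zero ?_ h.1, fun ch => ⟨smul_mem_J (h.2 ch).1 r, ?_⟩⟩
  · intro h0
    have h1 : (r ⊗ₜ (1 : FF f) : T ⊗[K] FF f) = 0 := tt_injective T (by rw [h0, map_zero])
    have h2 : Function.Injective (Algebra.TensorProduct.includeLeft : T →ₐ[K] T ⊗[K] FF f) :=
      Algebra.TensorProduct.includeLeft_injective (FaithfulSMul.algebraMap_injective K (FF f))
    exact hr (h2 (by rw [map_zero]; exact h1))
  · rw [mul_inv, tau_inv hr]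
    exact smul_mem_J (h.2 ch).2 _

variable (f) in
/-- a chart through the origin -/
lemma exists_origin : ∃ (ch : AffCh f) (ε : ch.C →ₐ[K] K),
    Pt.map ε ch.pt = L.one (strK K K K) := by
  obtain ⟨ch, hch⟩ := exists_affCh (f := f) ((L.one (strK K K K)).1 (clp K))
  obtain ⟨g, hg⟩ := ch.exists_lift _ hch
  have hc : ∀ a : K, g (algebraMap K ch.C a) = a := by
    have h1 : Spec.map (CommRingCat.ofHom (g.comp (algebraMap K ch.C))) =
        Spec.map (CommRingCat.ofHom ((algebraMap K K).comp (algebraMap K K))) := by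
      rw [CommRingCat.ofHom_comp, Spec.map_comp, ← ch.over, ← Category.assoc, hg]
      exact (L.one _).2
    have h2 := Spec.map_injective h1
    intro a
    exact congrArg (fun g : CommRingCat.of K ⟶ CommRingCat.of K => g.hom a) h2
  exact ⟨ch, { g with commutes' := hc }, Subtype.ext hg⟩

variable {L c} in
/-- normalising a generator at the origin -/
lemma IsGen.normalize {T : Type u} [Field T] [Algebra K T] {x y : Pt f K T} {u : EE K (FF f) T}
    (h : IsGen L c x y u) (ch : AffCh f) (pt : ch.C →ₐ[K] T) :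
    ∃ v : EE K (FF f) T, IsGen L c x y v ∧ valAt (tt K (FF f) T) (D8 L c x y ch) pt v = 1 := by
  have hτ := tt_injective (k := K) (F := FF f) T
  obtain ⟨t0, ht0⟩ : ∃ t0, valAt (tt K (FF f) T) (D8 L c x y ch) pt u = t0 := ⟨_, rfl⟩
  have hne : t0 ≠ 0 := by
    rw [← ht0]
    exact valAt_ne_zero hτ pt h.1 (h.2 ch).1 (h.2 ch).2
  refine ⟨tt K (FF f) T (t0⁻¹ ⊗ₜ 1) * u, h.smul (inv_ne_zero hne), ?_⟩
  have := valAt_smul (tt K (FF f) T) hτ pt (h.2 ch).1 t0⁻¹
  rw [this, ht0, inv_mul_cancel₀ hne]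

/-- the generic point, on the largest chart -/
noncomputable def gTop (f : A ⟶ Spec (.of K)) : Pt f K (⊤ : Subalgebra K (FF f)) :=
  Pt.map (Subalgebra.topEquiv : (⊤ : Subalgebra K (FF f)) ≃ₐ[K] FF f).symm.toAlgHom (gPt f)

lemma map_top_pt (ch : AffCh f) :
    Pt.map (Subalgebra.inclusion (le_top : ch.C ≤ ⊤)) ch.pt = gTop f := by
  apply Subtype.ext
  rw [Pt.map_coe, gTop, Pt.map_coe]
  change _ ≫ ch.j = _ ≫ gpt f
  rw [← ch.gen, ← Category.assoc, ← Spec.map_comp, ← CommRingCat.ofHom_comp]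
  rfl

/-- the generic point of the special fibre does not depend on the chart -/
lemma DR_spPt {R κ' : Type u} [CommRing R] [IsDomain R] [ValuationRing R]
    [Algebra K R] [Field κ'] [Algebra K κ']
    (res : R →ₐ[K] κ') [IsLocalHom res.toRingHom] {E' E : Type u} [Field E'] [Field E]
    (τ' : κ' ⊗[K] FF f →+* E') (σ : R ⊗[K] FF f →+* E)
    (x y : Pt f K R) (ch : AffCh f) :
    DD c e8 (chι σ ch.C) (HH8 L x y ch.pt) (spPt res τ' ch.C) =
      DD c e8 (chι σ ⊤) (HH8 L x y (gTop f)) (spPt res τ' ⊤) := by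
  have hle : ch.C ≤ ⊤ := le_top
  rw [← comap_inclT_spPt hle, ← DD_comap c e8 (HH8 L x y ch.pt) (inclT R hle) (chι_inclT σ hle),
    ← map_top_pt ch]
  congr 1
  funext i
  exact inclT_HH8 L hle x y ch.pt i

variable {L c} in
/-- a normalised generator over `T` is a generator over all valuation rings of `T` -/
theorem IsGen.over_R {T : Type u} [Field T] [Algebra K T] (R : Type u) [CommRing R] [IsDomain R]
    [ValuationRing R] [Algebra K R] [Algebra R T] [IsFractionRing R T] [IsScalarTower K R T]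
    {x y : Pt f K R} {u : EE K (FF f) T}
    (h : IsGen L c (Pt.map (frc K R T) x) (Pt.map (frc K R T) y) u) (ch₀ : AffCh f)
    (ε : ch₀.C →ₐ[K] K) (hε : Pt.map ε ch₀.pt = L.one (strK K K K))
    (hv : valAt (tt K (FF f) T) (D8 L c (Pt.map (frc K R T) x) (Pt.map (frc K R T) y) ch₀)
      ((Algebra.ofId K T).comp ε) u = 1) (ch : AffCh f) :
    u ∈ J (chι (tauR R (tt K (FF f) T)) ch.C)
      (DD c e8 (chι (tauR R (tt K (FF f) T)) ch.C) (HH8 L x y ch.pt)) ∧
    u⁻¹ ∈ J (chι (tauR R (tt K (FF f) T)) ch.C)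
      (DD c e8 (chι (tauR R (tt K (FF f) T)) ch.C) (HH8 L x y ch.pt))⁻¹ := by
  have hτ := tt_injective (k := K) (F := FF f) T
  have hτ' := tt_injective (k := K) (F := FF f) (ResidueField R)
  have hC : ∀ ch : AffCh f, CompatD (resk K R) (tt K (FF f) T) (tt K (FF f) (ResidueField R)) ch.C
      (DD c e8 (chι (tauR R (tt K (FF f) T)) ch.C) (HH8 L x y ch.pt))
      (D8 L c (Pt.map (frc K R T) x) (Pt.map (frc K R T) y) ch)
      (DD c e8 (chι (tt K (FF f) (ResidueField R)) ch.C)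
        (bcH ch.C (resk K R) (HH8 L x y ch.pt))) := by
    intro ch
    have := compatD_DD (resk K R) (tt K (FF f) T) (tt K (FF f) (ResidueField R)) c e8 ch.C
      (HH8 L x y ch.pt) hτ hτ'
    rw [bcH_HH8 L (frc K R T)] at this
    exact this
  set d : (EE K (FF f) T)ˣ := DD c e8 (chι (tauR R (tt K (FF f) T)) ⊤) (HH8 L x y (gTop f))
    (spPt (resk K R) (tt K (FF f) (ResidueField R)) ⊤) with hd
  have hdch : ∀ ch : AffCh f, DD c e8 (chι (tauR R (tt K (FF f) T)) ch.C) (HH8 L x y ch.pt)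
      (spPt (resk K R) (tt K (FF f) (ResidueField R)) ch.C) = d := fun ch =>
    DR_spPt L c (resk K R) (tt K (FF f) (ResidueField R)) (tauR R (tt K (FF f) T)) x y ch
  obtain ⟨r, hr, hm, hne⟩ := exists_scale (R := R) (resk K R) (tt K (FF f) T)
    (tt K (FF f) (ResidueField R)) hτ (tt_frac T) hτ' (u * d) (mul_ne_zero h.1 d.ne_zero)
  have key : ∀ ch : AffCh f, _ := fun ch => (hC ch).gen_of_scale hτ hτ' (h.2 ch).1 (h.2 ch).2 hr
    (by rw [hdch]; exact hm) (by rw [hdch]; exact hne)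
  have hp : PtRel (DD c e8 (chι (tauR R (tt K (FF f) T)) ch₀.C) (HH8 L x y ch₀.pt))
      (D8 L c (Pt.map (frc K R T) x) (Pt.map (frc K R T) y) ch₀) (resk K R) (tt K (FF f) T)
      ((Algebra.ofId K R).comp ε) 1 := by
    have h1 := ptRel_DD (resk K R) (tt K (FF f) T) c e8 ch₀.C (HH8 L x y ch₀.pt) hτ
      ((Algebra.ofId K R).comp ε)
    rw [bcH_HH8] at h1
    simp only [evB_HH8] at h1
    have h2 : Pt.map ((Algebra.ofId K R).comp ε) ch₀.pt = L.one (strK K K R) := by
      rw [← Pt.map_map, hε, Pt.map_one]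
    rw [h2] at h1
    have h3 := dval_e8_one L c T (strK K K R) x y
    have h4 : (dval c e8 T (fun i => sq8 L (strK K K R) x y (L.one (strK K K R)) i) : T) = 1 := by
      rw [← Units.val_one, ← h3]
    rw [h4] at h1
    exact h1
  obtain ⟨v, hv'⟩ := (hC ch₀).scale_unit hτ hτ' ((Algebra.ofId K R).comp ε) hp (h.2 ch₀).1
    (h.2 ch₀).2 (by
      have h5 : (frc K R T).comp ((Algebra.ofId K R).comp ε) = (Algebra.ofId K T).comp ε := by
        refine AlgHom.ext fun a => ?_
        exact (frc K R T).commutes _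
      rw [h5]
      exact hv) hr (key ch₀).1 (key ch₀).2
  have hvv : (tauR R (tt K (FF f) T)) (((v⁻¹ : Rˣ) : R) ⊗ₜ 1) *
      (tauR R (tt K (FF f) T)) ((v : R) ⊗ₜ 1) = 1 := by
    rw [← map_mul, Algebra.TensorProduct.tmul_mul_tmul, Units.inv_mul, _root_.mul_one]
    exact _root_.map_one (tauR R (tt K (FF f) T))
  have hr' : tt K (FF f) T (r ⊗ₜ 1) = (tauR R (tt K (FF f) T)) ((v : R) ⊗ₜ 1) := by
    rw [hv']; rfl
  have k1 := (key ch).1
  have k2 := (key ch).2
  rw [hr'] at k1 k2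
  constructor
  · have := J_smul (ι := chι (tauR R (tt K (FF f) T)) ch.C) (((v⁻¹ : Rˣ) : R) ⊗ₜ 1) k1
    have e : chι (tauR R (tt K (FF f) T)) ch.C (((v⁻¹ : Rˣ) : R) ⊗ₜ 1) *
        ((tauR R (tt K (FF f) T)) ((v : R) ⊗ₜ 1) * u) = u := by
      rw [← mul_assoc]
      refine (congrArg (· * u) hvv).trans (one_mul u)
    rwa [e] at this
  · have := J_smul (ι := chι (tauR R (tt K (FF f) T)) ch.C) ((v : R) ⊗ₜ 1) k2
    have e : chι (tauR R (tt K (FF f) T)) ch.C ((v : R) ⊗ₜ 1) *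
        ((tauR R (tt K (FF f) T)) ((v : R) ⊗ₜ 1) * u)⁻¹ = u⁻¹ := by
      rw [mul_inv, ← mul_assoc]
      refine (congrArg (· * u⁻¹) (mul_inv_cancel₀ ?_)).trans (one_mul u⁻¹)
      exact right_ne_zero_of_mul_eq_one hvv
    rwa [e] at this

lemma trace_pt [IsSeparated f] {M Ω V R : Type u} [Field M] [Field Ω] [Algebra K M] [Algebra K Ω]
    [CommRing V] [IsDomain V] [ValuationRing V] [Algebra K V] [Algebra V M] [IsFractionRing V M]
    [IsScalarTower K V M]
    [CommRing R] [IsDomain R] [ValuationRing R] [Algebra K R] [Algebra R Ω] [IsFractionRing R Ω]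
    [IsScalarTower K R Ω] (i : M →ₐ[K] Ω) (j : V →ₐ[K] R)
    (hj : ∀ a, algebraMap R Ω (j a) = i (algebraMap V M a)) (w₂ : Pt f K V) (w : Pt f K R)
    (m : Pt f K M) (hm : Pt.map (frc K V M) w₂ = m)
    (h : Pt.map (frc K R Ω) w = Pt.map i m) :
    Pt.map j w₂ = w := by
  apply Pt.extend_unique R Ω
  rw [h, ← hm, Pt.map_map, Pt.map_map]
  congr 1
  exact AlgHom.ext fun a => hj a

/-- the inclusion of the base field -/
noncomputable def iM (f : A ⟶ Spec (.of K)) (M : Type u) [Field M] [Algebra K M] :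
    M →ₐ[K] EE K (FF f) M :=
  (IsScalarTower.toAlgHom K (M ⊗[K] FF f) (EE K (FF f) M)).comp Algebra.TensorProduct.includeLeft

/-- the inclusion of the function field -/
noncomputable def iF (f : A ⟶ Spec (.of K)) (M : Type u) [Field M] [Algebra K M] :
    FF f →ₐ[K] EE K (FF f) M :=
  (IsScalarTower.toAlgHom K (M ⊗[K] FF f) (EE K (FF f) M)).comp Algebra.TensorProduct.includeRight

lemma mem_of_locIn {B R E : Type*} [CommRing B] [CommRing R] [IsLocalRing R] [Field E] [Algebra R E]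
    {ι : B →+* E} (G : B →+* R) (hG : (algebraMap R E).comp G = ι) {w : E}
    (hw : w ∈ locIn ι (PrimeSpectrum.comap G (closedPoint R))) : ∃ a, algebraMap R E a = w := by
  obtain ⟨a, s, hs, e⟩ := hw
  have hs' : IsUnit (G s) := by
    by_contra h
    exact hs h
  obtain ⟨v, hv⟩ := hs'
  refine ⟨G a * ((v⁻¹ : Rˣ) : R), ?_⟩
  have h1 : algebraMap R E v * algebraMap R E ((v⁻¹ : Rˣ) : R) = 1 := by
    rw [← map_mul, Units.mul_inv, map_one]
  have h2 : w * algebraMap R E v = algebraMap R E (G a) := by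
    rw [hv, ← RingHom.comp_apply, ← RingHom.comp_apply, hG, e]
  rw [map_mul, ← h2, mul_assoc, h1, mul_one]

lemma unit_of_locIn {B R E : Type*} [CommRing B] [CommRing R] [IsLocalRing R] [Field E]
    [Algebra R E] (hinj : Function.Injective (algebraMap R E))
    {ι : B →+* E} (G : B →+* R) (hG : (algebraMap R E).comp G = ι) {D : PrimeSpectrum B → Eˣ} {u : E}
    (hu0 : u ≠ 0) (hu : u ∈ J ι D) (hu' : u⁻¹ ∈ J ι D⁻¹) :
    ∃ v : Rˣ, u * D (PrimeSpectrum.comap G (closedPoint R)) = algebraMap R E v := by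
  obtain ⟨a, ha⟩ := mem_of_locIn G hG (hu _)
  obtain ⟨b, hb⟩ := mem_of_locIn G hG (hu' _)
  refine ⟨Units.mkOfMulEqOne a b ?_, ha.symm⟩
  apply hinj
  rw [map_mul, ha, hb, map_one, mul_mul_mul_comm, ← Units.val_mul, Pi.inv_apply, mul_inv_cancel,
    mul_inv_cancel₀ hu0, Units.val_one, mul_one]

lemma dval_eq_DD {B R E : Type u} [CommRing B] [CommRing R] [IsLocalRing R] [Field E]
    [Algebra R E] {α : Type*} [Fintype α] (e : α → ℤ) {ι : B →+* E} (G : B →+* R)
    (hG : (algebraMap R E).comp G = ι) (H : α → (Spec (.of B) ⟶ A)) (h : α → (Spec (.of R) ⟶ A))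
    (hh : ∀ i, h i = Spec.map (CommRingCat.ofHom G) ≫ H i) :
    dval c e E h = DD c e ι H (PrimeSpectrum.comap G (closedPoint R)) := by
  rw [dval, DD, lvE]
  congr 1
  · funext i
    rw [hh, ← hG, CommRingCat.ofHom_comp, Spec.map_comp, Category.assoc]
  · funext i
    rw [hh]
    rfl

variable {L c} in
/-- the seesaw step over a valuation ring -/
theorem IsGen.unit [IsProper f] {M : Type u} [Field M] [Algebra K M] {x y : Pt f K M}
    {u : EE K (FF f) M} (h : IsGen L c x y u) (ch₀ : AffCh f)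
    (ε : ch₀.C →ₐ[K] K) (hε : Pt.map ε ch₀.pt = L.one (strK K K K))
    (hv : valAt (tt K (FF f) M) (D8 L c x y ch₀) ((Algebra.ofId K M).comp ε) u = 1)
    (R : Type u) [CommRing R] [IsDomain R] [ValuationRing R]
    [Algebra R (EE K (FF f) M)] [IsFractionRing R (EE K (FF f) M)] [Algebra K R]
    [IsScalarTower K R (EE K (FF f) M)] (x' y' z' : Pt f K R)
    (hx : Pt.map (frc K R (EE K (FF f) M)) x' = Pt.map (iM f M) x)
    (hy : Pt.map (frc K R (EE K (FF f) M)) y' = Pt.map (iM f M) y)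
    (hz : Pt.map (frc K R (EE K (FF f) M)) z' = Pt.map (iF f M) (gPt f)) :
    ∃ v : Rˣ, u * dval c e8 (EE K (FF f) M) (sq8 L (strK K K R) x' y' z') =
      algebraMap R (EE K (FF f) M) v := by
  have hRinj := IsFractionRing.injective R (EE K (FF f) M)
  obtain ⟨V, j, hj, hV⟩ := exists_trace (R := R) (iM f M).toRingHom
  let _ : Algebra K V := ((algebraMap K M).codRestrict V.toSubring fun a => hV _
    ⟨algebraMap K R a, by
      change _ = iM f M (algebraMap K M a)
      rw [AlgHom.commutes, ← IsScalarTower.algebraMap_apply]⟩).toAlgebra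
  have hstV : IsScalarTower K V M := IsScalarTower.of_algebraMap_eq fun a => rfl
  have hjK : ∀ a : K, j (algebraMap K V a) = algebraMap K R a := by
    intro a
    apply hRinj
    rw [hj, ← IsScalarTower.algebraMap_apply]
    exact (iM f M).commutes a
  let j' : V →ₐ[K] R := { j with commutes' := hjK }
  obtain ⟨x₂, hx₂⟩ := Pt.exists_extend V M x
  obtain ⟨y₂, hy₂⟩ := Pt.exists_extend V M y
  have hjx : Pt.map j' x₂ = x' := trace_pt (iM f M) j' hj x₂ x' x hx₂ hx
  have hjy : Pt.map j' y₂ = y' := trace_pt (iM f M) j' hj y₂ y' y hy₂ hy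
  -- the chart at the centre of `z`
  obtain ⟨ch, hch⟩ := exists_affCh (f := f) (z'.1 (clp R))
  obtain ⟨g, hg⟩ := ch.exists_lift z'.1 hch
  rw [← hx₂, ← hy₂] at h hv
  have hgen := h.over_R V ch₀ ε hε hv ch
  have hgK : ∀ a : K, g (algebraMap K ch.C a) = algebraMap K R a := by
    intro a
    have h1 : Spec.map (CommRingCat.ofHom (g.comp (algebraMap K ch.C))) =
        Spec.map (CommRingCat.ofHom ((algebraMap K R).comp (algebraMap K K))) := by
      rw [CommRingCat.ofHom_comp, Spec.map_comp, ← ch.over, ← Category.assoc, hg]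
      exact z'.2
    have h2 := Spec.map_injective h1
    exact congrArg (fun g : CommRingCat.of K ⟶ CommRingCat.of R => g.hom a) h2
  let g' : ch.C →ₐ[K] R := { g with commutes' := hgK }
  have hgz : Pt.map g' ch.pt = z' := Subtype.ext hg
  have hgb : ∀ b : ch.C, algebraMap R (EE K (FF f) M) (g b) = iF f M (b : FF f) := by
    intro b
    have h1 : (algebraMap R (EE K (FF f) M)).comp g =
        (iF f M).toRingHom.comp (algebraMap ch.C (FF f)) := by
      apply ch.hom_unique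
      rw [CommRingCat.ofHom_comp, Spec.map_comp, Category.assoc, hg, CommRingCat.ofHom_comp,
        Spec.map_comp, Category.assoc, ch.gen]
      exact congrArg Subtype.val hz
    exact congrArg (fun ψ : ch.C →+* EE K (FF f) M => ψ b) h1
  let G : V ⊗[K] ch.C →ₐ[K] R := Algebra.TensorProduct.lift j' g' (fun _ _ => Commute.all _ _)
  have hG : (algebraMap R (EE K (FF f) M)).comp G.toRingHom =
      chι (tauR V (tt K (FF f) M)) ch.C := by
    refine RingHom.ext fun w => ?_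
    induction w with
    | zero => rw [map_zero, map_zero]
    | add a b ha hb => rw [map_add, map_add, ha, hb]
    | tmul a b =>
      change algebraMap R (EE K (FF f) M) (j a * g b) = tt K (FF f) M ((a : M) ⊗ₜ (b : FF f))
      rw [map_mul, hj, hgb]
      change tt K (FF f) M ((a : M) ⊗ₜ 1) * tt K (FF f) M (1 ⊗ₜ (b : FF f)) = _
      rw [← map_mul, Algebra.TensorProduct.tmul_mul_tmul, _root_.mul_one, _root_.one_mul]
  obtain ⟨v, hv⟩ := unit_of_locIn hRinj G.toRingHom hG h.1 hgen.1 hgen.2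
  refine ⟨v, ?_⟩
  rw [← hv]
  congr 2
  refine dval_eq_DD c e8 G.toRingHom hG _ _ fun i => ?_
  rw [HH8, sq8_comp L _ (map_strK G)]
  have k1 : G.comp Algebra.TensorProduct.includeLeft = j' := by
    refine AlgHom.ext fun a => ?_
    change j a * g 1 = j a
    rw [_root_.map_one, _root_.mul_one]
  have k2 : G.comp Algebra.TensorProduct.includeRight = g' := by
    refine AlgHom.ext fun b => ?_
    change j 1 * g b = g b
    rw [_root_.map_one, _root_.one_mul]
  have e1 : schemeHomOverComp (Spec.map (CommRingCat.ofHom G.toRingHom)) (map_strK G)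
      (Pt.map (Algebra.TensorProduct.includeLeft : V →ₐ[K] V ⊗[K] ch.C) x₂) = x' := by
    rw [← hjx, ← k1]
    exact Pt.map_map _ _ _
  have e2 : schemeHomOverComp (Spec.map (CommRingCat.ofHom G.toRingHom)) (map_strK G)
      (Pt.map (Algebra.TensorProduct.includeLeft : V →ₐ[K] V ⊗[K] ch.C) y₂) = y' := by
    rw [← hjy, ← k1]
    exact Pt.map_map _ _ _
  have e3 : schemeHomOverComp (Spec.map (CommRingCat.ofHom G.toRingHom)) (map_strK G)
      (Pt.map (Algebra.TensorProduct.includeRight : ch.C →ₐ[K] V ⊗[K] ch.C) ch.pt) = z' := by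
    rw [← hgz, ← k2]
    exact Pt.map_map _ _ _
  rw [e1, e2, e3]

omit [IsAlgClosed K] [IsIntegral A] in
lemma exists_alg (R E : Type u) [CommRing R] [Field E] [Algebra R E] [Algebra K E]
    (t : Spec (.of R) ⟶ Spec (.of K)) (x' : SchemeHomOver t f) (w : Pt f K E)
    (hx : Spec.map (CommRingCat.ofHom (algebraMap R E)) ≫ x'.1 = w.1) :
    ∃ (_ : Algebra K R), t = strK K K R ∧ IsScalarTower K R E := by
  let _ : Algebra K R := ((Spec.preimage t).hom : K →+* R).toAlgebra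
  have ht : t = strK K K R := by
    rw [← Spec.map_preimage t]
    rfl
  refine ⟨inferInstance, ht, IsScalarTower.of_algebraMap_eq fun a => ?_⟩
  have h1 : Spec.map (CommRingCat.ofHom ((algebraMap R E).comp (algebraMap K R))) =
      Spec.map (CommRingCat.ofHom ((algebraMap K E).comp (algebraMap K K))) := by
    rw [CommRingCat.ofHom_comp, Spec.map_comp]
    change _ ≫ strK K K R = strK K K E
    rw [← w.2, ← hx, Category.assoc, x'.2, ht]
  have h2 := Spec.map_injective h1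
  have h3 := congrArg (fun g : CommRingCat.of K ⟶ CommRingCat.of E => g.hom a) h2
  exact h3.symm

variable {L c} in
/-- the seesaw step, all valuation rings -/
theorem IsGen.exists_unit [IsProper f] {M : Type u} [Field M] [Algebra K M] {x y : Pt f K M}
    {u₀ : EE K (FF f) M} (h₀ : IsGen L c x y u₀) :
    ∃ u : EE K (FF f) M, u ≠ 0 ∧ ∀ (R : Type u) [CommRing R] [IsDomain R] [ValuationRing R]
    [Algebra R (EE K (FF f) M)] [IsFractionRing R (EE K (FF f) M)]
    (t : Spec (.of R) ⟶ Spec (.of K)) (x' y' z' : SchemeHomOver t f),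
    Spec.map (CommRingCat.ofHom (algebraMap R (EE K (FF f) M))) ≫ x'.1 =
      (Pt.map (iM f M) x).1 →
    Spec.map (CommRingCat.ofHom (algebraMap R (EE K (FF f) M))) ≫ y'.1 =
      (Pt.map (iM f M) y).1 →
    Spec.map (CommRingCat.ofHom (algebraMap R (EE K (FF f) M))) ≫ z'.1 =
      (Pt.map (iF f M) (gPt f)).1 →
    ∃ v : Rˣ, u * dval c e8 (EE K (FF f) M) (sq8 L t x' y' z') =
      algebraMap R (EE K (FF f) M) v := by
  obtain ⟨ch₀, ε, hε⟩ := exists_origin f L
  obtain ⟨u, h, hv⟩ := h₀.normalize ch₀ ((Algebra.ofId K M).comp ε)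
  refine ⟨u, h.1, ?_⟩
  intro R _ _ _ _ _ t x' y' z' hx hy hz
  obtain ⟨_, ht, hst⟩ := exists_alg R (EE K (FF f) M) t x' (Pt.map (iM f M) x) hx
  subst ht
  exact h.unit ch₀ ε hε hv R x' y' z' (Subtype.ext hx) (Subtype.ext hy) (Subtype.ext hz)

lemma pt3_zero : pt3 f 0 = (Pt.map (iM f (K2 f)) (xy2 f 0)).1 := by
  rw [xy2, Pt.map_map, Pt.map_coe]
  rfl

lemma pt3_one : pt3 f 1 = (Pt.map (iM f (K2 f)) (xy2 f 1)).1 := by
  rw [xy2, Pt.map_map, Pt.map_coe]
  rfl

lemma pt3_two : pt3 f 2 = (Pt.map (iF f (K2 f)) (gPt f)).1 := by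
  rw [Pt.map_coe]
  rfl

variable {L c} in
/-- **the seesaw step**: a generator over the function field of `A × A` gives the valuative
theorem of the cube -/
theorem star_of_isGen [IsProper f] {u₀ : Ω3 f}
    (h₀ : IsGen L c (xy2 f 0) (xy2 f 1) u₀) : StarProp f L c := by
  obtain ⟨u, hu, H⟩ := h₀.exists_unit
  exact ⟨u, hu, fun R _ _ _ _ _ t x y z hx hy hz =>
    H R t x y z (hx.trans pt3_zero) (hy.trans pt3_one) (hz.trans pt3_two)⟩

end Fermat.Agent.AbVar.Sq
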