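import Fermat.Agent.AbVar.Sq.Degen
import Fermat.Agent.AbVar.Normal

/-!
# S26: affine charts and normality
-/

set_option autoImplicit false
set_option linter.unusedSectionVars false
universe u

open CategoryTheory CategoryTheory.Limits AlgebraicGeometry TopologicalSpace IsLocalRing
open NeronModelInfra GoodReductionJacobian
open Fermat.Agent.Jac TensorProduct

namespace Fermat.Agent.AbVar.Sq

attribute [local instance] isDomain_tensor

variable {K : Type u} [Field K] [IsAlgClosed K] {A : Scheme.{u}} {f : A ⟶ Spec (.of K)}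
  [IsIntegral A]

variable (f) in
/-- an affine chart of `A`, inside the function field -/
structure AffCh where
  /-- the coordinate ring -/
  C : Subalgebra K (FF f)
  /-- the open immersion -/
  j : Spec (.of C) ⟶ A
  gen : Spec.map (CommRingCat.ofHom (algebraMap C (FF f))) ≫ j = gpt f
  oi : IsOpenImmersion j
  frac : ∀ z : FF f, ∃ a b : C, b ≠ 0 ∧ z * b = a

lemma AffCh.over (ch : AffCh f) : ch.j ≫ f = Spec.map (CommRingCat.ofHom (algebraMap K ch.C)) := by
  obtain ⟨g, hg⟩ := Spec.map_surjective (ch.j ≫ f)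
  rw [← hg]
  congr 1
  have h1 : Spec.map (g ≫ CommRingCat.ofHom (algebraMap ch.C (FF f))) =
      Spec.map (CommRingCat.ofHom (algebraMap K (FF f))) := by
    rw [Spec.map_comp, hg, ← Category.assoc, ch.gen, gpt_over]
  have h2 := Spec.map_injective h1
  apply CommRingCat.hom_ext
  refine RingHom.ext fun a => ?_
  apply Subtype.val_injective
  have h3 := congrArg (fun g : CommRingCat.of K ⟶ CommRingCat.of (FF f) => g.hom a) h2
  exact h3

/-- the chart as a point -/
noncomputable def AffCh.pt (ch : AffCh f) : Pt f K ch.C := ⟨ch.j, ch.over⟩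

/-- charts cover -/
theorem exists_affCh (x : A) : ∃ ch : AffCh f, x ∈ Set.range ch.j := by
  obtain ⟨_, ⟨U, hU, rfl⟩, hxU, -⟩ := A.isBasis_affineOpens.exists_subset_of_mem_open
    (Set.mem_univ x) isOpen_univ
  replace hU : IsAffineOpen U := hU
  replace hxU : x ∈ U := hxU
  have hne : Nonempty U := ⟨⟨x, hxU⟩⟩
  let γ : Γ(A, U) →+* FF f := (A.germToFunctionField U).hom
  have hγ : Function.Injective γ := A.germToFunctionField_injective U
  have hK : ∀ a : K, γ (kSec f U a) = algebraMap K (FF f) a := by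
    intro a
    have hg : genericPoint A ∈ U :=
      ((genericPoint_spec A).mem_open_set_iff U.isOpen).mpr (by simpa using hne)
    change (A.presheaf.germ U (genericPoint A) hg).hom (kSec f U a) = kFun f a
    rw [kSec, kFun, kStalk, ← RingHom.comp_apply, ← CommRingCat.hom_comp]
    congr 2
    simp only [Category.assoc]
    rw [A.presheaf.germ_res (homOfLE le_top) _ hg]
  let C : Subalgebra K (FF f) :=
    { γ.range with
      algebraMap_mem' := fun a => ⟨kSec f U a, hK a⟩ }
  let e : Γ(A, U) ≃+* C := RingEquiv.ofBijective (γ.codRestrict C fun x => ⟨x, rfl⟩)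
    ⟨fun a b h => hγ (congrArg Subtype.val h), fun ⟨y, a, ha⟩ => ⟨a, Subtype.ext ha⟩⟩
  let j : Spec (.of C) ⟶ A := Spec.map (CommRingCat.ofHom (e : Γ(A, U) →+* C)) ≫ hU.fromSpec
  have hiso : IsIso (CommRingCat.ofHom (e : Γ(A, U) →+* C)) :=
    (RingEquiv.toCommRingCatIso e).isIso_hom
  have hgen : Spec.map (CommRingCat.ofHom (algebraMap C (FF f))) ≫ j = gpt f := by
    have hg : genericPoint A ∈ U :=
      ((genericPoint_spec A).mem_open_set_iff U.isOpen).mpr (by simpa using hne)
    simp only [j]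
    rw [← Category.assoc, ← Spec.map_comp, ← CommRingCat.ofHom_comp, gpt,
      ← hU.fromSpecStalk_eq_fromSpecStalk hg]
    rfl
  refine ⟨⟨C, j, hgen, inferInstance, ?_⟩, ?_⟩
  · intro z
    have := functionField_isFractionRing_of_isAffineOpen A U hU
    obtain ⟨a, b, hb, hz⟩ := IsFractionRing.div_surjective (A := Γ(A, U)) (K := A.functionField) z
    have hb0 : b ≠ 0 := nonZeroDivisors.ne_zero hb
    refine ⟨e a, e b, fun h => hb0 (e.injective (by rw [h, map_zero])), ?_⟩
    rw [← hz]
    exact div_mul_cancel₀ _ (fun h => hb0 (hγ (by rw [map_zero]; exact h)))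
  · have h1 : x ∈ Set.range hU.fromSpec := by rw [hU.range_fromSpec]; exact hxU
    obtain ⟨y, hy⟩ := h1
    obtain ⟨y', hy'⟩ := (Spec.map (CommRingCat.ofHom (e : Γ(A, U) →+* C))).surjective y
    refine ⟨y', ?_⟩
    change hU.fromSpec (Spec.map (CommRingCat.ofHom (e : Γ(A, U) →+* C)) y') = x
    rw [hy', hy]

instance (ch : AffCh f) : IsOpenImmersion ch.j := ch.oi

/-- lifting local points to a chart -/
theorem AffCh.exists_lift (ch : AffCh f) {R : Type u} [CommRing R] [IsLocalRing R]
    (h : Spec (.of R) ⟶ A) (hR : h (clp R) ∈ Set.range ch.j) :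
    ∃ g : ch.C →+* R, Spec.map (CommRingCat.ofHom g) ≫ ch.j = h := by
  have h1 : Set.range h ⊆ Set.range ch.j := by
    rintro _ ⟨y, rfl⟩
    exact mem_of_closedPoint_mem h (W := ch.j.opensRange) hR y
  let l := IsOpenImmersion.lift ch.j h h1
  obtain ⟨g, hg⟩ := Spec.map_surjective l
  refine ⟨g.hom, ?_⟩
  change Spec.map g ≫ ch.j = h
  rw [hg]
  exact IsOpenImmersion.lift_fac _ _ _

lemma AffCh.hom_unique (ch : AffCh f) {R : Type u} [CommRing R] {g g' : ch.C →+* R}
    (h : Spec.map (CommRingCat.ofHom g) ≫ ch.j = Spec.map (CommRingCat.ofHom g') ≫ ch.j) :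
    g = g' := by
  have h1 := (cancel_mono ch.j).1 h
  have h2 := Spec.map_injective h1
  exact congrArg CommRingCat.Hom.hom h2

section Normality

variable (ch : AffCh f) (T : Type u) [Field T] [Algebra K T]

/-- the function field is the fraction field of the chart -/
lemma chart_frac (z : EE K (FF f) T) : ∃ a b : T ⊗[K] ch.C, b ≠ 0 ∧
    z * chι (tt K (FF f) T) ch.C b = chι (tt K (FF f) T) ch.C a := by
  -- clear denominators
  have key : ∀ w : T ⊗[K] FF f, ∃ a b : T ⊗[K] ch.C, b ≠ 0 ∧
      w * inclB T ch.C b = inclB T ch.C a := by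
    intro w
    induction w with
    | zero => exact ⟨0, 1, one_ne_zero, by simp⟩
    | tmul t x =>
      obtain ⟨a, b, hb, e⟩ := ch.frac x
      refine ⟨t ⊗ₜ a, 1 ⊗ₜ b, ?_, ?_⟩
      · intro h
        apply hb
        have : Function.Injective (Algebra.TensorProduct.includeRight : ch.C →ₐ[K] T ⊗[K] ch.C) :=
          Algebra.TensorProduct.includeRight_injective (FaithfulSMul.algebraMap_injective K T)
        exact this (by rw [map_zero]; exact h)
      · rw [inclB_tmul, inclB_tmul, Algebra.TensorProduct.tmul_mul_tmul, mul_one, e]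
    | add x y hx hy =>
      obtain ⟨a, b, hb, e⟩ := hx
      obtain ⟨a', b', hb', e'⟩ := hy
      refine ⟨a * b' + a' * b, b * b', mul_ne_zero hb hb', ?_⟩
      rw [map_mul, map_add, map_mul, map_mul, ← e, ← e']
      ring
  obtain ⟨u, v, hv, e⟩ := tt_frac T z
  obtain ⟨a, b, hb, e1⟩ := key u
  obtain ⟨a', b', hb', e2⟩ := key v
  have ha' : a' ≠ 0 := by
    rintro rfl
    rw [map_zero, mul_eq_zero] at e2
    rcases e2 with h | h
    · exact hv h
    · exact hb' (inclB_injective ch.C (by rw [h, map_zero]))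
  refine ⟨a * b', a' * b, mul_ne_zero ha' hb, ?_⟩
  rw [chι_apply, chι_apply, map_mul, map_mul (inclB T ch.C) a b', ← e1, ← e2]
  simp only [map_mul, ← e]
  ring

lemma smooth_bc [Smooth f] :
    Smooth (Spec.map (CommRingCat.ofHom (algebraMap T (T ⊗[K] ch.C)))) := by
  have h1 : Smooth (Spec.map (CommRingCat.ofHom (algebraMap K ch.C))) := by
    rw [← ch.over]
    infer_instance
  rw [← pullbackSpecIso_inv_fst' K T ch.C]
  infer_instance

lemma locIn_closed [Smooth f] (q : PrimeSpectrum (T ⊗[K] ch.C)) :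
    IsIntegrallyClosedIn (locIn (chι (tt K (FF f) T) ch.C) q) (EE K (FF f) T) := by
  have hsm := smooth_bc ch T
  obtain ⟨hd, hc⟩ := stalk_normal (Spec.map (CommRingCat.ofHom (algebraMap T (T ⊗[K] ch.C)))) q
  have hι : Function.Injective (chι (tt K (FF f) T) ch.C) := chι_injective _ _ (tt_injective T)
  let _ : Algebra (T ⊗[K] ch.C) (locIn (chι (tt K (FF f) T) ch.C) q) :=
    (toLoc (chι (tt K (FF f) T) ch.C) q).toAlgebra
  have hloc : IsLocalization.AtPrime (locIn (chι (tt K (FF f) T) ch.C) q) q.asIdeal := by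
    refine ⟨⟨?_, ?_, ?_⟩⟩
    · rintro ⟨s, hs⟩
      exact (isUnit_toLoc_iff hι q s).2 hs
    · rintro ⟨y, a, s, hs, e⟩
      exact ⟨⟨a, ⟨s, hs⟩⟩, Subtype.ext e⟩
    · intro x y hxy
      exact ⟨1, by rw [hι (congrArg Subtype.val hxy)]⟩
  let _ : Algebra (T ⊗[K] ch.C) ((Spec (.of (T ⊗[K] ch.C))).presheaf.stalk q) :=
    StructureSheaf.stalkAlgebra (T ⊗[K] ch.C) q
  have hloc' : IsLocalization.AtPrime ((Spec (.of (T ⊗[K] ch.C))).presheaf.stalk q) q.asIdeal :=
    StructureSheaf.IsLocalization.to_stalk (T ⊗[K] ch.C) q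
  let e : ((Spec (.of (T ⊗[K] ch.C))).presheaf.stalk q) ≃ₐ[T ⊗[K] ch.C]
      (locIn (chι (tt K (FF f) T) ch.C) q) :=
    IsLocalization.algEquiv q.asIdeal.primeCompl _ _
  have h1 : IsIntegrallyClosed (locIn (chι (tt K (FF f) T) ch.C) q) :=
    IsIntegrallyClosed.of_equiv e.toRingEquiv
  have hfs : FaithfulSMul (locIn (chι (tt K (FF f) T) ch.C) q) (EE K (FF f) T) :=
    (faithfulSMul_iff_algebraMap_injective _ _).2 Subtype.val_injective
  have h2 : IsFractionRing (locIn (chι (tt K (FF f) T) ch.C) q) (EE K (FF f) T) := by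
    refine IsFractionRing.of_field _ _ fun z => ?_
    obtain ⟨a, b, hb, e⟩ := chart_frac ch T z
    have hb0 : chι (tt K (FF f) T) ch.C b ≠ 0 := fun h => hb (hι (by rw [h, map_zero]))
    exact ⟨toLoc _ q a, toLoc _ q b, by
      change z = chι (tt K (FF f) T) ch.C a / chι (tt K (FF f) T) ch.C b
      rw [← e, mul_div_cancel_right₀ _ hb0]⟩
  exact (isIntegrallyClosed_iff_isIntegrallyClosedIn (EE K (FF f) T)).1 h1

/-- membership in local rings of a chart can be tested on valuation rings -/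
theorem mem_locIn_of_valuations [Smooth f] (q : PrimeSpectrum (T ⊗[K] ch.C)) (y : EE K (FF f) T)
    (hy : ∀ V : ValuationSubring (EE K (FF f) T),
      (locIn (chι (tt K (FF f) T) ch.C) q ≤ V.toSubring) → y ∈ V) :
    y ∈ locIn (chι (tt K (FF f) T) ch.C) q := by
  have := locIn_closed ch T q
  rw [Subring.eq_iInf_of_isIntegrallyClosedIn (R := locIn (chι (tt K (FF f) T) ch.C) q),
    Subring.mem_iInf]
  rintro ⟨V, hV⟩
  exact hy V hV

end Normality

end Fermat.Agent.AbVar.Sq
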