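import Fermat.Agent.AbVar.Gauss

/-!
# S26: twisted sections over a chart
-/

set_option autoImplicit false
set_option linter.unusedSectionVars false

open TensorProduct

namespace Fermat.Agent.AbVar.Sq

section General

variable {k F : Type*} [Field k] [Field F] [Algebra k F]
  {T : Type*} [CommRing T] [Algebra k T] {E : Type*} [Field E] (τ : T ⊗[k] F →+* E)
  (B : Subalgebra k F)

variable (T) in
/-- `T ⊗ B → T ⊗ F` -/
noncomputable def inclB : T ⊗[k] B →ₐ[k] T ⊗[k] F :=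
  Algebra.TensorProduct.map (AlgHom.id k T) B.val

@[simp] lemma inclB_tmul (t : T) (b : B) : inclB T B (t ⊗ₜ b) = t ⊗ₜ (b : F) := rfl

lemma inclB_injective : Function.Injective (inclB T B) :=
  Module.Flat.lTensor_preserves_injective_linearMap (M := T) B.val.toLinearMap
    Subtype.val_injective

/-- the map from `T ⊗ B` to the big field -/
noncomputable def chι : T ⊗[k] B →+* E := τ.comp (inclB T B).toRingHom

lemma chι_apply (x : T ⊗[k] B) : chι τ B x = τ (inclB T B x) := rfl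

lemma chι_injective (hτ : Function.Injective τ) : Function.Injective (chι τ B) :=
  hτ.comp (inclB_injective B)

variable {B} {I : Submodule k F} (hI : ∀ b ∈ B, ∀ a ∈ I, b * a ∈ I)

include hI in
lemma inclB_mul_mem (x : T ⊗[k] B) {a : T ⊗[k] F} (ha : a ∈ I.baseChange T) :
    inclB T B x * a ∈ I.baseChange T := by
  let β := Module.Basis.ofVectorSpace k I
  obtain ⟨c, rfl⟩ := (mem_baseChange_iff β a).1 ha
  induction x with
  | zero => rw [map_zero, zero_mul]; exact zero_mem _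
  | tmul t b =>
    rw [inclB_tmul, tsum, Finsupp.sum, Finset.mul_sum]
    refine Submodule.sum_mem _ fun i _ => ?_
    rw [Algebra.TensorProduct.tmul_mul_tmul]
    exact Submodule.tmul_mem_baseChange_of_mem _ (hI _ b.2 _ (β i).2)
  | add x y hx hy => rw [map_add, add_mul]; exact add_mem hx hy

/-- the twisted module attached to `I` and the system `D` -/
def MM (B : Subalgebra k F) (D : PrimeSpectrum (T ⊗[k] B) → Eˣ) (I : Submodule k F) :
    AddSubgroup E where
  carrier := {u | ∀ b ∈ J (chι τ B) D⁻¹, ∃ a ∈ I.baseChange T, u * b = τ a}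
  add_mem' := by
    intro u v hu hv b hb
    obtain ⟨a, ha, e⟩ := hu b hb
    obtain ⟨a', ha', e'⟩ := hv b hb
    exact ⟨a + a', add_mem ha ha', by rw [add_mul, e, e', map_add]⟩
  zero_mem' := fun b _ => ⟨0, zero_mem _, by rw [zero_mul, map_zero]⟩
  neg_mem' := by
    intro u hu b hb
    obtain ⟨a, ha, e⟩ := hu b hb
    exact ⟨-a, neg_mem ha, by rw [neg_mul, e, map_neg]⟩

variable {τ} {D : PrimeSpectrum (T ⊗[k] B) → Eˣ}

include hI in
lemma tau_mul_mem_MM {a : T ⊗[k] F} (ha : a ∈ I.baseChange T) {j : E} (hj : j ∈ J (chι τ B) D) :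
    τ a * j ∈ MM τ B D I := by
  intro b hb
  obtain ⟨x, hx⟩ := J_mul hj hb
  refine ⟨inclB T B x * a, inclB_mul_mem hI x ha, ?_⟩
  rw [map_mul, ← chι_apply, hx]; ring

include hI in
lemma chι_mul_mem_MM (x : T ⊗[k] B) {u : E} (hu : u ∈ MM τ B D I) :
    chι τ B x * u ∈ MM τ B D I := by
  intro b hb
  obtain ⟨a, ha, e⟩ := hu b hb
  exact ⟨inclB T B x * a, inclB_mul_mem hI x ha, by rw [map_mul, ← chι_apply, ← e]; ring⟩

/-- a criterion for membership using dual families -/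
lemma mem_MM_of_dual (hI : ∀ b ∈ B, ∀ a ∈ I, b * a ∈ I) {n : ℕ} {a b : Fin n → E}
    (ha : ∀ i, a i ∈ J (chι τ B) D) (hab : ∑ i, a i * b i = 1) {u : E}
    (hu : ∀ i, ∃ c ∈ I.baseChange T, u * b i = τ c) : u ∈ MM τ B D I := by
  intro v hv
  choose c hc e using hu
  choose x hx using fun i => J_mul (ha i) hv
  refine ⟨∑ i, inclB T B (x i) * c i, Submodule.sum_mem _ fun i _ => inclB_mul_mem hI _ (hc i), ?_⟩
  rw [map_sum]
  calc u * v = ∑ i, a i * v * (u * b i) := by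
        rw [← mul_one (u * v), ← hab, Finset.mul_sum]
        exact Finset.sum_congr rfl fun i _ => by ring
    _ = _ := Finset.sum_congr rfl fun i _ => by rw [map_mul, ← chι_apply, hx, ← e]

lemma mem_MM_repr {n : ℕ} {a b : Fin n → E} (hb : ∀ i, b i ∈ J (chι τ B) D⁻¹)
    (hab : ∑ i, a i * b i = 1) {u : E} (hu : u ∈ MM τ B D I) :
    ∃ c : Fin n → T ⊗[k] F, (∀ i, c i ∈ I.baseChange T) ∧ (∀ i, u * b i = τ (c i)) ∧
      u = ∑ i, τ (c i) * a i := by
  choose c hc e using fun i => hu (b i) (hb i)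
  refine ⟨c, hc, e, ?_⟩
  calc u = u * ∑ i, a i * b i := by rw [hab, mul_one]
    _ = ∑ i, u * b i * a i := by
        rw [Finset.mul_sum]
        exact Finset.sum_congr rfl fun i _ => by ring
    _ = _ := Finset.sum_congr rfl fun i _ => by rw [e]

/-- the twisted module of `B` is the fractional ideal. -/
lemma mem_J_of_mem_MM (hD : IsLC (chι τ B) D) (hIB : ∀ a ∈ I, a ∈ B) {u : E}
    (hu : u ∈ MM τ B D I) : u ∈ J (chι τ B) D := by
  obtain ⟨n, a, b, ha, hb, hab⟩ := hD.exists_dual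
  obtain ⟨c, hc, -, rfl⟩ := mem_MM_repr hb hab hu
  refine AddSubgroup.sum_mem _ fun i _ => ?_
  have : ∃ x : T ⊗[k] B, inclB T B x = c i := by
    let β := Module.Basis.ofVectorSpace k I
    obtain ⟨d, hd⟩ := (mem_baseChange_iff β (c i)).1 (hc i)
    rw [hd]
    refine ⟨d.sum fun j t => t ⊗ₜ ⟨β j, hIB _ (β j).2⟩, ?_⟩
    rw [map_finsuppSum]
    rfl
  obtain ⟨x, hx⟩ := this
  rw [← hx, ← chι_apply]
  exact J_smul x (ha i)

end General

section Reduction

variable {k F : Type*} [Field k] [Field F] [Algebra k F]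
  {R κ κ' : Type*} [CommRing R] [IsDomain R] [ValuationRing R] [Algebra k R]
  [Field κ] [Algebra k κ] [Algebra R κ] [IsFractionRing R κ] [IsScalarTower k R κ]
  [Field κ'] [Algebra k κ'] (res : R →ₐ[k] κ') [IsLocalHom res.toRingHom]
  {E E' : Type*} [Field E] [Field E'] (τ : κ ⊗[k] F →+* E) (τ' : κ' ⊗[k] F →+* E')
  (B : Subalgebra k F)

lemma inclB_scal {T T' : Type*} [CommRing T] [Algebra k T] [CommRing T'] [Algebra k T']
    (φ : T →ₐ[k] T') (x : T ⊗[k] B) : inclB T' B (scal B φ x) = scal F φ (inclB T B x) := by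
  induction x with
  | zero => simp
  | tmul t b => rfl
  | add x y hx hy => simp only [map_add, hx, hy]

lemma chι_scal (x : R ⊗[k] B) :
    chι τ B (scal B (frc k R κ) x) = chι (tauR R τ) B x := by
  rw [chι_apply, inclB_scal]; rfl

/-- the generic point of the special fibre of the chart -/
noncomputable def spPt : PrimeSpectrum (R ⊗[k] B) := kerPt (chι τ' B) (scal B res).toRingHom

lemma mem_spPt (x : R ⊗[k] B) :
    x ∈ (spPt res τ' B).asIdeal ↔ τ' (scal F res (inclB R B x)) = 0 := by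
  rw [spPt, mem_kerPt, chι_apply]
  change τ' (inclB κ' B (scal B res x)) = 0 ↔ _
  rw [inclB_scal]

lemma locIn_le_gauss : locIn (chι (tauR R τ) B) (spPt res τ' B) ≤ gaussRing res τ τ' := by
  rintro y ⟨a, s, hs, e⟩
  refine ⟨inclB R B a, inclB R B s, ?_, e⟩
  rw [mem_spPt] at hs
  exact hs

lemma gres_eq (hτ : Function.Injective τ) {y : E} {a s : R ⊗[k] B}
    (hs : s ∉ (spPt res τ' B).asIdeal) (e : y * chι (tauR R τ) B s = chι (tauR R τ) B a) :
    gres res τ τ' y = chι τ' B (scal B res a) / chι τ' B (scal B res s) := by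
  rw [mem_spPt] at hs
  have := spe_eq (ι := tauR R τ) (ι' := τ') (ψ := (scal F res).toRingHom) (tauR_injective τ hτ)
    (a := inclB R B a) (s := inclB R B s) hs e
  rw [gres, this, chι_apply, chι_apply, inclB_scal, inclB_scal]
  rfl

lemma not_mem_spPt (hτ' : Function.Injective τ') {s : R ⊗[k] B} {q' : PrimeSpectrum (κ' ⊗[k] B)}
    (hs : scal B res s ∉ q'.asIdeal) : s ∉ (spPt res τ' B).asIdeal := by
  intro h'
  rw [mem_spPt] at h'
  have : scal B res s = 0 := by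
    apply chι_injective τ' B hτ'
    rw [chι_apply, inclB_scal, h', map_zero]
  exact hs (this ▸ q'.asIdeal.zero_mem)

lemma gres_mem_locIn (hτ : Function.Injective τ) (hτ' : Function.Injective τ')
    (q' : PrimeSpectrum (κ' ⊗[k] B)) {y : E}
    (hy : y ∈ locIn (chι (tauR R τ) B) (PrimeSpectrum.comap (scal B res).toRingHom q')) :
    gres res τ τ' y ∈ locIn (chι τ' B) q' := by
  obtain ⟨a, s, hs, e⟩ := hy
  have hs' : scal B res s ∉ q'.asIdeal := hs
  rw [gres_eq res τ τ' B hτ (not_mem_spPt res τ' B hτ' hs') e]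
  refine ⟨scal B res a, scal B res s, hs', ?_⟩
  rw [div_mul_cancel₀]
  intro h
  have : scal B res s = 0 := chι_injective τ' B hτ' (by rw [h, map_zero])
  exact hs' (this ▸ q'.asIdeal.zero_mem)

/-- compatible systems on the chart over `R`, `κ`, `κ'`. -/
structure CompatD (DR : PrimeSpectrum (R ⊗[k] B) → Eˣ)
    (Dκ : PrimeSpectrum (κ ⊗[k] B) → Eˣ) (D' : PrimeSpectrum (κ' ⊗[k] B) → E'ˣ) : Prop where
  lc : IsLC (chι (tauR R τ) B) DR
  gen : ∀ q, Dκ q = DR (PrimeSpectrum.comap (scal B (frc k R κ)).toRingHom q)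
  red_mem : ∀ q', ((DR (PrimeSpectrum.comap (scal B res).toRingHom q') /
    DR (spPt res τ' B) : Eˣ) : E) ∈ gaussRing res τ τ'
  red : ∀ q', gres res τ τ' ((DR (PrimeSpectrum.comap (scal B res).toRingHom q') /
    DR (spPt res τ' B) : Eˣ) : E) = D' q'

variable {res τ τ' B} {DR : PrimeSpectrum (R ⊗[k] B) → Eˣ}
    {Dκ : PrimeSpectrum (κ ⊗[k] B) → Eˣ} {D' : PrimeSpectrum (κ' ⊗[k] B) → E'ˣ}

lemma CompatD.inv (h : CompatD res τ τ' B DR Dκ D') (hτ : Function.Injective τ) :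
    CompatD res τ τ' B DR⁻¹ Dκ⁻¹ D'⁻¹ := by
  have e : ∀ q, ((DR⁻¹ q / DR⁻¹ (spPt res τ' B) : Eˣ) : E) =
      ((DR q / DR (spPt res τ' B) : Eˣ) : E)⁻¹ := by
    intro q
    rw [← Units.val_inv_eq_inv_val]
    congr 1
    simp [div_eq_mul_inv, mul_comm]
  refine ⟨h.lc.inv, fun q => by simp only [Pi.inv_apply, h.gen], fun q' => ?_, fun q' => ?_⟩
  · rw [e]
    refine spe_inv_mem (tauR_injective τ hτ) (h.red_mem q') ?_
    rw [← gres, h.red]
    exact Units.ne_zero _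
  · rw [e, gres, spe_inv (tauR_injective τ hτ) (h.red_mem q'), ← gres, h.red, Pi.inv_apply,
      Units.val_inv_eq_inv_val]
    rw [← gres, h.red]
    exact Units.ne_zero _

/-- `J` over `R` is contained in `J` over the generic fibre -/
lemma CompatD.J_gen (h : CompatD res τ τ' B DR Dκ D') {u : E}
    (hu : u ∈ J (chι (tauR R τ) B) DR) : u ∈ J (chι τ B) Dκ := by
  intro q
  rw [h.gen]
  exact locIn_comap (scal B (frc k R κ)).toRingHom
    (RingHom.ext fun x => chι_scal τ B x) q (hu _)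

/-- reduction of `J` -/
lemma CompatD.J_mem (_h : CompatD res τ τ' B DR Dκ D') {u : E}
    (hu : u ∈ J (chι (tauR R τ) B) DR) : u * DR (spPt res τ' B) ∈ gaussRing res τ τ' :=
  locIn_le_gauss res τ τ' B (hu _)

lemma CompatD.J_mem_inv (h : CompatD res τ τ' B DR Dκ D') (hτ : Function.Injective τ) {u : E}
    (hu : u ∈ J (chι (tauR R τ) B) DR⁻¹) :
    u * ((DR (spPt res τ' B))⁻¹ : Eˣ) ∈ gaussRing res τ τ' :=
  (h.inv hτ).J_mem hu

/-- evaluating at a point of the special fibre -/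
lemma CompatD.mul_red (h : CompatD res τ τ' B DR Dκ D') (hτ : Function.Injective τ)
    {u : E} (hm : u * DR (spPt res τ' B) ∈ gaussRing res τ τ') (q' : PrimeSpectrum (κ' ⊗[k] B)) :
    gres res τ τ' (u * DR (spPt res τ' B)) * D' q' =
      gres res τ τ' (u * DR (PrimeSpectrum.comap (scal B res).toRingHom q')) := by
  rw [← h.red, gres, gres, ← spe_mul (tauR_injective τ hτ) hm (h.red_mem q')]
  congr 1
  rw [mul_assoc, ← Units.val_mul, mul_div_cancel]

lemma CompatD.J_red (h : CompatD res τ τ' B DR Dκ D') (hτ : Function.Injective τ)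
    (hτ' : Function.Injective τ') {u : E} (hu : u ∈ J (chι (tauR R τ) B) DR) :
    gres res τ τ' (u * DR (spPt res τ' B)) ∈ J (chι τ' B) D' := by
  intro q'
  rw [h.mul_red hτ (h.J_mem hu)]
  exact gres_mem_locIn res τ τ' B hτ hτ' q' (hu _)

/-- duals on all fibres -/
lemma CompatD.exists_dual (h : CompatD res τ τ' B DR Dκ D') (hτ : Function.Injective τ)
    (hτ' : Function.Injective τ') :
    ∃ (n : ℕ) (a b : Fin n → E),
      (∀ i, a i ∈ J (chι (tauR R τ) B) DR) ∧ (∀ i, b i ∈ J (chι (tauR R τ) B) DR⁻¹) ∧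
      (∑ i, a i * b i = 1) ∧
      (∀ i, gres res τ τ' (a i * DR (spPt res τ' B)) ∈ J (chι τ' B) D') ∧
      (∀ i, gres res τ τ' (b i * (DR⁻¹) (spPt res τ' B)) ∈ J (chι τ' B) D'⁻¹) ∧
      ∑ i, gres res τ τ' (a i * DR (spPt res τ' B)) *
        gres res τ τ' (b i * (DR⁻¹) (spPt res τ' B)) = 1 := by
  obtain ⟨n, a, b, ha, hb, hab⟩ := h.lc.exists_dual
  refine ⟨n, a, b, ha, hb, hab, fun i => h.J_red hτ hτ' (ha i),
    fun i => (h.inv hτ).J_red hτ hτ' (hb i), ?_⟩
  have h1 : ∀ i, gres res τ τ' (a i * DR (spPt res τ' B)) *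
        gres res τ τ' (b i * (DR⁻¹) (spPt res τ' B)) = gres res τ τ' (a i * b i) := by
    intro i
    rw [gres, gres, ← spe_mul (tauR_injective τ hτ) (h.J_mem (ha i)) ((h.inv hτ).J_mem (hb i))]
    congr 1
    rw [mul_mul_mul_comm, ← Units.val_mul, Pi.inv_apply, mul_inv_cancel, Units.val_one, mul_one]
  rw [Finset.sum_congr rfl fun i _ => h1 i]
  rw [← spe_sum (tauR_injective τ hτ), hab, spe_one (tauR_injective τ hτ)]
  intro i _
  obtain ⟨x, hx⟩ := J_mul (ha i) (hb i)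
  rw [← hx]
  exact tauR_mem_gauss res τ τ' (inclB R B x)

variable {I : Submodule k F}

/-- (M1) -/
lemma CompatD.MM_gen (h : CompatD res τ τ' B DR Dκ D') (hI : ∀ b ∈ B, ∀ a ∈ I, b * a ∈ I) {u : E}
    (hu : u ∈ MM (tauR R τ) B DR I) : u ∈ MM τ B Dκ I := by
  obtain ⟨n, a, b, ha, hb, hab⟩ := h.lc.exists_dual
  refine mem_MM_of_dual hI (fun i => h.J_gen (ha i)) hab fun i => ?_
  obtain ⟨c, hc, e⟩ := hu (b i) (hb i)
  exact ⟨scal F (frc k R κ) c, scal_mem_baseChange _ hc, e⟩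

/-- (M2) -/
lemma CompatD.MM_of_gen (h : CompatD res τ τ' B DR Dκ D') (hτ : Function.Injective τ)
    (hτ' : Function.Injective τ') (hI : ∀ b ∈ B, ∀ a ∈ I, b * a ∈ I)
    {u : E} (hu : u ∈ MM τ B Dκ I) (hm : u * DR (spPt res τ' B) ∈ gaussRing res τ τ') :
    u ∈ MM (tauR R τ) B DR I := by
  intro b hb
  have hb' : b ∈ J (chι τ B) Dκ⁻¹ := (h.inv hτ).J_gen hb
  obtain ⟨c, hc, e⟩ := hu b hb'
  have hmem : τ c ∈ gaussRing res τ τ' := by
    rw [← e]
    have := mul_mem hm ((h.inv hτ).J_mem hb)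
    rw [mul_mul_mul_comm, ← Units.val_mul, Pi.inv_apply, mul_inv_cancel, Units.val_one,
      mul_one] at this
    exact this
  obtain ⟨a₀, ha₀, e0⟩ := mem_of_mem_gauss (R := R) res τ τ' hτ hτ' hc hmem
  exact ⟨a₀, ha₀, by rw [e, ← e0]; rfl⟩

/-- (M3) -/
lemma CompatD.MM_mem (h : CompatD res τ τ' B DR Dκ D')
    {u : E} (hu : u ∈ MM (tauR R τ) B DR I) :
    u * DR (spPt res τ' B) ∈ gaussRing res τ τ' := by
  obtain ⟨n, a, b, ha, hb, hab⟩ := h.lc.exists_dual
  obtain ⟨c, hc, -, rfl⟩ := mem_MM_repr hb hab hu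
  rw [Finset.sum_mul]
  refine sum_mem fun i _ => ?_
  rw [mul_assoc]
  exact mul_mem (tauR_mem_gauss res τ τ' _) (h.J_mem (ha i))

lemma CompatD.gres_mul_inv (h : CompatD res τ τ' B DR Dκ D') (hτ : Function.Injective τ)
    {u b : E} (hm : u * DR (spPt res τ' B) ∈ gaussRing res τ τ')
    (hb : b ∈ J (chι (tauR R τ) B) DR⁻¹) :
    gres res τ τ' (u * DR (spPt res τ' B)) * gres res τ τ' (b * (DR⁻¹) (spPt res τ' B)) =
      gres res τ τ' (u * b) := by
  rw [gres, gres, ← spe_mul (tauR_injective τ hτ) hm ((h.inv hτ).J_mem hb)]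
  congr 1
  rw [mul_mul_mul_comm, ← Units.val_mul, Pi.inv_apply, mul_inv_cancel, Units.val_one, mul_one]

/-- (M3) -/
lemma CompatD.MM_red (h : CompatD res τ τ' B DR Dκ D') (hτ : Function.Injective τ)
    (hτ' : Function.Injective τ') (hI : ∀ b ∈ B, ∀ a ∈ I, b * a ∈ I)
    {u : E} (hu : u ∈ MM (tauR R τ) B DR I) :
    gres res τ τ' (u * DR (spPt res τ' B)) ∈ MM τ' B D' I := by
  obtain ⟨n, a, b, ha, hb, hab, ha', hb', hab'⟩ := h.exists_dual hτ hτ'
  refine mem_MM_of_dual hI ha' hab' fun i => ?_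
  rw [h.gres_mul_inv hτ (h.MM_mem hu) (hb i)]
  obtain ⟨c, hc, e⟩ := hu (b i) (hb i)
  refine ⟨scal F res c, scal_mem_baseChange _ hc, ?_⟩
  rw [e, gres_tauR res τ τ' hτ]

/-- (M4) -/
lemma CompatD.MM_ker (h : CompatD res τ τ' B DR Dκ D') (hτ : Function.Injective τ)
    (hτ' : Function.Injective τ') (hI : ∀ b ∈ B, ∀ a ∈ I, b * a ∈ I)
    {u : E} (hu : u ∈ MM (tauR R τ) B DR I) (h0 : gres res τ τ' (u * DR (spPt res τ' B)) = 0) :
    ∃ m : R, res m = 0 ∧ ∃ v ∈ MM (tauR R τ) B DR I, u = tauR R τ (m ⊗ₜ 1) * v := by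
  obtain ⟨n, a, b, ha, hb, hab⟩ := h.lc.exists_dual
  obtain ⟨c, hc, ec, rfl⟩ := mem_MM_repr hb hab hu
  have hc0 : ∀ i, scal F res (c i) = 0 := by
    intro i
    have h1 := h.gres_mul_inv hτ (h.MM_mem hu) (hb i)
    rw [h0, zero_mul, ec, gres_tauR res τ τ' hτ] at h1
    exact hτ' (by rw [← h1, map_zero])
  have key : ∀ s : Finset (Fin n), ∃ m : R, res m = 0 ∧ ∃ v ∈ MM (tauR R τ) B DR I,
      ∑ i ∈ s, tauR R τ (c i) * a i = tauR R τ (m ⊗ₜ 1) * v := by
    intro s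
    classical
    induction s using Finset.induction_on with
    | empty => exact ⟨0, map_zero _, 0, zero_mem _, by simp⟩
    | insert j s hj ih =>
      obtain ⟨m, hm, v, hv, e⟩ := ih
      obtain ⟨m', hm', d, hd, e'⟩ := exists_smul_of_scal_eq_zero res (hc j) (hc0 j)
      rw [Finset.sum_insert hj, e, e', tauR_smul]
      have hw : tauR R τ d * a j ∈ MM (tauR R τ) B DR I := tau_mul_mem_MM hI hd (ha j)
      have hsm : ∀ (r : R) (w : E), w ∈ MM (tauR R τ) B DR I →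
          tauR R τ (r ⊗ₜ 1) * w ∈ MM (tauR R τ) B DR I := by
        intro r w hw
        exact chι_mul_mem_MM hI (r ⊗ₜ 1) hw
      have hsplit : ∀ r r' : R, tauR R τ ((r * r') ⊗ₜ 1) = tauR R τ (r ⊗ₜ 1) * tauR R τ (r' ⊗ₜ 1) := by
        intro r r'
        rw [← map_mul, Algebra.TensorProduct.tmul_mul_tmul, one_mul]
      rcases ValuationRing.dvd_total m m' with ⟨t, rfl⟩ | ⟨t, rfl⟩
      · refine ⟨m, hm, tauR R τ (t ⊗ₜ 1) * (tauR R τ d * a j) + v,
          add_mem (hsm _ _ hw) hv, ?_⟩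
        rw [hsplit]; ring
      · refine ⟨m', hm', tauR R τ d * a j + tauR R τ (t ⊗ₜ 1) * v,
          add_mem hw (hsm _ _ hv), ?_⟩
        rw [hsplit]; ring
  exact key Finset.univ

/-- (M5) -/
lemma CompatD.MM_surj (h : CompatD res τ τ' B DR Dκ D') (hτ : Function.Injective τ)
    (hτ' : Function.Injective τ') (hI : ∀ b ∈ B, ∀ a ∈ I, b * a ∈ I)
    (hres : Function.Surjective res) {u' : E'} (hu : u' ∈ MM τ' B D' I) :
    ∃ u ∈ MM (tauR R τ) B DR I, gres res τ τ' (u * DR (spPt res τ' B)) = u' := by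
  obtain ⟨n, a, b, ha, hb, hab, ha', hb', hab'⟩ := h.exists_dual hτ hτ'
  obtain ⟨c', hc', -, rfl⟩ := mem_MM_repr hb' hab' hu
  choose c hc e using fun i => scal_surj_baseChange (F := F) res hres (hc' i)
  refine ⟨∑ i, tauR R τ (c i) * a i, sum_mem fun i _ => tau_mul_mem_MM hI (hc i) (ha i), ?_⟩
  rw [Finset.sum_mul, gres, spe_sum (tauR_injective τ hτ)]
  · refine Finset.sum_congr rfl fun i _ => ?_
    rw [mul_assoc, spe_mul (tauR_injective τ hτ) (tauR_mem_gauss res τ τ' _) (h.J_mem (ha i)),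
      ← gres, ← gres, gres_tauR res τ τ' hτ, e]
  · intro i _
    rw [mul_assoc]
    exact mul_mem (tauR_mem_gauss res τ τ' _) (h.J_mem (ha i))

end Reduction

end Fermat.Agent.AbVar.Sq
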