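import Fermat.Agent.AbVar.Sq.Theta
import Fermat.Agent.AbVar.Isogeny
import Fermat.Agent.AbVar.Coords

/-!
# S26: the generic point degenerates to the origin
-/

set_option autoImplicit false
set_option linter.unusedSectionVars false
universe u

open CategoryTheory CategoryTheory.Limits AlgebraicGeometry TopologicalSpace IsLocalRing
open NeronModelInfra GoodReductionJacobian
open Fermat.Agent.Jac TensorProduct

namespace Fermat.Agent.AbVar.Sq

attribute [local instance] isDomain_tensor

/-- valuation rings dominating a localization -/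
lemma exists_dominating {S Ω E' : Type*} [CommRing S] [Field Ω] [Field E'] (i : S →+* Ω)
    (hi : Function.Injective i) (π : S →+* E') :
    ∃ (V : ValuationSubring Ω) (h : ∀ s, i s ∈ V), ∀ s, π s = 0 →
      IsLocalRing.residue V ⟨i s, h s⟩ = 0 := by
  have := locIn_isLocalRing hi (kerPt (RingHom.id E') π)
  obtain ⟨V, hV, hloc⟩ := IsLocalRing.exists_factor_valuationRing
    (locIn i (kerPt (RingHom.id E') π)).subtype
  refine ⟨V, fun s => hV (toLoc i _ s), fun s hs => ?_⟩
  rw [IsLocalRing.residue_eq_zero_iff, mem_maximalIdeal, mem_nonunits_iff]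
  intro hu
  have h1 : IsUnit (toLoc i (kerPt (RingHom.id E') π) s) :=
    hloc.map_nonunit _ hu
  rw [isUnit_toLoc_iff hi] at h1
  exact h1 hs

variable {K : Type u} [Field K] [IsAlgClosed K] {A : Scheme.{u}} {f : A ⟶ Spec (.of K)}
  (L : RelativeGroupLaw K f) [IsIntegral A]
  {k : Type u} [Field k] [Algebra K k] {F : Type u} [Field F] [Algebra k F]
  [Algebra K F] [IsScalarTower K k F]

/-- the generic point after extension of the base -/
noncomputable def gz (f : A ⟶ Spec (.of K)) (T : Type u) [Field T] [Algebra K T] :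
    Spec (.of (EE K (FF f) T)) ⟶ A :=
  Spec.map (CommRingCat.ofHom ((tt K (FF f) T).comp
    (Algebra.TensorProduct.includeRight : FF f →ₐ[K] T ⊗[K] FF f).toRingHom)) ≫ gpt f

lemma gpt_over : gpt f ≫ f = Spec.map (CommRingCat.ofHom (algebraMap K (FF f))) :=
  fromSpecStalk_comp_str f (genericPoint A)

lemma gz_over (T : Type u) [Field T] [Algebra K T] :
    gz f T ≫ f = Spec.map (CommRingCat.ofHom (algebraMap K (EE K (FF f) T))) := by
  rw [gz, Category.assoc, gpt_over, ← Spec.map_comp, ← CommRingCat.ofHom_comp]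
  congr 2
  refine RingHom.ext fun a => ?_
  change tt K (FF f) T (1 ⊗ₜ algebraMap K (FF f) a) = _
  rw [← Algebra.TensorProduct.algebraMap_apply']
  rfl

/-- the generic point over `F`, as a `k`-point. -/
noncomputable def yk (f : A ⟶ Spec (.of K)) (k F : Type u) [Field k] [Algebra K k]
    [Field F] [Algebra k F] [Algebra K F] [IsScalarTower K k F] : Pt f k (EE K (FF f) F) :=
  ⟨gz f F, by
    rw [gz_over, strK]
    congr 2
    exact IsScalarTower.algebraMap_eq K k (EE K (FF f) F)⟩

/-- the inclusion of `F` -/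
noncomputable def ωk (f : A ⟶ Spec (.of K)) (k F : Type u) [Field k] [Algebra K k]
    [Field F] [Algebra k F] [Algebra K F] [IsScalarTower K k F] : F →ₐ[k] EE K (FF f) F :=
  (IsScalarTower.toAlgHom k (F ⊗[K] FF f) (EE K (FF f) F)).comp
    (Algebra.TensorProduct.includeLeft : F →ₐ[k] F ⊗[K] FF f)

lemma one_coe (T : Scheme.{u}) (t : T ⟶ Spec (.of K)) :
    (L.one t).1 = t ≫ (L.one (𝟙 (Spec (.of K)))).1 := by
  have := L.one_natural (𝟙 _) t t (Category.comp_id t)
  rw [← this]
  rfl

lemma gpt_eq (x : A) (ρ : A.presheaf.stalk x →+* FF f)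
    (hρ : ρ = algebraMap (A.presheaf.stalk x) A.functionField) :
    gpt f = Spec.map (CommRingCat.ofHom ρ) ≫ A.fromSpecStalk x := by
  subst hρ
  exact (Scheme.SpecMap_stalkSpecializes_fromSpecStalk
        ((genericPoint_spec A).specializes trivial)).symm

/-- the generic point over `F` degenerates to the origin. -/
theorem degen_generic : Degen L (ωk f k F) (yk f k F) := by
  intro Ω _ _ φ
  let e0 : Spec (.of K) ⟶ A := (L.one (𝟙 (Spec (.of K)))).1
  have he0 : e0 ≫ f = 𝟙 _ := (L.one _).2
  let o : A := e0 (closedPoint K)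
  letI : Algebra K (A.presheaf.stalk o) := (kStalk f o).toAlgebra
  let ev0 : A.presheaf.stalk o →+* K := (Scheme.stalkClosedPointTo e0).hom
  have hev0 : Spec.map (CommRingCat.ofHom ev0) ≫ A.fromSpecStalk o = e0 :=
    Scheme.Spec_stalkClosedPointTo_fromSpecStalk e0
  have hev1 : ∀ a : K, ev0 (kStalk f o a) = a := by
    have h1 : Spec.map (CommRingCat.ofHom (ev0.comp (kStalk f o))) =
        Spec.map (𝟙 (CommRingCat.of K)) := by
      rw [Spec.map_id, ← he0, ← hev0, Category.assoc, fromSpecStalk_comp_str, ← Spec.map_comp,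
        ← CommRingCat.ofHom_comp]
    have h2 := Spec.map_injective h1
    intro a
    have h3 := congrArg (fun g : CommRingCat.of K ⟶ CommRingCat.of K => g.hom a) h2
    exact h3
  let ev0' : A.presheaf.stalk o →ₐ[K] K := { ev0 with commutes' := hev1 }
  let ρ : A.presheaf.stalk o →ₐ[K] FF f :=
    { algebraMap (A.presheaf.stalk o) A.functionField with
      commutes' := fun a => congrArg (fun g : K →+* A.functionField => g a) (Coords.algebraMap_kStalk f o) }
  have hρ : Function.Injective ρ := IsFractionRing.injective (A.presheaf.stalk o) A.functionField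
  let mρ : F ⊗[K] A.presheaf.stalk o →ₐ[K] F ⊗[K] FF f :=
    Algebra.TensorProduct.map (AlgHom.id K F) ρ
  have hmρ : Function.Injective mρ :=
    Module.Flat.lTensor_preserves_injective_linearMap (M := F) ρ.toLinearMap hρ
  let i : F ⊗[K] A.presheaf.stalk o →+* Ω :=
    φ.toRingHom.comp ((tt K (FF f) F).comp mρ.toRingHom)
  have hi : Function.Injective i := φ.toRingHom.injective.comp ((tt_injective F).comp hmρ)
  let π : F ⊗[K] A.presheaf.stalk o →+* F :=
    (Algebra.TensorProduct.lift (AlgHom.id K F) ((Algebra.ofId K F).comp ev0')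
      (fun _ _ => Commute.all _ _)).toRingHom
  obtain ⟨V, hV, hres⟩ := exists_dominating i hi π
  let iV : F ⊗[K] A.presheaf.stalk o →+* V := i.codRestrict V hV
  let iL : F →+* F ⊗[K] A.presheaf.stalk o := Algebra.TensorProduct.includeLeftRingHom
  let iR : A.presheaf.stalk o →+* F ⊗[K] A.presheaf.stalk o :=
    (Algebra.TensorProduct.includeRight : A.presheaf.stalk o →ₐ[K] F ⊗[K] A.presheaf.stalk o).toRingHom
  letI algV : Algebra k V := ((iV.comp iL).comp (algebraMap k F)).toAlgebra
  have hst : IsScalarTower k V Ω := by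
    refine IsScalarTower.of_algebraMap_eq fun r => ?_
    change _ = φ (tt K (FF f) F (mρ (algebraMap k F r ⊗ₜ 1)))
    rw [← φ.commutes]
    congr 1
    have : mρ (algebraMap k F r ⊗ₜ 1) = algebraMap k F r ⊗ₜ 1 := by
      change (AlgHom.id K F) (algebraMap k F r) ⊗ₜ ρ 1 = _
      rw [map_one]; rfl
    rw [this]
    rfl
  let ωR : F →ₐ[k] V := { iV.comp iL with commutes' := fun r => rfl }
  have hK : ∀ a : K, iV (iR (kStalk f o a)) = algebraMap k V (algebraMap K k a) := by
    intro a
    change iV (1 ⊗ₜ algebraMap K (A.presheaf.stalk o) a) = iV (algebraMap k F (algebraMap K k a) ⊗ₜ 1)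
    rw [← IsScalarTower.algebraMap_apply K k F, ← Algebra.TensorProduct.algebraMap_apply',
      Algebra.TensorProduct.algebraMap_apply]
  let yR : Pt f k V := ⟨Spec.map (CommRingCat.ofHom (iV.comp iR)) ≫ A.fromSpecStalk o, by
    rw [Category.assoc, fromSpecStalk_comp_str, ← Spec.map_comp, ← CommRingCat.ofHom_comp, strK]
    congr 2
    exact RingHom.ext hK⟩
  refine ⟨V, inferInstance, inferInstance, inferInstance, algV, inferInstance, inferInstance, hst,
    ωR, yR, ?_, ?_, ?_⟩
  · refine AlgHom.ext fun x => ?_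
    change φ (tt K (FF f) F (mρ (x ⊗ₜ 1))) = φ (tt K (FF f) F (x ⊗ₜ 1))
    congr 2
    change (AlgHom.id K F) x ⊗ₜ ρ 1 = _
    rw [map_one]; rfl
  · apply Subtype.ext
    rw [Pt.map_coe, Pt.map_coe]
    change _ ≫ Spec.map (CommRingCat.ofHom (iV.comp iR)) ≫ A.fromSpecStalk o =
      _ ≫ gz f F
    rw [gz, gpt_eq o ρ.toRingHom rfl, ← Category.assoc, ← Category.assoc, ← Category.assoc]
    congr 1
    rw [Category.assoc, ← Spec.map_comp, ← Spec.map_comp, ← Spec.map_comp,
      ← CommRingCat.ofHom_comp, ← CommRingCat.ofHom_comp, ← CommRingCat.ofHom_comp]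
    congr 2
  · apply Subtype.ext
    rw [Pt.map_coe, one_coe]
    change _ ≫ Spec.map (CommRingCat.ofHom (iV.comp iR)) ≫ A.fromSpecStalk o = _ ≫ e0
    rw [← hev0, strK, ← Category.assoc, ← Category.assoc]
    congr 1
    rw [← Spec.map_comp, ← Spec.map_comp, ← CommRingCat.ofHom_comp, ← CommRingCat.ofHom_comp]
    congr 2
    refine RingHom.ext fun a => ?_
    change residue V (iV (iR a)) = algebraMap k (ResidueField V) (algebraMap K k (ev0 a))
    have h1 : π (iR a - iR (kStalk f o (ev0 a))) = 0 := by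
      have h2 : ∀ b, π (iR b) = algebraMap K F (ev0 b) := by
        intro b
        change (Algebra.TensorProduct.lift (AlgHom.id K F) ((Algebra.ofId K F).comp ev0')
          (fun _ _ => Commute.all _ _)) (1 ⊗ₜ b) = _
        rw [Algebra.TensorProduct.lift_tmul, map_one, one_mul]
        rfl
      rw [map_sub, h2, h2, hev1, sub_self]
    have h2 := hres _ h1
    have h3 : residue V (iV (iR a) - iV (iR (kStalk f o (ev0 a)))) = 0 := by
      rw [← map_sub]
      exact h2
    rw [map_sub, sub_eq_zero, hK] at h3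
    rw [h3]
    rfl

end Fermat.Agent.AbVar.Sq
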