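import Fermat.Agent.AbVar.Sq.Chart

/-!
# S26: evaluating twisted sections
-/

set_option autoImplicit false
set_option linter.unusedSectionVars false

open TensorProduct

namespace Fermat.Agent.AbVar.Sq

section EvGeneral

variable {k F : Type*} [Field k] [Field F] [Algebra k F]
  {T : Type*} [CommRing T] [Algebra k T] {B : Subalgebra k F}

/-- evaluation at a `T`-point of the chart -/
noncomputable def evB (c : B →ₐ[k] T) : T ⊗[k] B →+* T :=
  (Algebra.TensorProduct.lift (AlgHom.id k T) c (fun _ _ => Commute.all _ _)).toRingHom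

@[simp] lemma evB_tmul (c : B →ₐ[k] T) (t : T) (b : B) : evB c (t ⊗ₜ b) = t * c b := rfl

lemma evB_scal {T' : Type*} [CommRing T'] [Algebra k T'] (φ : T →ₐ[k] T') (c : B →ₐ[k] T)
    (x : T ⊗[k] B) : evB (φ.comp c) (scal B φ x) = φ (evB c x) := by
  induction x with
  | zero => simp
  | tmul t b => simp
  | add x y hx hy => simp only [map_add, hx, hy]

end EvGeneral

section EvField

variable {k F : Type*} [Field k] [Field F] [Algebra k F]
  {κ : Type*} [Field κ] [Algebra k κ] {E : Type*} [Field E] (τ : κ ⊗[k] F →+* E)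
  {B : Subalgebra k F}

/-- the point of the chart defined by a `κ`-point. -/
noncomputable abbrev evPt (c : B →ₐ[k] κ) : PrimeSpectrum (κ ⊗[k] B) := kerPt (RingHom.id κ) (evB c)

/-- the value of a twisted section at a point -/
noncomputable def valAt (D : PrimeSpectrum (κ ⊗[k] B) → Eˣ) (c : B →ₐ[k] κ) (u : E) : κ :=
  spe (chι τ B) (RingHom.id κ) (evB c) (u * D (evPt c))

lemma valAt_smul {D : PrimeSpectrum (κ ⊗[k] B) → Eˣ} (hτ : Function.Injective τ) (c : B →ₐ[k] κ)
    {u : E} (hu : u ∈ J (chι τ B) D) (r : κ) :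
    valAt τ D c (τ (r ⊗ₜ 1) * u) = r * valAt τ D c u := by
  rw [valAt, valAt, mul_assoc]
  have h1 : τ (r ⊗ₜ 1) = chι τ B (r ⊗ₜ 1) := rfl
  rw [h1, spe_mul (chι_injective τ B hτ) (map_mem_locIn _ _) (hu _),
    spe_map (chι_injective τ B hτ)]
  simp

end EvField

section Core

variable {k F : Type*} [Field k] [Field F] [Algebra k F]
  {R κ κ' : Type*} [CommRing R] [IsDomain R] [ValuationRing R] [Algebra k R]
  [Field κ] [Algebra k κ] [Algebra R κ] [IsFractionRing R κ] [IsScalarTower k R κ]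
  [Field κ'] [Algebra k κ'] {res : R →ₐ[k] κ'} [IsLocalHom res.toRingHom]
  {E E' : Type*} [Field E] [Field E'] {τ : κ ⊗[k] F →+* E} {τ' : κ' ⊗[k] F →+* E'}
  {B : Subalgebra k F} {DR : PrimeSpectrum (R ⊗[k] B) → Eˣ}
    {Dκ : PrimeSpectrum (κ ⊗[k] B) → Eˣ} {D' : PrimeSpectrum (κ' ⊗[k] B) → E'ˣ}

lemma CompatD.core_val (h : CompatD res τ τ' B DR Dκ D') (hτ : Function.Injective τ)
    (hτ' : Function.Injective τ') (c : B →ₐ[k] R) (dc : κ)
    (H1 : ((DR (PrimeSpectrum.comap (scal B res).toRingHom (evPt (res.comp c))) /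
      Dκ (evPt ((frc k R κ).comp c)) : Eˣ) : E) ∈ locIn (chι τ B) (evPt ((frc k R κ).comp c)))
    (H2 : spe (chι τ B) (RingHom.id κ) (evB ((frc k R κ).comp c))
      ((DR (PrimeSpectrum.comap (scal B res).toRingHom (evPt (res.comp c))) /
      Dκ (evPt ((frc k R κ).comp c)) : Eˣ) : E) = dc)
    {u : E} (hu : u ∈ J (chι (tauR R τ) B) DR) :
    ∃ r : R, valAt τ Dκ ((frc k R κ).comp c) u * dc = algebraMap R κ r ∧
      res r = valAt τ' D' (res.comp c) (gres res τ τ' (u * DR (spPt res τ' B))) := by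
  set q := PrimeSpectrum.comap (scal B res).toRingHom (evPt (res.comp c)) with hq
  obtain ⟨a, s, hs, e⟩ := hu q
  have hs1 : res (evB c s) ≠ 0 := by
    rw [← evB_scal]
    exact hs
  have hs2 : IsUnit (evB c s) :=
    (isUnit_map_iff res.toRingHom _).1 (isUnit_iff_ne_zero.2 hs1)
  obtain ⟨v, hv⟩ := hs2
  refine ⟨evB c a * (v⁻¹ : Rˣ), ?_, ?_⟩
  · rw [valAt, ← H2, ← spe_mul (chι_injective τ B hτ) (h.J_gen hu _) H1]
    have e1 : u * (Dκ (evPt ((frc k R κ).comp c)) : E) *
        ((DR q / Dκ (evPt ((frc k R κ).comp c)) : Eˣ) : E) = u * DR q := by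
      rw [mul_assoc, ← Units.val_mul, mul_div_cancel]
    rw [e1]
    have hsκ : scal B (frc k R κ) s ∉ (kerPt (RingHom.id κ) (evB ((frc k R κ).comp c))).asIdeal := by
      rw [mem_kerPt, evB_scal, ← hv, RingHom.id_apply, frc_apply]
      exact (v.map (algebraMap R κ).toMonoidHom).ne_zero
    rw [spe_eq (chι_injective τ B hτ) hsκ (a := scal B (frc k R κ) a)
      (by rw [chι_scal, chι_scal]; exact e)]
    rw [RingHom.id_apply, RingHom.id_apply, evB_scal, evB_scal, ← hv, frc_apply, frc_apply,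
      map_mul, div_eq_mul_inv]
    congr 1
    refine inv_eq_of_mul_eq_one_left ?_
    rw [← map_mul, Units.inv_mul, map_one]
  · rw [valAt, h.mul_red hτ (h.J_mem hu)]
    have hs' : scal B res s ∉ (evPt (res.comp c)).asIdeal := hs
    rw [gres_eq res τ τ' B hτ (not_mem_spPt res τ' B hτ' hs') e]
    have hne : chι τ' B (scal B res s) ≠ 0 := by
      intro h0
      have : scal B res s = 0 := chι_injective τ' B hτ' (by rw [h0, map_zero])
      exact hs' (this ▸ (evPt (res.comp c)).asIdeal.zero_mem)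
    rw [spe_eq (chι_injective τ' B hτ') (s := scal B res s) (a := scal B res a) hs'
      (div_mul_cancel₀ _ hne)]
    rw [RingHom.id_apply, RingHom.id_apply, evB_scal, evB_scal, map_mul, ← hv, div_eq_mul_inv]
    congr 1
    refine eq_inv_of_mul_eq_one_left ?_
    rw [← map_mul, Units.inv_mul, map_one]

end Core

end Fermat.Agent.AbVar.Sq
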