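import Fermat.Agent.AbVar.Sq.ThetaJ

/-!
# S26: generators of the cube bundle over a field
-/

set_option autoImplicit false
set_option linter.unusedSectionVars false
universe u

open CategoryTheory CategoryTheory.Limits AlgebraicGeometry TopologicalSpace IsLocalRing
open NeronModelInfra GoodReductionJacobian
open Fermat.Agent.Jac TensorProduct

namespace Fermat.Agent.AbVar.Sq

attribute [local instance] isDomain_tensor

variable {K : Type u} [Field K] [IsAlgClosed K] {A : Scheme.{u}} {f : A ⟶ Spec (.of K)}
  [IsIntegral A] (L : RelativeGroupLaw K f) (c : UnitCocycle A)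

/-- the two inclusions of the function field -/
noncomputable def in2 (f : A ⟶ Spec (.of K)) : Fin 2 → (FF f →ₐ[K] K2 f) :=
  ![(IsScalarTower.toAlgHom K (FF f ⊗[K] FF f) (K2 f)).comp Algebra.TensorProduct.includeLeft,
    (IsScalarTower.toAlgHom K (FF f ⊗[K] FF f) (K2 f)).comp Algebra.TensorProduct.includeRight]

/-- the generic point, as a point -/
noncomputable def gPt (f : A ⟶ Spec (.of K)) : Pt f K (FF f) := ⟨gpt f, gpt_over⟩

/-- the two generic points over `K2 f` -/
noncomputable def xy2 (f : A ⟶ Spec (.of K)) (i : Fin 2) : Pt f K (K2 f) :=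
  Pt.map (in2 f i) (gPt f)

/-- `u` generates the cube bundle of the two points `x`, `y` over `T`, on all charts -/
def IsGen {T : Type u} [Field T] [Algebra K T] (x y : Pt f K T) (u : EE K (FF f) T) : Prop :=
  u ≠ 0 ∧ ∀ ch : AffCh f, u ∈ J (chι (tt K (FF f) T) ch.C) (D8 L c x y ch) ∧
    u⁻¹ ∈ J (chι (tt K (FF f) T) ch.C) (D8 L c x y ch)⁻¹

end Fermat.Agent.AbVar.Sq
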