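import Fermat.Agent.AbVar.Base
import Fermat.Agent.AbVar.Sq.Geom

/-!
# S26: points of a group scheme with values in algebras, and the square
-/

set_option autoImplicit false
set_option linter.unusedSectionVars false
universe u

open CategoryTheory CategoryTheory.Limits AlgebraicGeometry TopologicalSpace IsLocalRing
open NeronModelInfra GoodReductionJacobian
open Fermat.Agent.Jac TensorProduct

namespace Fermat.Agent.AbVar.Sq

section Sq4

variable {K : Type u} [CommRing K] {A : Scheme.{u}} {f : A ⟶ Spec (.of K)}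
  (L : RelativeGroupLaw K f)

/-- the four points `j+y+z, j+y, j+z, j` -/
def sq4 {S : Scheme.{u}} (t : S ⟶ Spec (.of K)) (j y z : SchemeHomOver t f) : Fin 4 → (S ⟶ A) :=
  ![(L.mul t (L.mul t j y) z).1, (L.mul t j y).1, (L.mul t j z).1, j.1]

/-- the four exponents -/
def e4 : Fin 4 → ℤ := ![1, -1, -1, 1]

lemma sq4_comp {S S' : Scheme.{u}} {t : S ⟶ Spec (.of K)} {t' : S' ⟶ Spec (.of K)} (ψ : S' ⟶ S)
    (hψ : ψ ≫ t = t') (j y z : SchemeHomOver t f) (i : Fin 4) :
    ψ ≫ sq4 L t j y z i = sq4 L t' (schemeHomOverComp ψ hψ j) (schemeHomOverComp ψ hψ y)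
      (schemeHomOverComp ψ hψ z) i := by
  have h1 := L.mul_natural t t' ψ hψ (L.mul t j y) z
  have h2 := L.mul_natural t t' ψ hψ j y
  have h3 := L.mul_natural t t' ψ hψ j z
  fin_cases i
  · change (schemeHomOverComp ψ hψ (L.mul t (L.mul t j y) z)).1 = _
    rw [h1, h2]; rfl
  · change (schemeHomOverComp ψ hψ (L.mul t j y)).1 = _
    rw [h2]; rfl
  · change (schemeHomOverComp ψ hψ (L.mul t j z)).1 = _
    rw [h3]; rfl
  · rfl

lemma DD_sq4_one {B : Type u} [CommRing B] {E : Type u} [Field E] (ι : B →+* E)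
    (c : UnitCocycle A) (t : Spec (.of B) ⟶ Spec (.of K)) (j z : SchemeHomOver t f) :
    DD c e4 ι (sq4 L t j (L.one t) z) = 1 := by
  funext q
  rw [Pi.one_apply, DD, lvE, lvalM, Fin.prod_univ_four]
  have h : L.mul t j (L.one t) = j := L.mul_one t j
  simp only [sq4, e4, h, Matrix.cons_val_zero, Matrix.cons_val_one, Matrix.cons_val, zpow_one]
  have h2 : ∀ a b : Eˣ, a * b ^ (-1 : ℤ) * a ^ (-1 : ℤ) * b = 1 := by
    intro a b
    rw [zpow_neg_one, zpow_neg_one, mul_right_comm a b⁻¹ a⁻¹, mul_inv_cancel, one_mul,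
      inv_mul_cancel]
  exact h2 _ _

end Sq4

section Pt

variable {K : Type u} [CommRing K] {A : Scheme.{u}} (f : A ⟶ Spec (.of K))
  {k : Type u} [Field k] [Algebra K k]

variable (K k) in
/-- structure map of the spectrum of a `k`-algebra -/
noncomputable def strK (T : Type u) [CommRing T] [Algebra k T] : Spec (.of T) ⟶ Spec (.of K) :=
  Spec.map (CommRingCat.ofHom ((algebraMap k T).comp (algebraMap K k)))

variable (k) in
/-- points with values in a `k`-algebra -/
abbrev Pt (T : Type u) [CommRing T] [Algebra k T] := SchemeHomOver (strK K k T) f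

variable {T T' T'' : Type u} [CommRing T] [Algebra k T] [CommRing T'] [Algebra k T']
  [CommRing T''] [Algebra k T'']

lemma map_strK (φ : T →ₐ[k] T') :
    Spec.map (CommRingCat.ofHom φ.toRingHom) ≫ strK K k T = strK K k T' := by
  rw [strK, ← Spec.map_comp, ← CommRingCat.ofHom_comp, strK]
  congr 2
  rw [← RingHom.comp_assoc]
  congr 1
  exact φ.comp_algebraMap

variable {f}

/-- functoriality of points -/
noncomputable def Pt.map (φ : T →ₐ[k] T') (y : Pt f k T) : Pt f k T' :=
  schemeHomOverComp (Spec.map (CommRingCat.ofHom φ.toRingHom)) (map_strK φ) y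

lemma Pt.map_coe (φ : T →ₐ[k] T') (y : Pt f k T) :
    (Pt.map φ y).1 = Spec.map (CommRingCat.ofHom φ.toRingHom) ≫ y.1 := rfl

lemma Pt.map_map (φ : T →ₐ[k] T') (ψ : T' →ₐ[k] T'') (y : Pt f k T) :
    Pt.map ψ (Pt.map φ y) = Pt.map (ψ.comp φ) y := by
  apply Subtype.ext
  rw [Pt.map_coe, Pt.map_coe, Pt.map_coe, ← Category.assoc, ← Spec.map_comp,
    ← CommRingCat.ofHom_comp]
  rfl

lemma Pt.map_id (y : Pt f k T) : Pt.map (AlgHom.id k T) y = y := by
  apply Subtype.ext
  rw [Pt.map_coe]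
  have : (CommRingCat.ofHom (AlgHom.id k T).toRingHom) = 𝟙 (CommRingCat.of T) := rfl
  rw [this, Spec.map_id, Category.id_comp]

variable (L : RelativeGroupLaw K f)

lemma Pt.map_mul (φ : T →ₐ[k] T') (x y : Pt f k T) :
    Pt.map φ (L.mul _ x y) = L.mul _ (Pt.map φ x) (Pt.map φ y) :=
  L.mul_natural _ _ _ _ _ _

lemma Pt.map_one (φ : T →ₐ[k] T') : Pt.map φ (L.one (strK K k T)) = L.one (strK K k T') :=
  L.one_natural _ _ _ _

variable {F : Type u} [Field F] [Algebra k F]

/-- the four families on a chart -/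
noncomputable def HH {B : Subalgebra k F} (j : Pt f k B) (y z : Pt f k T) :
    Fin 4 → (Spec (.of (T ⊗[k] B)) ⟶ A) :=
  sq4 L (strK K k (T ⊗[k] B)) (Pt.map Algebra.TensorProduct.includeRight j)
    (Pt.map Algebra.TensorProduct.includeLeft y) (Pt.map Algebra.TensorProduct.includeLeft z)

lemma bcH_HH {B : Subalgebra k F} (φ : T →ₐ[k] T') (j : Pt f k B) (y z : Pt f k T) :
    bcH B φ (HH L j y z) = HH L j (Pt.map φ y) (Pt.map φ z) := by
  funext i
  rw [bcH, HH, HH, sq4_comp L _ (map_strK (scal B φ))]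
  have h : ∀ w : Pt f k T, schemeHomOverComp _ (map_strK (scal B φ))
      (Pt.map (Algebra.TensorProduct.includeLeft : T →ₐ[k] T ⊗[k] B) w) =
      Pt.map (Algebra.TensorProduct.includeLeft : T' →ₐ[k] T' ⊗[k] B) (Pt.map φ w) := by
    intro w
    change Pt.map (scal B φ) _ = _
    rw [Pt.map_map, Pt.map_map]
    congr 1
  have h2 : schemeHomOverComp _ (map_strK (scal B φ))
      (Pt.map (Algebra.TensorProduct.includeRight : B →ₐ[k] T ⊗[k] B) j) =
      Pt.map (Algebra.TensorProduct.includeRight : B →ₐ[k] T' ⊗[k] B) j := by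
    change Pt.map (scal B φ) _ = _
    rw [Pt.map_map]
    congr 1
    refine AlgHom.ext fun b => ?_
    change φ 1 ⊗ₜ b = 1 ⊗ₜ b
    rw [_root_.map_one]
  rw [h, h, h2]

lemma evB_HH {B : Subalgebra k F} (pt : B →ₐ[k] T) (j : Pt f k B) (y z : Pt f k T) (i : Fin 4) :
    Spec.map (CommRingCat.ofHom (evB pt)) ≫ HH L j y z i =
      sq4 L (strK K k T) (Pt.map pt j) y z i := by
  let ev : T ⊗[k] B →ₐ[k] T :=
    Algebra.TensorProduct.lift (AlgHom.id k T) pt (fun _ _ => Commute.all _ _)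
  have h0 : evB pt = ev.toRingHom := rfl
  rw [h0, HH, sq4_comp L _ (map_strK ev)]
  have h : ∀ w : Pt f k T, schemeHomOverComp _ (map_strK ev)
      (Pt.map (Algebra.TensorProduct.includeLeft : T →ₐ[k] T ⊗[k] B) w) = w := by
    intro w
    change Pt.map ev _ = _
    rw [Pt.map_map]
    have : ev.comp Algebra.TensorProduct.includeLeft = AlgHom.id k T := by
      refine AlgHom.ext fun t => ?_
      simp [ev]
    rw [this, Pt.map_id]
  have h2 : schemeHomOverComp _ (map_strK ev)
      (Pt.map (Algebra.TensorProduct.includeRight : B →ₐ[k] T ⊗[k] B) j) = Pt.map pt j := by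
    change Pt.map ev _ = _
    rw [Pt.map_map]
    congr 1
    refine AlgHom.ext fun b => ?_
    simp [ev]
  rw [h, h, h2]

lemma inclT_HH {B B' : Subalgebra k F} (h : B ≤ B') (j : Pt f k B) (y z : Pt f k T) (i : Fin 4) :
    Spec.map (CommRingCat.ofHom (inclT T h)) ≫ HH L j y z i =
      HH L (Pt.map (Subalgebra.inclusion h) j) y z i := by
  let φ : T ⊗[k] B →ₐ[k] T ⊗[k] B' :=
    Algebra.TensorProduct.map (AlgHom.id k T) (Subalgebra.inclusion h)
  have h0 : inclT T h = φ.toRingHom := rfl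
  rw [h0, HH, HH, sq4_comp L _ (map_strK φ)]
  have h : ∀ w : Pt f k T, schemeHomOverComp _ (map_strK φ)
      (Pt.map (Algebra.TensorProduct.includeLeft : T →ₐ[k] T ⊗[k] B) w) =
      Pt.map (Algebra.TensorProduct.includeLeft : T →ₐ[k] T ⊗[k] B') w := by
    intro w
    change Pt.map φ _ = _
    rw [Pt.map_map]
    congr 1
  have h2 : schemeHomOverComp _ (map_strK φ)
      (Pt.map (Algebra.TensorProduct.includeRight : B →ₐ[k] T ⊗[k] B) j) =
      Pt.map (Algebra.TensorProduct.includeRight : B' →ₐ[k] T ⊗[k] B')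
        (Pt.map (Subalgebra.inclusion ‹_›) j) := by
    change Pt.map φ _ = _
    rw [Pt.map_map, Pt.map_map]
    congr 1
  rw [h, h, h2]

end Pt

end Fermat.Agent.AbVar.Sq
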