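import Fermat.Agent.AbVar.Base
import Fermat.Agent.AbVar.Sq.Points

/-!
# S26: the valuative theorem of the cube: statement, and extension of points
-/

set_option autoImplicit false
set_option linter.unusedSectionVars false
universe u

open CategoryTheory CategoryTheory.Limits AlgebraicGeometry TopologicalSpace IsLocalRing
open NeronModelInfra GoodReductionJacobian
open Fermat.Agent.Jac TensorProduct

namespace Fermat.Agent.AbVar.Sq

attribute [local instance] isDomain_tensor

section Extend

variable {K : Type u} [CommRing K] {A : Scheme.{u}} (f : A ⟶ Spec (.of K))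
  (R Ω : Type u) [CommRing R] [IsDomain R] [ValuationRing R] [Field Ω] [Algebra R Ω]
  [IsFractionRing R Ω]

/-- points with values in the fraction field extend to the valuation ring -/
theorem exists_extend [IsProper f] (t : Spec (.of R) ⟶ Spec (.of K)) (z : Spec (.of Ω) ⟶ A)
    (hz : z ≫ f = Spec.map (CommRingCat.ofHom (algebraMap R Ω)) ≫ t) :
    ∃ zR : Spec (.of R) ⟶ A, zR ≫ f = t ∧
      Spec.map (CommRingCat.ofHom (algebraMap R Ω)) ≫ zR = z := by
  have h1 : ValuativeCriterion f := by
    have h2 : (@IsProper : MorphismProperty Scheme.{u}) f := inferInstanceAs (IsProper f)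
    rw [IsProper.eq_valuativeCriterion] at h2
    exact h2.1.1.1
  obtain ⟨l⟩ := (h1.existence ⟨R, Ω, z, t, ⟨hz⟩⟩).exists_lift
  exact ⟨l.l, l.fac_right, l.fac_left⟩

/-- uniqueness of extensions -/
theorem extend_unique [IsSeparated f] {z z' : Spec (.of R) ⟶ A} (h : z ≫ f = z' ≫ f)
    (h' : Spec.map (CommRingCat.ofHom (algebraMap R Ω)) ≫ z =
      Spec.map (CommRingCat.ofHom (algebraMap R Ω)) ≫ z') : z = z' := by
  have h1 := IsSeparated.valuativeCriterion f
    ⟨R, Ω, Spec.map (CommRingCat.ofHom (algebraMap R Ω)) ≫ z, z ≫ f, ⟨by rw [Category.assoc]⟩⟩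
  have := h1.elim ⟨z, rfl, rfl⟩ ⟨z', h'.symm, h.symm⟩
  exact congrArg CommSq.LiftStruct.l this

end Extend

section Univ

variable {K : Type u} [Field K] {A : Scheme.{u}} (f : A ⟶ Spec (.of K))

/-- the function field of `A` as a `K`-algebra -/
def FF (_ : A ⟶ Spec (.of K)) [IsIntegral A] : Type u := A.functionField

variable [IsIntegral A]

noncomputable instance : Field (FF f) := inferInstanceAs (Field A.functionField)

noncomputable instance : Algebra K (FF f) := (kFun f).toAlgebra

/-- the generic point as a point with values in the function field -/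
noncomputable def gpt : Spec (.of (FF f)) ⟶ A := A.fromSpecStalk (genericPoint A)

variable [IsAlgClosed K]

/-- the function field of `A × A` -/
abbrev K2 : Type u := FractionRing (FF f ⊗[K] FF f)

/-- the function field of `A × A × A` -/
abbrev Ω3 : Type u := FractionRing (K2 f ⊗[K] FF f)

/-- the three maps from the function field of `A` to the function field of `A × A × A` -/
noncomputable def in3 : Fin 3 → (FF f →+* Ω3 f) :=
  ![(algebraMap (K2 f ⊗[K] FF f) (Ω3 f)).comp
      ((Algebra.TensorProduct.includeLeftRingHom (R := K) (A := K2 f) (B := FF f)).comp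
        ((algebraMap (FF f ⊗[K] FF f) (K2 f)).comp
          (Algebra.TensorProduct.includeLeftRingHom (R := K) (A := FF f) (B := FF f)))),
    (algebraMap (K2 f ⊗[K] FF f) (Ω3 f)).comp
      ((Algebra.TensorProduct.includeLeftRingHom (R := K) (A := K2 f) (B := FF f)).comp
        ((algebraMap (FF f ⊗[K] FF f) (K2 f)).comp
          (Algebra.TensorProduct.includeRight (R := K) (A := FF f) (B := FF f)).toRingHom)),
    (algebraMap (K2 f ⊗[K] FF f) (Ω3 f)).comp
      (Algebra.TensorProduct.includeRight (R := K) (A := K2 f) (B := FF f)).toRingHom]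

/-- the three generic points -/
noncomputable def pt3 (i : Fin 3) : Spec (.of (Ω3 f)) ⟶ A :=
  Spec.map (CommRingCat.ofHom (in3 f i)) ≫ gpt f

end Univ

section Star

variable {K : Type u} [Field K] {A : Scheme.{u}} {f : A ⟶ Spec (.of K)} (L : RelativeGroupLaw K f)

/-- the eight points -/
def sq8 {S : Scheme.{u}} (t : S ⟶ Spec (.of K)) (x y z : SchemeHomOver t f) : Fin 8 → (S ⟶ A) :=
  ![(L.mul t (L.mul t x y) z).1, (L.mul t x y).1, (L.mul t x z).1, (L.mul t y z).1,
    x.1, y.1, z.1, (L.one t).1]

/-- the eight exponents -/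
def e8 : Fin 8 → ℤ := ![1, -1, -1, -1, 1, 1, 1, -1]

variable [IsIntegral A] [IsAlgClosed K]

variable (f) in
/-- the valuative theorem of the cube for the cocycle `c`. -/
def StarProp (c : UnitCocycle A) : Prop :=
  ∃ θ : Ω3 f, θ ≠ 0 ∧ ∀ (R : Type u) [CommRing R] [IsDomain R] [ValuationRing R]
    [Algebra R (Ω3 f)] [IsFractionRing R (Ω3 f)] (t : Spec (.of R) ⟶ Spec (.of K))
    (x y z : SchemeHomOver t f),
    Spec.map (CommRingCat.ofHom (algebraMap R (Ω3 f))) ≫ x.1 = pt3 f 0 →
    Spec.map (CommRingCat.ofHom (algebraMap R (Ω3 f))) ≫ y.1 = pt3 f 1 →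
    Spec.map (CommRingCat.ofHom (algebraMap R (Ω3 f))) ≫ z.1 = pt3 f 2 →
    ∃ v : Rˣ, θ * dval c e8 (Ω3 f) (sq8 L t x y z) = algebraMap R (Ω3 f) v

end Star

end Fermat.Agent.AbVar.Sq
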