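import Fermat.Agent.AbVar.Sq.Points

/-!
# S26: the theorem of the square over valuation rings (steps A and B)
-/

set_option autoImplicit false
set_option linter.unusedSectionVars false
universe u

open CategoryTheory CategoryTheory.Limits AlgebraicGeometry TopologicalSpace IsLocalRing
open NeronModelInfra GoodReductionJacobian
open Fermat.Agent.Jac TensorProduct

namespace Fermat.Agent.AbVar.Sq

attribute [local instance] isDomain_tensor

variable {K : Type u} [Field K] {A : Scheme.{u}} {f : A ⟶ Spec (.of K)} (L : RelativeGroupLaw K f)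
  {k : Type u} [Field k] [IsAlgClosed k] [Algebra K k] {F : Type u} [Field F] [Algebra k F]
  (c : UnitCocycle A)

/-- the function field of the curve over the extension `Ω` -/
abbrev EE (k F Ω : Type u) [Field k] [IsAlgClosed k] [Field F] [Algebra k F] [Field Ω]
    [Algebra k Ω] := FractionRing (Ω ⊗[k] F)

/-- the canonical map -/
noncomputable abbrev tt (k F Ω : Type u) [Field k] [IsAlgClosed k] [Field F] [Algebra k F] [Field Ω]
    [Algebra k Ω] : Ω ⊗[k] F →+* EE k F Ω := algebraMap _ _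

lemma tt_injective (Ω : Type u) [Field Ω] [Algebra k Ω] : Function.Injective (tt k F Ω) :=
  IsFractionRing.injective _ _

lemma tt_frac (Ω : Type u) [Field Ω] [Algebra k Ω] (u : EE k F Ω) :
    ∃ a b : Ω ⊗[k] F, b ≠ 0 ∧ u * tt k F Ω b = tt k F Ω a := by
  obtain ⟨a, b, hb, rfl⟩ := IsFractionRing.div_surjective (Ω ⊗[k] F) u
  have hb0 : b ≠ 0 := nonZeroDivisors.ne_zero hb
  refine ⟨a, b, hb0, div_mul_cancel₀ _ ?_⟩
  exact fun h => hb0 (tt_injective Ω (by rw [tt, h, map_zero]))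

variable {B₀ B₁ B₂ : Subalgebra k F} {x : F} {I₀ I₁ : Submodule k F}
  (hS : SheafPair B₀ B₁ B₂ x I₀ I₁) (j₀ : Pt f k B₀) (j₁ : Pt f k B₁)

/-- twisted sections on the curve over `Ω` -/
def IsSec (I₀ I₁ : Submodule k F) (Ω : Type u) [Field Ω] [Algebra k Ω] (y z : Pt f k Ω)
    (u : EE k F Ω) : Prop :=
  u ∈ MM (tt k F Ω) B₀ (DD c e4 (chι (tt k F Ω) B₀) (HH L j₀ y z)) I₀ ∧
  u ∈ MM (tt k F Ω) B₁ (DD c e4 (chι (tt k F Ω) B₁) (HH L j₁ y z)) I₁

/-- the two points where we evaluate -/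
noncomputable def pts (ε : B₀ →ₐ[k] k) {T : Type u} [CommRing T] [Algebra k T] (ω : F →ₐ[k] T)
    (b : Bool) : B₀ →ₐ[k] T :=
  cond b (ω.comp B₀.val) ((Algebra.ofId k T).comp ε)

lemma comp_pts (ε : B₀ →ₐ[k] k) {T T' : Type u} [CommRing T] [Algebra k T] [CommRing T']
    [Algebra k T'] (φ : T →ₐ[k] T') (ω : F →ₐ[k] T) (b : Bool) :
    φ.comp (pts ε ω b) = pts ε (φ.comp ω) b := by
  cases b
  · refine AlgHom.ext fun a => ?_
    exact φ.commutes _
  · rfl

/-- nonvanishing of sections at the two points -/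
def NV (I₀ I₁ : Submodule k F) (ε : B₀ →ₐ[k] k) (Ω : Type u) [Field Ω] [Algebra k Ω]
    (y z : Pt f k Ω) (ω : F →ₐ[k] Ω) : Prop :=
  ∀ u : EE k F Ω, u ≠ 0 → IsSec L c j₀ j₁ I₀ I₁ Ω y z u → ∀ b,
    valAt (tt k F Ω) (DD c e4 (chι (tt k F Ω) B₀) (HH L j₀ y z)) (pts ε ω b) u ≠ 0

/-- the map to the residue field -/
noncomputable abbrev resk (k R : Type u) [CommRing R] [IsLocalRing R] [Field k] [Algebra k R] :
    R →ₐ[k] ResidueField R := IsScalarTower.toAlgHom k R (ResidueField R)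

instance (k R : Type u) [CommRing R] [IsLocalRing R] [Field k] [Algebra k R] :
    IsLocalHom (resk k R).toRingHom :=
  inferInstanceAs (IsLocalHom (IsLocalRing.residue R))

variable {j₀ j₁} (hj : Pt.map (Subalgebra.inclusion hS.le₀) j₀ =
  Pt.map (Subalgebra.inclusion hS.le₁) j₁)

section

variable (R Ω : Type u) [CommRing R] [IsDomain R] [ValuationRing R] [Algebra k R]
  [Field Ω] [Algebra k Ω] [Algebra R Ω] [IsFractionRing R Ω] [IsScalarTower k R Ω]

include hj in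
lemma overlapR (y z : Pt f k R) (τ : R ⊗[k] F →+* EE k F Ω) :
    OverlapCompat hS.le₀ hS.le₁
      (DD c e4 (chι τ B₀) (HH L j₀ y z))
      (DD c e4 (chι τ B₁) (HH L j₁ y z)) :=
  overlap_DD _ c e4 _ _ _ _ fun i => by rw [inclT_HH, inclT_HH, hj]

include hj in
/-- general values statement -/
theorem valuesAB (y z : Pt f k R) (ε : B₀ →ₐ[k] k) (ω : F →ₐ[k] R)
    (hNV : NV L c j₀ j₁ I₀ I₁ ε (ResidueField R) (Pt.map (resk k R) y) (Pt.map (resk k R) z)
      ((resk k R).comp ω))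
    {u : EE k F Ω} (hu : u ≠ 0)
    (hsec : IsSec L c j₀ j₁ I₀ I₁ Ω (Pt.map (frc k R Ω) y) (Pt.map (frc k R Ω) z) u) :
    ∃ r : Ω, r ≠ 0 ∧ ∀ b, ∃ v : Rˣ,
      r * valAt (tt k F Ω) (DD c e4 (chι (tt k F Ω) B₀) (HH L j₀ (Pt.map (frc k R Ω) y)
        (Pt.map (frc k R Ω) z))) (pts ε ((frc k R Ω).comp ω) b) u *
        dval c e4 Ω (sq4 L (strK K k R) (Pt.map (pts ε ω b) j₀) y z) = algebraMap R Ω v := by
  have hτ := tt_injective (k := k) (F := F) Ω
  have hτ' := tt_injective (k := k) (F := F) (ResidueField R)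
  have hC₀ := compatD_DD (resk k R) (tt k F Ω) (tt k F (ResidueField R)) c e4 B₀
    (HH L j₀ y z) hτ hτ'
  have hC₁ := compatD_DD (resk k R) (tt k F Ω) (tt k F (ResidueField R)) c e4 B₁
    (HH L j₁ y z) hτ hτ'
  rw [bcH_HH, bcH_HH] at hC₀ hC₁
  have hov := overlapR L c hS hj R Ω y z (tauR R (tt k F Ω))
  have H : ∀ b, PtRel (DD c e4 (chι (tauR R (tt k F Ω)) B₀) (HH L j₀ y z))
      (DD c e4 (chι (tt k F Ω) B₀) (HH L j₀ (Pt.map (frc k R Ω) y) (Pt.map (frc k R Ω) z)))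
      (resk k R) (tt k F Ω) (pts ε ω b)
      (dval c e4 Ω (sq4 L (strK K k R) (Pt.map (pts ε ω b) j₀) y z) : Ω) := by
    intro b
    have h := ptRel_DD (resk k R) (tt k F Ω) c e4 B₀ (HH L j₀ y z) hτ (pts ε ω b)
    rw [bcH_HH] at h
    simp only [evB_HH] at h
    exact h
  obtain ⟨r, hr, h⟩ := values_unit hS hC₀ hC₁ hτ hτ' hov (tt_frac Ω) (pts ε ω)
    (fun b => (dval c e4 Ω (sq4 L (strK K k R) (Pt.map (pts ε ω b) j₀) y z) : Ω)) H
    (by
      intro u' hu' h0 h1 b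
      rw [comp_pts]
      exact hNV u' hu' ⟨h0, h1⟩ b)
    hu hsec.1 hsec.2
  refine ⟨r, hr, fun b => ?_⟩
  rw [← comp_pts]
  exact h b

/-- hypotheses on the section of the sheaf -/
structure GoodSec (B₀ : Subalgebra k F) (I₀ I₁ : Submodule k F) (ε : B₀ →ₐ[k] k) (s : B₀) :
    Prop where
  mem₀ : (s : F) ∈ I₀
  mem₁ : (s : F) ∈ I₁
  uniq : ∀ y ∈ I₀, y ∈ I₁ → ∃ c : k, y = c • (s : F)
  ne : ε s ≠ 0

lemma GoodSec.pts_ne {ε : B₀ →ₐ[k] k} {s : B₀} (h : GoodSec B₀ I₀ I₁ ε s) {T : Type u} [Field T]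
    [Algebra k T] (ω : F →ₐ[k] T) (b : Bool) : pts ε ω b s ≠ 0 := by
  cases b
  · change algebraMap k T (ε s) ≠ 0
    exact (map_ne_zero _).2 h.ne
  · change ω (s : F) ≠ 0
    refine (map_ne_zero ω).2 ?_
    intro h0
    have : s = 0 := Subtype.ext h0
    exact h.ne (by rw [this, map_zero])

lemma HH_one {B : Subalgebra k F} (j : Pt f k B) {T : Type u} [CommRing T] [Algebra k T]
    (z : Pt f k T) {E : Type u} [Field E] (ι : T ⊗[k] B →+* E) :
    DD c e4 ι (HH L j (L.one (strK K k T)) z) = 1 := by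
  rw [HH, Pt.map_one]
  exact DD_sq4_one L ι c _ _ _

include hj hS in
/-- **Step A** -/
theorem stepA {y z : Pt f k R} (hy : Pt.map (resk k R) y = L.one _) {ε : B₀ →ₐ[k] k} {s : B₀}
    (hs : GoodSec B₀ I₀ I₁ ε s) (ω : F →ₐ[k] R) :
    (∃ u ≠ 0, IsSec L c j₀ j₁ I₀ I₁ Ω (Pt.map (frc k R Ω) y) (Pt.map (frc k R Ω) z) u) ∧
    NV L c j₀ j₁ I₀ I₁ ε Ω (Pt.map (frc k R Ω) y) (Pt.map (frc k R Ω) z) ((frc k R Ω).comp ω) := by
  have hτ := tt_injective (k := k) (F := F) Ω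
  have hτ' := tt_injective (k := k) (F := F) (ResidueField R)
  constructor
  · have hC₀ := compatD_DD (resk k R) (tt k F Ω) (tt k F (ResidueField R)) c e4 B₀
      (HH L j₀ y z) hτ hτ'
    have hC₁ := compatD_DD (resk k R) (tt k F Ω) (tt k F (ResidueField R)) c e4 B₁
      (HH L j₁ y z) hτ hτ'
    rw [bcH_HH, bcH_HH, hy, HH_one] at hC₀ hC₁
    have hov := overlapR L c hS hj R Ω y z (tauR R (tt k F Ω))
    obtain ⟨u, hu, h0, h1⟩ := exists_section hS hC₀ hC₁ hτ hτ'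
      (IsLocalRing.residue_surjective) hov (fun u' hu' => triv_h1 hS u' hu')
      (s' := tt k F (ResidueField R) (1 ⊗ₜ (s : F)))
      (by
        intro h
        have h2 : (1 : ResidueField R) ⊗ₜ[k] (s : F) = 0 := hτ' (by rw [h, map_zero])
        have h3 := triv_val (τ' := tt k F (ResidueField R)) hτ'
          (pts ε ((resk k R).comp ω) false) (1 : ResidueField R) (s := s)
        rw [h2, map_zero, valAt, zero_mul, spe_zero (chι_injective _ B₀ hτ'), one_mul] at h3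
        exact hs.pts_ne _ _ h3.symm)
      ((mem_MM_one hS.mul₀).2 ⟨_, Submodule.tmul_mem_baseChange_of_mem _ hs.mem₀, rfl⟩)
      ((mem_MM_one hS.mul₁).2 ⟨_, Submodule.tmul_mem_baseChange_of_mem _ hs.mem₁, rfl⟩)
    exact ⟨u, hu, h0, h1⟩
  · intro u hu hsec b
    obtain ⟨r, hr, h⟩ := valuesAB L c hS hj R Ω y z ε ω (by
      intro u' hu' hsec' b
      rw [hy] at hsec' ⊢
      obtain ⟨h0, h1⟩ := hsec'
      rw [HH_one] at h0 h1 ⊢
      obtain ⟨t, rfl⟩ := triv_h0 hS hs.uniq hτ' h0 h1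
      rw [triv_val hτ']
      refine mul_ne_zero ?_ (hs.pts_ne _ _)
      rintro rfl
      exact hu' (by rw [zero_tmul, map_zero])) hu hsec
    obtain ⟨v, hv⟩ := h b
    intro h0
    rw [h0, mul_zero, zero_mul] at hv
    have := (map_eq_zero_iff _ (IsFractionRing.injective R Ω)).1 hv.symm
    exact v.ne_zero this

include hj hS in
/-- **Step B** -/
theorem stepB {y z : Pt f k R} {ε : B₀ →ₐ[k] k} (ω : F →ₐ[k] R)
    (hNV : NV L c j₀ j₁ I₀ I₁ ε (ResidueField R) (Pt.map (resk k R) y) (Pt.map (resk k R) z)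
      ((resk k R).comp ω))
    {u : EE k F Ω} (hu : u ≠ 0)
    (hsec : IsSec L c j₀ j₁ I₀ I₁ Ω (Pt.map (frc k R Ω) y) (Pt.map (frc k R Ω) z) u) :
    ∃ v : Rˣ,
      valAt (tt k F Ω) (DD c e4 (chι (tt k F Ω) B₀) (HH L j₀ (Pt.map (frc k R Ω) y)
        (Pt.map (frc k R Ω) z))) (pts ε ((frc k R Ω).comp ω) true) u /
      valAt (tt k F Ω) (DD c e4 (chι (tt k F Ω) B₀) (HH L j₀ (Pt.map (frc k R Ω) y)
        (Pt.map (frc k R Ω) z))) (pts ε ((frc k R Ω).comp ω) false) u *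
      ((dval c e4 Ω (sq4 L (strK K k R) (Pt.map (pts ε ω true) j₀) y z) /
        dval c e4 Ω (sq4 L (strK K k R) (Pt.map (pts ε ω false) j₀) y z) : Ωˣ) : Ω) =
      algebraMap R Ω v := by
  obtain ⟨r, hr, h⟩ := valuesAB L c hS hj R Ω y z ε ω hNV hu hsec
  obtain ⟨v, hv⟩ := h true
  obtain ⟨w, hw⟩ := h false
  refine ⟨v / w, ?_⟩
  have hw0 : algebraMap R Ω w ≠ 0 := fun h0 =>
    w.ne_zero ((map_eq_zero_iff _ (IsFractionRing.injective R Ω)).1 h0)
  have e1 : algebraMap R Ω ((v / w : Rˣ) : R) = algebraMap R Ω v / algebraMap R Ω w := by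
    rw [eq_div_iff hw0, ← map_mul, ← Units.val_mul, div_mul_cancel]
  rw [e1, ← hv, ← hw, Units.val_div_eq_div_val]
  have h1 : r * valAt (tt k F Ω) (DD c e4 (chι (tt k F Ω) B₀) (HH L j₀ (Pt.map (frc k R Ω) y)
        (Pt.map (frc k R Ω) z))) (pts ε ((frc k R Ω).comp ω) false) u *
        dval c e4 Ω (sq4 L (strK K k R) (Pt.map (pts ε ω false) j₀) y z) ≠ 0 := by
    rw [hw]; exact hw0
  have h2 := left_ne_zero_of_mul h1
  have h3 := right_ne_zero_of_mul h2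
  field_simp

end

end Fermat.Agent.AbVar.Sq
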