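import Fermat.Agent.AbVar.Sq.StarDef
import Fermat.Agent.AbVar.Sq.StepAB

/-!
# S26: the function `θ` (conclusion of steps A and B)
-/

set_option autoImplicit false
set_option linter.unusedSectionVars false
universe u

open CategoryTheory CategoryTheory.Limits AlgebraicGeometry TopologicalSpace IsLocalRing
open NeronModelInfra GoodReductionJacobian
open Fermat.Agent.Jac TensorProduct

namespace Fermat.Agent.AbVar.Sq

attribute [local instance] isDomain_tensor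

section Combi

variable {K : Type u} [Field K] {A : Scheme.{u}} {f : A ⟶ Spec (.of K)}
  (L : RelativeGroupLaw K f) (c : UnitCocycle A)

lemma prod_e8 {G X : Type*} [CommGroup G] (g : X → G) (p : Fin 8 → X) :
    ∏ i, g (p i) ^ e8 i = g (p 0) * (g (p 1))⁻¹ * (g (p 2))⁻¹ * (g (p 3))⁻¹ * g (p 4) * g (p 5) *
      g (p 6) * (g (p 7))⁻¹ := by
  rw [Fin.prod_univ_eight]
  have h0 : e8 0 = 1 := rfl
  have h1 : e8 1 = -1 := rfl
  have h2 : e8 2 = -1 := rfl
  have h3 : e8 3 = -1 := rfl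
  have h4 : e8 4 = 1 := rfl
  have h5 : e8 5 = 1 := rfl
  have h6 : e8 6 = 1 := rfl
  have h7 : e8 7 = -1 := rfl
  rw [h0, h1, h2, h3, h4, h5, h6, h7]
  simp only [zpow_one, zpow_neg_one]

lemma prod_e4 {G X : Type*} [CommGroup G] (g : X → G) (p : Fin 4 → X) :
    ∏ i, g (p i) ^ e4 i = g (p 0) * (g (p 1))⁻¹ * (g (p 2))⁻¹ * g (p 3) := by
  rw [Fin.prod_univ_four]
  have h0 : e4 0 = 1 := rfl
  have h1 : e4 1 = -1 := rfl
  have h2 : e4 2 = -1 := rfl
  have h3 : e4 3 = 1 := rfl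
  rw [h0, h1, h2, h3]
  simp only [zpow_one, zpow_neg_one]

lemma dval_e8 (Ω : Type u) [Field Ω] {R : Type u} [CommRing R] [IsLocalRing R] [Algebra R Ω]
    (t : Spec (.of R) ⟶ Spec (.of K)) (x y z : SchemeHomOver t f) :
    dval c e8 Ω (sq8 L t x y z) =
      dval c e4 Ω (sq4 L t x y z) / dval c e4 Ω (sq4 L t (L.one t) y z) := by
  have h : L.mul t (L.one t) y = y := L.one_mul t y
  have h' : L.mul t (L.one t) z = z := L.one_mul t z
  let g : (Spec (.of R) ⟶ A) → Ωˣ := fun h =>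
    lval c (Spec.map (CommRingCat.ofHom (algebraMap R Ω)) ≫ h) (h (clp R))
  have E8 : dval c e8 Ω (sq8 L t x y z) = ∏ i, g (sq8 L t x y z i) ^ e8 i := rfl
  have E4 : ∀ x : SchemeHomOver t f, dval c e4 Ω (sq4 L t x y z) =
    ∏ i, g (sq4 L t x y z i) ^ e4 i := fun _ => rfl
  rw [E8, E4, E4, prod_e8, prod_e4, prod_e4]
  have e1 : sq4 L t (L.one t) y z 0 = sq8 L t x y z 3 := by
    change (L.mul t (L.mul t (L.one t) y) z).1 = (L.mul t y z).1
    rw [h]
  have e2 : sq4 L t (L.one t) y z 1 = sq8 L t x y z 5 := by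
    change (L.mul t (L.one t) y).1 = y.1
    rw [h]
  have e3 : sq4 L t (L.one t) y z 2 = sq8 L t x y z 6 := by
    change (L.mul t (L.one t) z).1 = z.1
    rw [h']
  have e4 : sq4 L t (L.one t) y z 3 = sq8 L t x y z 7 := rfl
  have e5 : sq4 L t x y z 0 = sq8 L t x y z 0 := rfl
  have e6 : sq4 L t x y z 1 = sq8 L t x y z 1 := rfl
  have e7 : sq4 L t x y z 2 = sq8 L t x y z 2 := rfl
  have e8 : sq4 L t x y z 3 = sq8 L t x y z 4 := rfl
  rw [e1, e2, e3, e4, e5, e6, e7, e8]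
  generalize g (sq8 L t x y z 0) = a0
  generalize g (sq8 L t x y z 1) = a1
  generalize g (sq8 L t x y z 2) = a2
  generalize g (sq8 L t x y z 3) = a3
  generalize g (sq8 L t x y z 4) = a4
  generalize g (sq8 L t x y z 5) = a5
  generalize g (sq8 L t x y z 6) = a6
  generalize g (sq8 L t x y z 7) = a7
  simp only [div_eq_mul_inv, mul_inv_rev, inv_inv]
  generalize a1⁻¹ = b1
  generalize a2⁻¹ = b2
  generalize a3⁻¹ = b3
  generalize a7⁻¹ = b7
  ac_rfl

end Combi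

variable {K : Type u} [Field K] {A : Scheme.{u}} {f : A ⟶ Spec (.of K)} (L : RelativeGroupLaw K f)
  {k : Type u} [Field k] [IsAlgClosed k] [Algebra K k] {F : Type u} [Field F] [Algebra k F]
  (c : UnitCocycle A)

/-- `y` degenerates to the origin over `F` in every field extension -/
def Degen (L : RelativeGroupLaw K f) {k' : Type u} [Field k'] [Algebra k k'] (ω : F →ₐ[k] k')
    (y : Pt f k k') : Prop :=
  ∀ (Ω : Type u) [Field Ω] [Algebra k Ω] (φ : k' →ₐ[k] Ω),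
    ∃ (R : Type u) (_ : CommRing R) (_ : IsDomain R) (_ : ValuationRing R) (_ : Algebra k R)
      (_ : Algebra R Ω) (_ : IsFractionRing R Ω) (_ : IsScalarTower k R Ω) (ωR : F →ₐ[k] R)
      (yR : Pt f k R), (frc k R Ω).comp ωR = φ.comp ω ∧ Pt.map (frc k R Ω) yR = Pt.map φ y ∧
        Pt.map (resk k R) yR = L.one (strK K k (ResidueField R))

variable {B₀ B₁ B₂ : Subalgebra k F} {x : F} {I₀ I₁ : Submodule k F}
  (hS : SheafPair B₀ B₁ B₂ x I₀ I₁) {j₀ : Pt f k B₀} {j₁ : Pt f k B₁}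
  (hj : Pt.map (Subalgebra.inclusion hS.le₀) j₀ = Pt.map (Subalgebra.inclusion hS.le₁) j₁)
  {ε : B₀ →ₐ[k] k} {s : B₀} (hs : GoodSec B₀ I₀ I₁ ε s)

/-- extension of points in terms of `Pt`. -/
lemma Pt.exists_extend [IsProper f] (R Ω : Type u) [CommRing R] [IsDomain R] [ValuationRing R]
    [Algebra k R] [Field Ω] [Algebra k Ω] [Algebra R Ω] [IsFractionRing R Ω] [IsScalarTower k R Ω]
    (z : Pt f k Ω) : ∃ zR : Pt f k R, Pt.map (frc k R Ω) zR = z := by
  obtain ⟨zR, h1, h2⟩ := Sq.exists_extend f R Ω (strK K k R) z.1 (by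
    rw [z.2, ← map_strK (frc k R Ω)]
    rfl)
  exact ⟨⟨zR, h1⟩, Subtype.ext h2⟩

lemma Pt.extend_unique [IsSeparated f] (R Ω : Type u) [CommRing R] [IsDomain R] [ValuationRing R]
    [Algebra k R] [Field Ω] [Algebra k Ω] [Algebra R Ω] [IsFractionRing R Ω] [IsScalarTower k R Ω]
    {z z' : Pt f k R} (h : Pt.map (frc k R Ω) z = Pt.map (frc k R Ω) z') : z = z' := by
  apply Subtype.ext
  refine Sq.extend_unique f R Ω (by rw [z.2, z'.2]) ?_
  exact congrArg Subtype.val h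

include hS hj hs in
/-- sections exist and do not vanish, for all fields -/
theorem nv_all [IsProper f] {k' : Type u} [Field k'] [Algebra k k'] {ω : F →ₐ[k] k'}
    {y : Pt f k k'} (hy : Degen L ω y) (Ω : Type u) [Field Ω] [Algebra k Ω] (φ : k' →ₐ[k] Ω)
    (z : Pt f k Ω) :
    (∃ u ≠ 0, IsSec L c j₀ j₁ I₀ I₁ Ω (Pt.map φ y) z u) ∧
    NV L c j₀ j₁ I₀ I₁ ε Ω (Pt.map φ y) z (φ.comp ω) := by
  obtain ⟨R, _, _, _, _, _, _, _, ωR, yR, h1, h2, h3⟩ := hy Ω φ
  obtain ⟨zR, hz⟩ := Pt.exists_extend R Ω z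
  have := stepA L c hS hj R Ω (z := zR) h3 hs ωR
  rwa [h1, h2, hz] at this

include hS hj hs in
/-- existence of `θ` -/
theorem exists_theta [IsProper f] (hε : Pt.map ε j₀ = L.one (strK K k k))
    {k' : Type u} [Field k'] [Algebra k k'] {ω : F →ₐ[k] k'}
    {y : Pt f k k'} (hy : Degen L ω y) (Ω : Type u) [Field Ω] [Algebra k Ω] (φ : k' →ₐ[k] Ω)
    (z : Pt f k Ω) :
    ∃ θ : Ω, θ ≠ 0 ∧ ∀ (R : Type u) [CommRing R] [IsDomain R] [ValuationRing R] [Algebra k R]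
      [Algebra R Ω] [IsFractionRing R Ω] [IsScalarTower k R Ω] (φR : k' →ₐ[k] R)
      (_ : (frc k R Ω).comp φR = φ) (zR : Pt f k R) (_ : Pt.map (frc k R Ω) zR = z),
      ∃ v : Rˣ, θ * dval c e8 Ω (sq8 L (strK K k R)
        (Pt.map ((φR.comp ω).comp B₀.val) j₀) (Pt.map φR y) zR) = algebraMap R Ω v := by
  obtain ⟨⟨u, hu, hsec⟩, hnv⟩ := nv_all L c hS hj hs hy Ω φ z
  refine ⟨valAt (tt k F Ω) (DD c e4 (chι (tt k F Ω) B₀) (HH L j₀ (Pt.map φ y) z))
      (pts ε (φ.comp ω) true) u /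
    valAt (tt k F Ω) (DD c e4 (chι (tt k F Ω) B₀) (HH L j₀ (Pt.map φ y) z))
      (pts ε (φ.comp ω) false) u, div_ne_zero (hnv u hu hsec _) (hnv u hu hsec _), ?_⟩
  intro R _ _ _ _ _ _ _ φR hφR zR hz
  have hnv' := (nv_all L c hS hj hs hy (ResidueField R) ((resk k R).comp φR)
    (Pt.map (resk k R) zR)).2
  have e1 : Pt.map (resk k R) (Pt.map φR y) = Pt.map ((resk k R).comp φR) y := Pt.map_map _ _ _
  have e2 : ((resk k R).comp φR).comp ω = (resk k R).comp (φR.comp ω) := rfl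
  have e3 : Pt.map (frc k R Ω) (Pt.map φR y) = Pt.map φ y := by rw [Pt.map_map, hφR]
  have e4' : (frc k R Ω).comp (φR.comp ω) = φ.comp ω := by rw [← AlgHom.comp_assoc, hφR]
  obtain ⟨v, hv⟩ := stepB L c hS hj R Ω (y := Pt.map φR y) (z := zR) (ε := ε) (φR.comp ω)
    (by rw [e1, ← e2]; exact hnv') hu (by rw [e3, hz]; exact hsec)
  refine ⟨v, ?_⟩
  rw [← hv, e3, hz, e4', dval_e8]
  congr 4
  have e5 : Pt.map (pts ε (φR.comp ω) false) j₀ = L.one (strK K k R) := by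
    change Pt.map ((Algebra.ofId k R).comp ε) j₀ = _
    rw [← Pt.map_map, hε, Pt.map_one]
  rw [e5]

end Fermat.Agent.AbVar.Sq
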