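import Fermat.Agent.AbVar.Sq.Eval

/-!
# S26: twisted sections on a curve given by two charts
-/

set_option autoImplicit false
set_option linter.unusedSectionVars false

open TensorProduct

namespace Fermat.Agent.AbVar.Sq

section LocPair

variable {k F : Type*} [Field k] [Field F] [Algebra k F]

/-- two charts which become equal after inverting `x` on the first and `x⁻¹` on the second;
`B₂` is the overlap. -/
structure LocPair (B₀ B₁ B₂ : Subalgebra k F) (x : F) : Prop where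
  ne_zero : x ≠ 0
  mem₀ : x ∈ B₀
  mem₁ : x⁻¹ ∈ B₁
  le₀ : B₀ ≤ B₂
  le₁ : B₁ ≤ B₂
  loc₀ : ∀ b ∈ B₂, ∃ n : ℕ, x ^ n * b ∈ B₀
  loc₁ : ∀ b ∈ B₂, ∃ n : ℕ, x⁻¹ ^ n * b ∈ B₁

variable {B₀ B₁ B₂ : Subalgebra k F} {x : F}

lemma LocPair.symm (h : LocPair B₀ B₁ B₂ x) : LocPair B₁ B₀ B₂ x⁻¹ :=
  ⟨inv_ne_zero h.ne_zero, h.mem₁, by rw [inv_inv]; exact h.mem₀, h.le₁, h.le₀, h.loc₁,
    by rw [inv_inv]; exact h.loc₀⟩

/-- construction of the overlap -/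
lemma LocPair.mk' (hx : x ≠ 0) (h0 : x ∈ B₀) (h1 : x⁻¹ ∈ B₁)
    (l0 : ∀ b ∈ B₀, ∃ n : ℕ, x⁻¹ ^ n * b ∈ B₁) (l1 : ∀ b ∈ B₁, ∃ n : ℕ, x ^ n * b ∈ B₀) :
    LocPair B₀ B₁ (B₀ ⊔ B₁) x := by
  have key : ∀ (B₀ B₁ : Subalgebra k F) (x : F), x ∈ B₀ →
      (∀ b ∈ B₁, ∃ n : ℕ, x ^ n * b ∈ B₀) → ∀ b ∈ B₀ ⊔ B₁, ∃ n : ℕ, x ^ n * b ∈ B₀ := by
    intro B₀ B₁ x hx0 l1 b hb
    let S : Subalgebra k F :=
      { carrier := {b | ∃ n : ℕ, x ^ n * b ∈ B₀}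
        mul_mem' := by
          rintro a b ⟨n, hn⟩ ⟨m, hm⟩
          refine ⟨n + m, ?_⟩
          rw [pow_add, mul_mul_mul_comm]
          exact mul_mem hn hm
        add_mem' := by
          rintro a b ⟨n, hn⟩ ⟨m, hm⟩
          refine ⟨n + m, ?_⟩
          rw [mul_add]
          refine add_mem ?_ ?_
          · rw [add_comm, pow_add, mul_assoc]
            exact mul_mem (pow_mem hx0 _) hn
          · rw [pow_add, mul_assoc]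
            exact mul_mem (pow_mem hx0 _) hm
        algebraMap_mem' := fun r => ⟨0, by rw [pow_zero, one_mul]; exact B₀.algebraMap_mem r⟩ }
    have h0 : B₀ ≤ S := fun b hb => ⟨0, by rwa [pow_zero, one_mul]⟩
    have h1 : B₁ ≤ S := fun b hb => l1 b hb
    exact (sup_le h0 h1) hb
  exact ⟨hx, h0, h1, le_sup_left, le_sup_right, key B₀ B₁ x h0 l1,
    fun b hb => key B₁ B₀ x⁻¹ h1 l0 b (by rwa [sup_comm] at hb)⟩

variable {T : Type*} [CommRing T] [Algebra k T] {E : Type*} [Field E] (τ : T ⊗[k] F →+* E)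

lemma LocPair.exists_range₀ (h : LocPair B₀ B₁ B₂ x) {z : E} (hz : z ∈ (chι τ B₂).range) :
    ∃ n : ℕ, ∀ m, n ≤ m → τ (1 ⊗ₜ x) ^ m * z ∈ (chι τ B₀).range := by
  obtain ⟨y, rfl⟩ := hz
  have hx : τ (1 ⊗ₜ x) ∈ (chι τ B₀).range := ⟨1 ⊗ₜ ⟨x, h.mem₀⟩, rfl⟩
  suffices H : ∃ n : ℕ, τ (1 ⊗ₜ x) ^ n * chι τ B₂ y ∈ (chι τ B₀).range by
    obtain ⟨n, hn⟩ := H
    refine ⟨n, fun m hm => ?_⟩
    obtain ⟨l, rfl⟩ := Nat.exists_eq_add_of_le' hm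
    rw [pow_add, mul_assoc]
    exact mul_mem (pow_mem hx _) hn
  induction y with
  | zero => exact ⟨0, by rw [map_zero, mul_zero]; exact zero_mem _⟩
  | tmul t b =>
    obtain ⟨n, hn⟩ := h.loc₀ _ b.2
    refine ⟨n, t ⊗ₜ ⟨_, hn⟩, ?_⟩
    rw [chι_apply, chι_apply, ← map_pow, ← map_mul, inclB_tmul, inclB_tmul,
      Algebra.TensorProduct.tmul_pow, one_pow, Algebra.TensorProduct.tmul_mul_tmul, one_mul]
  | add y z hy hz =>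
    obtain ⟨n, hn⟩ := hy
    obtain ⟨m, hm⟩ := hz
    refine ⟨n + m, ?_⟩
    rw [map_add, mul_add]
    refine add_mem ?_ ?_
    · rw [add_comm, pow_add, mul_assoc]
      exact mul_mem (pow_mem hx _) hn
    · rw [pow_add, mul_assoc]
      exact mul_mem (pow_mem hx _) hm

/-- base change of an inclusion of charts -/
noncomputable def inclT (T : Type*) [CommRing T] [Algebra k T] {B B' : Subalgebra k F} (h : B ≤ B') :
    T ⊗[k] B →+* T ⊗[k] B' :=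
  (Algebra.TensorProduct.map (AlgHom.id k T) (Subalgebra.inclusion h)).toRingHom

lemma chι_inclT {B B' : Subalgebra k F} (h : B ≤ B') :
    (chι τ B').comp (inclT T h) = chι τ B := by
  refine RingHom.ext fun y => ?_
  induction y with
  | zero => simp only [map_zero]
  | tmul t b => rfl
  | add y z hy hz => simp only [map_add, hy, hz]

/-- systems on the two charts which agree on the overlap -/
def OverlapCompat (h₀ : B₀ ≤ B₂) (h₁ : B₁ ≤ B₂) (D₀ : PrimeSpectrum (T ⊗[k] B₀) → Eˣ)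
    (D₁ : PrimeSpectrum (T ⊗[k] B₁) → Eˣ) : Prop :=
  ∀ q : PrimeSpectrum (T ⊗[k] B₂),
    D₀ (PrimeSpectrum.comap (inclT T h₀) q) = D₁ (PrimeSpectrum.comap (inclT T h₁) q)

variable {τ} {D₀ : PrimeSpectrum (T ⊗[k] B₀) → Eˣ} {D₁ : PrimeSpectrum (T ⊗[k] B₁) → Eˣ}
  {h₀ : B₀ ≤ B₂} {h₁ : B₁ ≤ B₂}

lemma OverlapCompat.inv (h : OverlapCompat h₀ h₁ D₀ D₁) : OverlapCompat h₀ h₁ D₀⁻¹ D₁⁻¹ :=
  fun q => by rw [Pi.inv_apply, Pi.inv_apply, h q]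

lemma OverlapCompat.symm (h : OverlapCompat h₀ h₁ D₀ D₁) : OverlapCompat h₁ h₀ D₁ D₀ :=
  fun q => (h q).symm

lemma exists_uniform {n : ℕ} {P : Fin n → ℕ → Prop} (h : ∀ i, ∃ m, ∀ l, m ≤ l → P i l) :
    ∃ m, ∀ i, P i m := by
  choose m hm using h
  exact ⟨Finset.univ.sup m, fun i => hm i _ (Finset.le_sup (Finset.mem_univ i))⟩

/-- localizing `J`: from chart 1 to chart 0 -/
lemma LocPair.J_loc₁ (h : LocPair B₀ B₁ B₂ x) (hc : OverlapCompat h₀ h₁ D₀ D₁)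
    (hD₀ : IsLC (chι τ B₀) D₀)
    {u : E} (hu : u ∈ J (chι τ B₁) D₁) : ∃ n : ℕ, τ (1 ⊗ₜ x) ^ n * u ∈ J (chι τ B₀) D₀ := by
  obtain ⟨n, a, b, ha, hb, hab⟩ := hD₀.exists_dual
  have key : ∀ i, u * b i ∈ (chι τ B₂).range := by
    intro i
    refine mem_range_of_forall_locIn fun q => ?_
    have h1 := locIn_comap (inclT T h₁) (chι_inclT τ h₁) q
      (hu (PrimeSpectrum.comap (inclT T h₁) q))
    have h2 := locIn_comap (inclT T h₀) (chι_inclT τ h₀) q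
      (hb i (PrimeSpectrum.comap (inclT T h₀) q))
    have h3 := mul_mem h1 h2
    rw [← hc q, mul_mul_mul_comm, ← Units.val_mul, Pi.inv_apply, mul_inv_cancel, Units.val_one,
      mul_one] at h3
    exact h3
  obtain ⟨m, hm⟩ := exists_uniform fun i => h.exists_range₀ τ (key i)
  refine ⟨m, ?_⟩
  have e : τ (1 ⊗ₜ x) ^ m * u = ∑ i, τ (1 ⊗ₜ x) ^ m * (u * b i) * a i := by
    calc τ (1 ⊗ₜ x) ^ m * u = τ (1 ⊗ₜ x) ^ m * u * ∑ i, a i * b i := by rw [hab, mul_one]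
      _ = _ := by
        rw [Finset.mul_sum]
        exact Finset.sum_congr rfl fun i _ => by ring
  rw [e]
  refine sum_mem fun i _ => ?_
  obtain ⟨y, hy⟩ := hm i
  rw [← hy]
  exact J_smul y (ha i)

variable {I₀ I₁ : Submodule k F}

/-- localizing `MM`: from chart 0 to chart 1 -/
lemma LocPair.MM_loc₀ (h : LocPair B₀ B₁ B₂ x) (hc : OverlapCompat h₀ h₁ D₀ D₁)
    (hD₀ : IsLC (chι τ B₀) D₀)
    (hD₁ : IsLC (chι τ B₁) D₁) (hI₁ : ∀ b ∈ B₁, ∀ a ∈ I₁, b * a ∈ I₁)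
    (hloc : ∀ a ∈ I₀, ∃ n : ℕ, x⁻¹ ^ n * a ∈ I₁) {u : E}
    (hu : u ∈ MM τ B₀ D₀ I₀) : ∃ n : ℕ, τ (1 ⊗ₜ x⁻¹) ^ n * u ∈ MM τ B₁ D₁ I₁ := by
  classical
  have hxx : τ (1 ⊗ₜ x⁻¹) * τ (1 ⊗ₜ x) = 1 := by
    rw [← map_mul, Algebra.TensorProduct.tmul_mul_tmul, one_mul, inv_mul_cancel₀ h.ne_zero]
    exact map_one τ
  obtain ⟨n, a, b, ha, hb, hab⟩ := hD₁.exists_dual
  -- from `b i` to chart 0
  have h1 : ∀ i, ∃ m : ℕ, ∀ l, m ≤ l → τ (1 ⊗ₜ x) ^ l * b i ∈ J (chι τ B₀) D₀⁻¹ := by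
    intro i
    obtain ⟨m, hm⟩ := h.J_loc₁ hc.inv hD₀.inv (hb i)
    refine ⟨m, fun l hl => ?_⟩
    obtain ⟨l', rfl⟩ := Nat.exists_eq_add_of_le' hl
    have : τ (1 ⊗ₜ x) ^ l' = chι τ B₀ ((1 ⊗ₜ ⟨x, h.mem₀⟩) ^ l') := by
      rw [map_pow]; rfl
    rw [pow_add, mul_assoc, this]
    exact J_smul _ hm
  obtain ⟨m, hm⟩ := exists_uniform h1
  have hstep : ∀ (r : ℕ) (y : T ⊗[k] F), (∃ c' ∈ I₁.baseChange T, τ (1 ⊗ₜ x⁻¹) ^ r * τ y = τ c') →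
      ∀ l, r ≤ l → ∃ c' ∈ I₁.baseChange T, τ (1 ⊗ₜ x⁻¹) ^ l * τ y = τ c' := by
    rintro r y ⟨c', hc', e⟩ l hl
    obtain ⟨l', rfl⟩ := Nat.exists_eq_add_of_le' hl
    refine ⟨inclB T B₁ ((1 ⊗ₜ ⟨x⁻¹, h.mem₁⟩) ^ l') * c', inclB_mul_mem hI₁ _ hc', ?_⟩
    rw [pow_add, mul_assoc, e, map_mul, map_pow, map_pow]
    rfl
  have key : ∀ c ∈ I₀.baseChange T, ∃ r : ℕ, ∀ l, r ≤ l →
      ∃ c' ∈ I₁.baseChange T, τ (1 ⊗ₜ x⁻¹) ^ l * τ c = τ c' := by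
    intro c hc
    let β := Module.Basis.ofVectorSpace k I₀
    obtain ⟨d, rfl⟩ := (mem_baseChange_iff β c).1 hc
    rw [tsum, Finsupp.sum]
    induction d.support using Finset.induction_on with
    | empty => exact ⟨0, fun l _ => ⟨0, zero_mem _, by simp⟩⟩
    | insert j s hj ih =>
      obtain ⟨r, hr⟩ := ih
      obtain ⟨r', hr'⟩ := hloc _ (β j).2
      refine ⟨max r r', fun l hl => ?_⟩
      obtain ⟨c₁, hc₁, e₁⟩ := hr l ((le_max_left _ _).trans hl)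
      obtain ⟨c₂, hc₂, e₂⟩ := hstep r' (d j ⊗ₜ (β j : F)) ⟨d j ⊗ₜ (x⁻¹ ^ r' * (β j : F)),
        Submodule.tmul_mem_baseChange_of_mem _ hr', by
          rw [← map_pow, ← map_mul, Algebra.TensorProduct.tmul_pow,
            Algebra.TensorProduct.tmul_mul_tmul, one_pow, one_mul]⟩ l ((le_max_right _ _).trans hl)
      refine ⟨c₂ + c₁, add_mem hc₂ hc₁, ?_⟩
      rw [Finset.sum_insert hj, map_add, mul_add, e₁, e₂, map_add]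
  have h2 : ∀ i, ∃ r : ℕ, ∀ l, r ≤ l →
      ∃ c' ∈ I₁.baseChange T, τ (1 ⊗ₜ x⁻¹) ^ l * (u * (τ (1 ⊗ₜ x) ^ m * b i)) = τ c' := by
    intro i
    obtain ⟨c, hc, e⟩ := hu _ (hm i)
    rw [e]
    exact key c hc
  obtain ⟨r, hr⟩ := exists_uniform h2
  have hr' : ∀ i, ∃ c' ∈ I₁.baseChange T,
      τ (1 ⊗ₜ x⁻¹) ^ (r + m) * (u * (τ (1 ⊗ₜ x) ^ m * b i)) = τ c' := by
    intro i
    obtain ⟨c, hc, e⟩ := hu _ (hm i)
    rw [e]
    obtain ⟨c', hc', e'⟩ := hr i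
    rw [e] at e'
    exact hstep r c ⟨c', hc', e'⟩ _ (Nat.le_add_right _ _)
  refine ⟨r, mem_MM_of_dual hI₁ ha hab fun i => ?_⟩
  obtain ⟨c', hc', e⟩ := hr' i
  refine ⟨c', hc', ?_⟩
  rw [← e]
  have e2 : τ (1 ⊗ₜ x⁻¹) ^ (r + m) * (u * (τ (1 ⊗ₜ x) ^ m * b i)) =
      τ (1 ⊗ₜ x⁻¹) ^ r * (τ (1 ⊗ₜ x⁻¹) * τ (1 ⊗ₜ x)) ^ m * u * b i := by ring
  rw [e2, hxx, one_pow, mul_one]

end LocPair

section Lifting

variable {k F : Type*} [Field k] [Field F] [Algebra k F]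

/-- a rank one sheaf on the curve given by two charts, with `h¹ = 0`. -/
structure SheafPair (B₀ B₁ B₂ : Subalgebra k F) (x : F) (I₀ I₁ : Submodule k F) : Prop
    extends LocPair B₀ B₁ B₂ x where
  mul₀ : ∀ b ∈ B₀, ∀ a ∈ I₀, b * a ∈ I₀
  mul₁ : ∀ b ∈ B₁, ∀ a ∈ I₁, b * a ∈ I₁
  sub₀ : ∀ a ∈ I₀, a ∈ B₀
  iloc₀ : ∀ a ∈ I₀, ∃ n : ℕ, x⁻¹ ^ n * a ∈ I₁
  iloc₁ : ∀ a ∈ I₁, ∃ n : ℕ, x ^ n * a ∈ I₀
  fg₁ : ∃ S : Finset F, I₁ = Submodule.span k {y | ∃ n : ℕ, ∃ b ∈ S, y = x⁻¹ ^ n * b}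
  h1 : ∀ y : F, (∃ n : ℕ, x ^ n * y ∈ I₀) → ∃ a ∈ I₀, ∃ b ∈ I₁, y = a + b

variable {R κ κ' : Type*} [CommRing R] [IsDomain R] [ValuationRing R] [Algebra k R]
  [Field κ] [Algebra k κ] [Algebra R κ] [IsFractionRing R κ] [IsScalarTower k R κ]
  [Field κ'] [Algebra k κ'] {res : R →ₐ[k] κ'} [IsLocalHom res.toRingHom]
  {E E' : Type*} [Field E] [Field E'] {τ : κ ⊗[k] F →+* E} {τ' : κ' ⊗[k] F →+* E'}
  {B₀ B₁ B₂ : Subalgebra k F} {x : F} {I₀ I₁ : Submodule k F}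
  {DR₀ : PrimeSpectrum (R ⊗[k] B₀) → Eˣ} {Dκ₀ : PrimeSpectrum (κ ⊗[k] B₀) → Eˣ}
  {D'₀ : PrimeSpectrum (κ' ⊗[k] B₀) → E'ˣ}
  {DR₁ : PrimeSpectrum (R ⊗[k] B₁) → Eˣ} {Dκ₁ : PrimeSpectrum (κ ⊗[k] B₁) → Eˣ}
  {D'₁ : PrimeSpectrum (κ' ⊗[k] B₁) → E'ˣ}

lemma comap_inclT_spPt {B B' : Subalgebra k F} (h : B ≤ B') :
    PrimeSpectrum.comap (inclT R h) (spPt res τ' B') = spPt res τ' B := by
  ext y
  have e : ∀ y : R ⊗[k] B, inclB R B' (inclT R h y) = inclB R B y := by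
    intro y
    induction y with
    | zero => simp only [map_zero]
    | tmul t b => rfl
    | add y z hy hz => simp only [map_add, hy, hz]
  change inclT R h y ∈ (spPt res τ' B').asIdeal ↔ y ∈ (spPt res τ' B).asIdeal
  rw [mem_spPt, mem_spPt, e]

variable (res τ') in
lemma OverlapCompat.spPt_eq {h₀ : B₀ ≤ B₂} {h₁ : B₁ ≤ B₂}
    (h : OverlapCompat h₀ h₁ DR₀ DR₁) : DR₀ (spPt res τ' B₀) = DR₁ (spPt res τ' B₁) := by
  have := h (spPt res τ' B₂)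
  rwa [comap_inclT_spPt, comap_inclT_spPt] at this

/-- the sections over the overlap (defined using the second chart) -/
def MM01 {T : Type*} [CommRing T] [Algebra k T] {E : Type*} [Field E] (τ : T ⊗[k] F →+* E)
    (B₁ : Subalgebra k F) (x : F) (hx : x⁻¹ ∈ B₁) (D₁ : PrimeSpectrum (T ⊗[k] B₁) → Eˣ)
    (I₁ : Submodule k F) (hI : ∀ b ∈ B₁, ∀ a ∈ I₁, b * a ∈ I₁) : AddSubgroup E where
  carrier := {u | ∃ n : ℕ, τ (1 ⊗ₜ x⁻¹) ^ n * u ∈ MM τ B₁ D₁ I₁}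
  add_mem' := by
    rintro u v ⟨n, hn⟩ ⟨m, hm⟩
    refine ⟨n + m, ?_⟩
    have h : ∀ l, τ (1 ⊗ₜ x⁻¹) ^ l = chι τ B₁ ((1 ⊗ₜ ⟨x⁻¹, hx⟩) ^ l) := by
      intro l; rw [map_pow]; rfl
    rw [mul_add]
    refine add_mem ?_ ?_
    · rw [add_comm, pow_add, mul_assoc, h]
      exact chι_mul_mem_MM hI _ hn
    · rw [pow_add, mul_assoc, h]
      exact chι_mul_mem_MM hI _ hm
  zero_mem' := ⟨0, by rw [mul_zero]; exact zero_mem _⟩
  neg_mem' := by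
    rintro u ⟨n, hn⟩
    exact ⟨n, by rw [mul_neg]; exact neg_mem hn⟩

lemma tau_mul {T : Type*} [CommRing T] [Algebra k T] {E : Type*} [Field E] (τ : T ⊗[k] F →+* E)
    (a b : F) : τ (1 ⊗ₜ (a * b)) = τ (1 ⊗ₜ a) * τ (1 ⊗ₜ b) := by
  rw [← map_mul, Algebra.TensorProduct.tmul_mul_tmul, one_mul]

lemma tau_pow {T : Type*} [CommRing T] [Algebra k T] {E : Type*} [Field E] (τ : T ⊗[k] F →+* E)
    (a : F) (n : ℕ) : τ (1 ⊗ₜ (a ^ n)) = τ (1 ⊗ₜ a) ^ n := by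
  rw [← map_pow, Algebra.TensorProduct.tmul_pow, one_pow]

lemma tau_inv_mul {T : Type*} [CommRing T] [Algebra k T] {E : Type*} [Field E] (τ : T ⊗[k] F →+* E)
    {a : F} (ha : a ≠ 0) : τ (1 ⊗ₜ a⁻¹) * τ (1 ⊗ₜ a) = 1 := by
  rw [← tau_mul, inv_mul_cancel₀ ha]
  exact map_one τ

lemma tau_ipow_mul {T : Type*} [CommRing T] [Algebra k T] {E : Type*} [Field E]
    (τ : T ⊗[k] F →+* E) {a : F} (ha : a ≠ 0) (n : ℕ) (u : E) :
    τ (1 ⊗ₜ a⁻¹) ^ n * (τ (1 ⊗ₜ a) ^ n * u) = u := by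
  rw [← mul_assoc, ← mul_pow, tau_inv_mul τ ha, one_pow, one_mul]

lemma tau_mul_ipow {T : Type*} [CommRing T] [Algebra k T] {E : Type*} [Field E]
    (τ : T ⊗[k] F →+* E) {a : F} (ha : a ≠ 0) (n : ℕ) (u : E) :
    τ (1 ⊗ₜ a) ^ n * (τ (1 ⊗ₜ a⁻¹) ^ n * u) = u := by
  rw [← mul_assoc, ← mul_pow, mul_comm (τ _), tau_inv_mul τ ha, one_pow, one_mul]

lemma gres_tauR_one (hτ : Function.Injective τ) (a : F) :
    gres res τ τ' (tauR R τ (1 ⊗ₜ a)) = τ' (1 ⊗ₜ a) := by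
  have h : scal F res (1 ⊗ₜ a) = 1 ⊗ₜ a := by
    change res 1 ⊗ₜ a = _
    rw [map_one]
  rw [gres_tauR res τ τ' hτ, h]

section Steps

variable (hS : SheafPair B₀ B₁ B₂ x I₀ I₁)
  (hC₀ : CompatD res τ τ' B₀ DR₀ Dκ₀ D'₀) (hC₁ : CompatD res τ τ' B₁ DR₁ Dκ₁ D'₁)
  (hτ : Function.Injective τ) (hτ' : Function.Injective τ') (hres : Function.Surjective res)
  (hov : OverlapCompat hS.le₀ hS.le₁ DR₀ DR₁)

include hC₁ in
lemma MM01_mem_gauss {u : E} (hu : u ∈ MM01 (tauR R τ) B₁ x hS.mem₁ DR₁ I₁ hS.mul₁) :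
    u * DR₁ (spPt res τ' B₁) ∈ gaussRing res τ τ' := by
  obtain ⟨n, hn⟩ := hu
  have h1 := hC₁.MM_mem hn
  rw [← tau_mul_ipow (tauR R τ) hS.ne_zero n u, mul_assoc, ← tau_pow]
  exact mul_mem (tauR_mem_gauss res τ τ' _) h1

include hC₁ hτ hτ' in
lemma MM01_red {u : E} (hu : u ∈ MM01 (tauR R τ) B₁ x hS.mem₁ DR₁ I₁ hS.mul₁) :
    gres res τ τ' (u * DR₁ (spPt res τ' B₁)) ∈ MM01 τ' B₁ x hS.mem₁ D'₁ I₁ hS.mul₁ := by
  have hm := MM01_mem_gauss hS hC₁ hu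
  obtain ⟨n, hn⟩ := hu
  refine ⟨n, ?_⟩
  have h1 := hC₁.MM_red hτ hτ' hS.mul₁ hn
  rw [mul_assoc, gres, ← tau_pow, spe_mul (tauR_injective τ hτ) (tauR_mem_gauss res τ τ' _) hm,
    ← gres, gres_tauR_one hτ, tau_pow] at h1
  exact h1

lemma smul_mem_MM01 (r : R) {u : E} (hu : u ∈ MM01 (tauR R τ) B₁ x hS.mem₁ DR₁ I₁ hS.mul₁) :
    tauR R τ (r ⊗ₜ 1) * u ∈ MM01 (tauR R τ) B₁ x hS.mem₁ DR₁ I₁ hS.mul₁ := by
  obtain ⟨n, hn⟩ := hu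
  refine ⟨n, ?_⟩
  rw [mul_left_comm]
  exact chι_mul_mem_MM hS.mul₁ (r ⊗ₜ 1) hn

include hC₁ hτ hτ' in
lemma MM01_ker {u : E} (hu : u ∈ MM01 (tauR R τ) B₁ x hS.mem₁ DR₁ I₁ hS.mul₁)
    (h0 : gres res τ τ' (u * DR₁ (spPt res τ' B₁)) = 0) :
    ∃ m : R, res m = 0 ∧ ∃ v ∈ MM01 (tauR R τ) B₁ x hS.mem₁ DR₁ I₁ hS.mul₁,
      u = tauR R τ (m ⊗ₜ 1) * v := by
  have hm := MM01_mem_gauss hS hC₁ hu
  obtain ⟨n, hn⟩ := hu
  have h1 : gres res τ τ' (tauR R τ (1 ⊗ₜ x⁻¹) ^ n * u * DR₁ (spPt res τ' B₁)) = 0 := by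
    rw [mul_assoc, gres, ← tau_pow, spe_mul (tauR_injective τ hτ) (tauR_mem_gauss res τ τ' _) hm,
      ← gres, ← gres, h0, mul_zero]
  obtain ⟨m, hm0, v, hv, e⟩ := hC₁.MM_ker hτ hτ' hS.mul₁ hn h1
  refine ⟨m, hm0, tauR R τ (1 ⊗ₜ x) ^ n * v, ⟨n, by rwa [tau_ipow_mul _ hS.ne_zero]⟩, ?_⟩
  rw [mul_left_comm, ← e, tau_mul_ipow _ hS.ne_zero]

include hC₀ hC₁ hov in
lemma MM0_le_MM01 {u : E} (hu : u ∈ MM (tauR R τ) B₀ DR₀ I₀) :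
    u ∈ MM01 (tauR R τ) B₁ x hS.mem₁ DR₁ I₁ hS.mul₁ :=
  hS.toLocPair.MM_loc₀ hov hC₀.lc hC₁.lc hS.mul₁ hS.iloc₀ hu

lemma MM1_le_MM01 {u : E} (hu : u ∈ MM (tauR R τ) B₁ DR₁ I₁) :
    u ∈ MM01 (tauR R τ) B₁ x hS.mem₁ DR₁ I₁ hS.mul₁ :=
  ⟨0, by rwa [pow_zero, one_mul]⟩

include hC₀ hC₁ hτ hτ' hres hov in
lemma MM01_decomp
    (hsp : ∀ u' ∈ MM01 τ' B₁ x hS.mem₁ D'₁ I₁ hS.mul₁, ∃ v₀ ∈ MM τ' B₀ D'₀ I₀,
      ∃ v₁ ∈ MM τ' B₁ D'₁ I₁, u' = v₀ + v₁)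
    {u : E} (hu : u ∈ MM01 (tauR R τ) B₁ x hS.mem₁ DR₁ I₁ hS.mul₁) :
    ∃ v₀ ∈ MM (tauR R τ) B₀ DR₀ I₀, ∃ v₁ ∈ MM (tauR R τ) B₁ DR₁ I₁, ∃ m : R, res m = 0 ∧
      ∃ w ∈ MM01 (tauR R τ) B₁ x hS.mem₁ DR₁ I₁ hS.mul₁,
      u = v₀ + v₁ + tauR R τ (m ⊗ₜ 1) * w := by
  have hm := MM01_mem_gauss hS hC₁ hu
  obtain ⟨v₀', hv₀', v₁', hv₁', e⟩ := hsp _ (MM01_red hS hC₁ hτ hτ' hu)
  obtain ⟨v₀, hv₀, e₀⟩ := hC₀.MM_surj hτ hτ' hS.mul₀ hres hv₀'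
  obtain ⟨v₁, hv₁, e₁⟩ := hC₁.MM_surj hτ hτ' hS.mul₁ hres hv₁'
  have hδ := hov.spPt_eq res τ'
  have hv₀01 := MM0_le_MM01 hS hC₀ hC₁ hov hv₀
  have hv₁01 := MM1_le_MM01 hS hv₁
  have hd : u - v₀ - v₁ ∈ MM01 (tauR R τ) B₁ x hS.mem₁ DR₁ I₁ hS.mul₁ :=
    sub_mem (sub_mem hu hv₀01) hv₁01
  have h0 : gres res τ τ' ((u - v₀ - v₁) * DR₁ (spPt res τ' B₁)) = 0 := by
    have hm0 := MM01_mem_gauss hS hC₁ hv₀01
    have hm1 := MM01_mem_gauss hS hC₁ hv₁01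
    rw [sub_mul, sub_mul, gres, spe_sub (tauR_injective τ hτ) (sub_mem hm hm0) hm1,
      spe_sub (tauR_injective τ hτ) hm hm0, ← gres, ← gres, ← gres, e, ← hδ, e₀, hδ, e₁]
    ring
  obtain ⟨m, hm0, w, hw, e'⟩ := MM01_ker hS hC₁ hτ hτ' hd h0
  refine ⟨v₀, hv₀, v₁, hv₁, m, hm0, w, hw, ?_⟩
  rw [← e']
  ring

include hC₀ hC₁ hov in
/-- finite generation of the sections over the overlap modulo the sections over the charts. -/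
lemma MM01_fg : ∃ S : Finset E, (∀ v ∈ S, v ∈ MM01 (tauR R τ) B₁ x hS.mem₁ DR₁ I₁ hS.mul₁) ∧
    ∀ P : E → Prop, (∀ v ∈ S, P v) → (∀ v ∈ MM (tauR R τ) B₀ DR₀ I₀, P v) →
      (∀ v ∈ MM (tauR R τ) B₁ DR₁ I₁, P v) → (∀ v w, P v → P w → P (v + w)) →
      (∀ (r : R) v, P v → P (tauR R τ (r ⊗ₜ 1) * v)) → P 0 →
      ∀ u ∈ MM01 (tauR R τ) B₁ x hS.mem₁ DR₁ I₁ hS.mul₁, P u := by
  classical
  obtain ⟨n, a, b, ha, hb, hab⟩ := hC₁.lc.exists_dual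
  obtain ⟨S₁, hS₁⟩ := hS.fg₁
  have hsI : ∀ s ∈ S₁, s ∈ I₁ := by
    intro s hs
    rw [hS₁]
    exact Submodule.subset_span ⟨0, s, hs, by rw [pow_zero, one_mul]⟩
  have hsI' : ∀ s ∈ S₁, ∀ m : ℕ, x⁻¹ ^ m * s ∈ I₁ := fun s hs m =>
    hS.mul₁ _ (pow_mem hS.mem₁ m) _ (hsI s hs)
  -- the basic elements
  have hmem : ∀ s ∈ S₁, ∀ i, tauR R τ (1 ⊗ₜ s) * a i ∈ MM (tauR R τ) B₁ DR₁ I₁ := by
    intro s hs i
    exact tau_mul_mem_MM hS.mul₁ (Submodule.tmul_mem_baseChange_of_mem _ (hsI s hs)) (ha i)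
  have hlarge : ∀ s : F, ∀ i, ∃ L : ℕ, s ∈ S₁ → ∀ l, L ≤ l →
      tauR R τ (1 ⊗ₜ x) ^ l * (tauR R τ (1 ⊗ₜ s) * a i) ∈ MM (tauR R τ) B₀ DR₀ I₀ := by
    intro s i
    by_cases hs : s ∈ S₁
    · obtain ⟨L, hL⟩ := hS.toLocPair.symm.MM_loc₀ hov.symm hC₁.lc hC₀.lc hS.mul₀
        (I₀ := I₁) (by rw [inv_inv]; exact hS.iloc₁) (hmem s hs i)
      rw [inv_inv] at hL
      refine ⟨L, fun _ l hl => ?_⟩
      obtain ⟨l', rfl⟩ := Nat.exists_eq_add_of_le' hl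
      rw [pow_add, mul_assoc]
      have : tauR R τ (1 ⊗ₜ x) ^ l' = chι (tauR R τ) B₀ ((1 ⊗ₜ ⟨x, hS.mem₀⟩) ^ l') := by
        rw [map_pow]; rfl
      rw [this]
      exact chι_mul_mem_MM hS.mul₀ _ hL
    · exact ⟨0, fun h => absurd h hs⟩
  choose L hL using hlarge
  let N : ℕ := S₁.sup fun s => Finset.univ.sup (L s)
  have hN : ∀ s ∈ S₁, ∀ i, L s i ≤ N := fun s hs i =>
    (Finset.le_sup (f := L s) (Finset.mem_univ i)).trans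
      (Finset.le_sup (f := fun s => Finset.univ.sup (L s)) hs)
  let S : Finset E := (S₁ ×ˢ (Finset.univ : Finset (Fin n)) ×ˢ Finset.range N).image
    fun p => tauR R τ (1 ⊗ₜ x) ^ p.2.2 * (tauR R τ (1 ⊗ₜ p.1) * a p.2.1)
  have hSmem : ∀ v ∈ S, v ∈ MM01 (tauR R τ) B₁ x hS.mem₁ DR₁ I₁ hS.mul₁ := by
    intro v hv
    obtain ⟨⟨s, i, l⟩, hp, rfl⟩ := Finset.mem_image.1 hv
    simp only [Finset.mem_product, Finset.mem_univ, Finset.mem_range, true_and] at hp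
    refine ⟨l, ?_⟩
    rw [tau_ipow_mul _ hS.ne_zero]
    exact hmem s hp.1 i
  refine ⟨S, hSmem, ?_⟩
  intro P hPS hP0 hP1 hadd hsmul hzero u hu
  obtain ⟨m, hm⟩ := hu
  obtain ⟨c, hc, -, e⟩ := mem_MM_repr hb hab hm
  have hu' : u = ∑ i, tauR R τ (1 ⊗ₜ x) ^ m * (tauR R τ (c i) * a i) := by
    rw [← tau_mul_ipow (tauR R τ) hS.ne_zero m u, e, Finset.mul_sum]
  rw [hu']
  have hsum : ∀ (s : Finset (Fin n)) (f : Fin n → E), (∀ i ∈ s, P (f i)) → P (∑ i ∈ s, f i) := by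
    intro s f
    induction s using Finset.induction_on with
    | empty => intro _; simpa using hzero
    | insert j s hj ih =>
      intro hf
      rw [Finset.sum_insert hj]
      exact hadd _ _ (hf j (Finset.mem_insert_self j s))
        (ih fun i hi => hf i (Finset.mem_insert_of_mem hi))
  refine hsum _ _ fun i _ => ?_
  -- basic monomials satisfy `P`
  have hmono : ∀ s ∈ S₁, ∀ m' : ℕ, P (tauR R τ (1 ⊗ₜ x) ^ m *
      (tauR R τ (1 ⊗ₜ (x⁻¹ ^ m' * s)) * a i)) := by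
    intro s hs m'
    by_cases hle : m ≤ m'
    · obtain ⟨l, rfl⟩ := Nat.exists_eq_add_of_le hle
      have : tauR R τ (1 ⊗ₜ x) ^ m * (tauR R τ (1 ⊗ₜ (x⁻¹ ^ (m + l) * s)) * a i) =
          tauR R τ (1 ⊗ₜ (x⁻¹ ^ l * s)) * a i := by
        rw [tau_mul, tau_pow, pow_add, mul_assoc, mul_assoc, tau_mul_ipow _ hS.ne_zero, tau_mul,
          tau_pow, mul_assoc]
      rw [this]
      exact hP1 _ (tau_mul_mem_MM hS.mul₁ (Submodule.tmul_mem_baseChange_of_mem _ (hsI' s hs l))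
        (ha i))
    · obtain ⟨l, hl⟩ := Nat.exists_eq_add_of_le' (Nat.le_of_not_le hle)
      have : tauR R τ (1 ⊗ₜ x) ^ m * (tauR R τ (1 ⊗ₜ (x⁻¹ ^ m' * s)) * a i) =
          tauR R τ (1 ⊗ₜ x) ^ l * (tauR R τ (1 ⊗ₜ s) * a i) := by
        rw [hl, tau_mul, tau_pow, pow_add, mul_assoc, mul_assoc, tau_mul_ipow _ hS.ne_zero]
      rw [this]
      by_cases hlN : l < N
      · exact hPS _ (Finset.mem_image.2 ⟨⟨s, i, l⟩, by
          simp only [Finset.mem_product, Finset.mem_univ, Finset.mem_range, true_and]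
          exact ⟨hs, hlN⟩, rfl⟩)
      · exact hP0 _ (hL s i hs l ((hN s hs i).trans (not_lt.1 hlN)))
  -- the span
  have hspan : ∀ y ∈ I₁, ∀ r : R, P (tauR R τ (1 ⊗ₜ x) ^ m * (tauR R τ (r ⊗ₜ y) * a i)) := by
    intro y hy
    rw [hS₁] at hy
    induction hy using Submodule.span_induction with
    | mem y hy =>
      obtain ⟨m', s, hs, rfl⟩ := hy
      intro r
      have e1 : tauR R τ (r ⊗ₜ (x⁻¹ ^ m' * s)) =
          tauR R τ (r ⊗ₜ 1) * tauR R τ (1 ⊗ₜ (x⁻¹ ^ m' * s)) := by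
        rw [← map_mul, Algebra.TensorProduct.tmul_mul_tmul, one_mul, mul_one]
      have e2 : tauR R τ (1 ⊗ₜ x) ^ m * (tauR R τ (r ⊗ₜ (x⁻¹ ^ m' * s)) * a i) =
          tauR R τ (r ⊗ₜ 1) * (tauR R τ (1 ⊗ₜ x) ^ m *
            (tauR R τ (1 ⊗ₜ (x⁻¹ ^ m' * s)) * a i)) := by
        rw [e1]; ring
      rw [e2]
      exact hsmul _ _ (hmono s hs m')
    | zero => intro r; rw [tmul_zero, map_zero, zero_mul, mul_zero]; exact hzero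
    | add y z _ _ hy hz =>
      intro r
      rw [tmul_add, map_add, add_mul, mul_add]
      exact hadd _ _ (hy r) (hz r)
    | smul t y _ hy =>
      intro r
      rw [← smul_tmul]
      exact hy (t • r)
  have hc' := hc i
  let β := Module.Basis.ofVectorSpace k I₁
  obtain ⟨d, hd⟩ := (mem_baseChange_iff β (c i)).1 hc'
  rw [hd, tsum, Finsupp.sum]
  induction d.support using Finset.induction_on with
  | empty => simpa using hzero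
  | insert j s hj ih =>
    rw [Finset.sum_insert hj, map_add, add_mul, mul_add]
    exact hadd _ _ (hspan _ (β j).2 _) ih

include hC₀ hC₁ hτ hτ' hres hov in
/-- lifting sections from the special fibre. -/
theorem exists_lift
    (hsp : ∀ u' ∈ MM01 τ' B₁ x hS.mem₁ D'₁ I₁ hS.mul₁, ∃ v₀ ∈ MM τ' B₀ D'₀ I₀,
      ∃ v₁ ∈ MM τ' B₁ D'₁ I₁, u' = v₀ + v₁)
    {s' : E'} (hs₀ : s' ∈ MM τ' B₀ D'₀ I₀) (hs₁ : s' ∈ MM τ' B₁ D'₁ I₁) :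
    ∃ s ∈ MM (tauR R τ) B₀ DR₀ I₀, s ∈ MM (tauR R τ) B₁ DR₁ I₁ ∧
      gres res τ τ' (s * DR₀ (spPt res τ' B₀)) = s' := by
  have hδ := hov.spPt_eq res τ'
  -- module structure
  letI algE : Algebra R E := ((tauR R τ).comp
    (algebraMap R (R ⊗[k] F))).toAlgebra
  have hsm : ∀ (r : R) (u : E), r • u = tauR R τ (r ⊗ₜ 1) * u := fun r u => rfl
  let N₀ : Submodule R E :=
    { MM (tauR R τ) B₀ DR₀ I₀ with
      smul_mem' := fun r u hu => chι_mul_mem_MM hS.mul₀ (r ⊗ₜ 1) hu }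
  let N₁ : Submodule R E :=
    { MM (tauR R τ) B₁ DR₁ I₁ with
      smul_mem' := fun r u hu => chι_mul_mem_MM hS.mul₁ (r ⊗ₜ 1) hu }
  let N : Submodule R E :=
    { MM01 (tauR R τ) B₁ x hS.mem₁ DR₁ I₁ hS.mul₁ with
      smul_mem' := fun r u hu => smul_mem_MM01 hS r hu }
  have key : N ≤ N₀ ⊔ N₁ := by
    obtain ⟨S, hSN, hSP⟩ := MM01_fg hS hC₀ hC₁ hov
    let M := N₀ ⊔ N₁
    have h1 : (N.map M.mkQ).FG := by
      classical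
      refine ⟨S.image M.mkQ, le_antisymm ?_ ?_⟩
      · rw [Submodule.span_le]
        intro v hv
        rw [Finset.coe_image] at hv
        obtain ⟨w, hw, rfl⟩ := hv
        exact Submodule.mem_map_of_mem (hSN w hw)
      · rintro _ ⟨u, hu, rfl⟩
        refine hSP (fun u => M.mkQ u ∈ Submodule.span R ((S.image M.mkQ : Finset _) : Set (E ⧸ M)))
          ?_ ?_ ?_ ?_ ?_ ?_ u hu
        · intro v hv
          exact Submodule.subset_span (by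
            rw [Finset.coe_image]; exact Set.mem_image_of_mem _ hv)
        · intro v hv
          have : M.mkQ v = 0 := (Submodule.Quotient.mk_eq_zero M).2 (Submodule.mem_sup_left hv)
          rw [this]
          exact zero_mem _
        · intro v hv
          have : M.mkQ v = 0 := (Submodule.Quotient.mk_eq_zero M).2 (Submodule.mem_sup_right hv)
          rw [this]
          exact zero_mem _
        · intro v w hv hw
          rw [map_add]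
          exact add_mem hv hw
        · intro r v hv
          rw [← hsm, map_smul]
          exact Submodule.smul_mem _ _ hv
        · rw [map_zero]
          exact zero_mem _
    have h2 : N.map M.mkQ ≤ IsLocalRing.maximalIdeal R • N.map M.mkQ := by
      rintro _ ⟨u, hu, rfl⟩
      obtain ⟨v₀, hv₀, v₁, hv₁, m, hm, w, hw, e⟩ :=
        MM01_decomp hS hC₀ hC₁ hτ hτ' hres hov hsp hu
      have e2 : M.mkQ u = m • M.mkQ w := by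
        rw [← map_smul, hsm, e, map_add, map_add]
        have z0 : M.mkQ v₀ = 0 := (Submodule.Quotient.mk_eq_zero M).2 (Submodule.mem_sup_left hv₀)
        have z1 : M.mkQ v₁ = 0 := (Submodule.Quotient.mk_eq_zero M).2 (Submodule.mem_sup_right hv₁)
        rw [z0, z1, zero_add, zero_add]
      rw [e2]
      refine Submodule.smul_mem_smul ?_ (Submodule.mem_map_of_mem hw)
      rw [IsLocalRing.mem_maximalIdeal, mem_nonunits_iff]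
      intro hu
      exact (hu.map res.toRingHom).ne_zero hm
    have h3 := Submodule.eq_bot_of_le_smul_of_le_jacobson_bot (IsLocalRing.maximalIdeal R)
      (N.map M.mkQ) h1 h2 (by rw [IsLocalRing.jacobson_eq_maximalIdeal ⊥ bot_ne_top])
    intro u hu
    have : M.mkQ u ∈ N.map M.mkQ := Submodule.mem_map_of_mem hu
    rw [h3, Submodule.mem_bot] at this
    exact (Submodule.Quotient.mk_eq_zero M).1 this
  obtain ⟨s₀, hs₀', e₀⟩ := hC₀.MM_surj hτ hτ' hS.mul₀ hres hs₀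
  obtain ⟨s₁, hs₁', e₁⟩ := hC₁.MM_surj hτ hτ' hS.mul₁ hres hs₁
  have h01 := MM0_le_MM01 hS hC₀ hC₁ hov hs₀'
  have h11 := MM1_le_MM01 hS hs₁'
  have h0 : gres res τ τ' ((s₀ - s₁) * DR₁ (spPt res τ' B₁)) = 0 := by
    rw [sub_mul, gres, spe_sub (tauR_injective τ hτ) (MM01_mem_gauss hS hC₁ h01)
      (MM01_mem_gauss hS hC₁ h11), ← gres, ← gres, e₁, ← hδ, e₀, sub_self]
  obtain ⟨m, hm, w, hw, e⟩ := MM01_ker hS hC₁ hτ hτ' (sub_mem h01 h11) h0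
  obtain ⟨w₀, hw₀, w₁, hw₁, rfl⟩ := Submodule.mem_sup.1 (key hw)
  have hw₀' : tauR R τ (m ⊗ₜ 1) * w₀ ∈ MM (tauR R τ) B₀ DR₀ I₀ :=
    chι_mul_mem_MM hS.mul₀ (m ⊗ₜ 1) hw₀
  have hw₁' : tauR R τ (m ⊗ₜ 1) * w₁ ∈ MM (tauR R τ) B₁ DR₁ I₁ :=
    chι_mul_mem_MM hS.mul₁ (m ⊗ₜ 1) hw₁
  refine ⟨s₀ - tauR R τ (m ⊗ₜ 1) * w₀, sub_mem hs₀' hw₀', ?_, ?_⟩
  · have : s₀ - tauR R τ (m ⊗ₜ 1) * w₀ = s₁ + tauR R τ (m ⊗ₜ 1) * w₁ := by
      rw [mul_add] at e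
      linear_combination e
    rw [this]
    exact add_mem hs₁' hw₁'
  · have hg0 := hC₀.MM_mem hs₀'
    have hgw := hC₀.MM_mem hw₀
    rw [sub_mul, mul_assoc, gres, spe_sub (tauR_injective τ hτ) hg0
      (mul_mem (tauR_mem_gauss res τ τ' _) hgw),
      spe_mul (tauR_injective τ hτ) (tauR_mem_gauss res τ τ' _) hgw, ← gres, ← gres, ← gres, e₀,
      gres_tauR res τ τ' hτ]
    have : scal F res (m ⊗ₜ (1 : F)) = 0 := by
      change res m ⊗ₜ (1 : F) = 0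
      rw [hm, zero_tmul]
    rw [this, map_zero, zero_mul, sub_zero]

end Steps

end Lifting

end Fermat.Agent.AbVar.Sq
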